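import Fermat.Agent.FF.Degree

set_option autoImplicit false

noncomputable section

open AlgebraicCurve WithZero Module Polynomial IntermediateField

namespace Fermat.Agent.FF

variable {K F : Type*} [Field K] [Field F] [Algebra K F]

theorem finiteDimensional_of_essFiniteType (L E : Type*) [Field L] [Field E] [Algebra L E]
    [Algebra.EssFiniteType L E] [Algebra.IsAlgebraic L E] : FiniteDimensional L E := by
  obtain ⟨s, hs⟩ := IntermediateField.fg_top L E
  have h1 : FiniteDimensional L (IntermediateField.adjoin L (s : Set E)) :=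
    IntermediateField.finiteDimensional_adjoin fun x _ =>
      (Algebra.IsAlgebraic.isAlgebraic x).isIntegral
  rw [hs] at h1
  exact Module.Finite.equiv IntermediateField.topEquiv.toLinearEquiv

/-- Constructor: a f.g. field extension of transcendence degree at most one, containing a
transcendental element. -/
theorem IsFF.of_trdeg [Algebra.EssFiniteType K F] (hx : ∃ x : F, Transcendental K x)
    (htr : Algebra.trdeg K F ≤ 1) : IsFF K F where
  exists_transcendental := hx
  finite_adjoin y hy := by
    have h1 : AlgebraicIndependent K (fun _ : Unit => y) :=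
      (algebraicIndependent_unique_type_iff (ι := Unit)).mpr hy
    have h2 : IsTranscendenceBasis K (fun _ : Unit => y) :=
      h1.isTranscendenceBasis_of_lift_trdeg_le_of_finite (by
        simpa using htr)
    have h3 := h2.isAlgebraic_field
    rw [Set.range_const] at h3
    have h4 : Algebra.EssFiniteType K⟮y⟯ F := Algebra.EssFiniteType.of_comp K K⟮y⟯ F
    exact finiteDimensional_of_essFiniteType K⟮y⟯ F

open scoped IntermediateField.algebraAdjoinAdjoin in
theorem trdeg_le_one_of_finite {x : F} [FiniteDimensional K⟮x⟯ F] : Algebra.trdeg K F ≤ 1 := by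
  have h1 : Algebra.IsAlgebraic K⟮x⟯ F := inferInstance
  have h3 : Algebra.IsAlgebraic (Algebra.adjoin K {x}) F := Algebra.IsAlgebraic.trans _ K⟮x⟯ _
  have := Algebra.IsAlgebraic.trdeg_le_cardinalMk K {x} (A := F)
  simpa using this

theorem essFiniteType_of_finite {x : F} [FiniteDimensional K⟮x⟯ F] :
    Algebra.EssFiniteType K F := by
  have h1 : Algebra.EssFiniteType K K⟮x⟯ := by
    rw [IntermediateField.essFiniteType_iff]
    exact IntermediateField.fg_adjoin_of_finite (Set.finite_singleton x)
  exact Algebra.EssFiniteType.comp K K⟮x⟯ F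

theorem IsFF.of_finite {x : F} (hx : Transcendental K x) [FiniteDimensional K⟮x⟯ F] :
    IsFF K F := by
  have := essFiniteType_of_finite (K := K) (x := x)
  exact IsFF.of_trdeg ⟨x, hx⟩ (trdeg_le_one_of_finite (x := x))

instance (priority := 50) IsFF.essFiniteType [IsFF K F] : Algebra.EssFiniteType K F := by
  obtain ⟨x, hx⟩ := IsFF.exists_transcendental (K := K) (F := F)
  have := IsFF.finite_adjoin x hx
  exact essFiniteType_of_finite (K := K) (x := x)

theorem IsFF.trdeg_le_one (K F : Type*) [Field K] [Field F] [Algebra K F] [IsFF K F] :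
    Algebra.trdeg K F ≤ 1 := by
  obtain ⟨x, hx⟩ := IsFF.exists_transcendental (K := K) (F := F)
  have := IsFF.finite_adjoin x hx
  exact trdeg_le_one_of_finite (K := K) (x := x)

/-- finite extensions. -/
theorem IsFF.of_finite_extension [IsFF K F] (F' : Type*) [Field F'] [Algebra K F']
    [Algebra F F'] [IsScalarTower K F F'] [FiniteDimensional F F'] : IsFF K F' := by
  obtain ⟨x, hx⟩ := IsFF.exists_transcendental (K := K) (F := F)
  have hx' : Transcendental K (algebraMap F F' x) :=
    (transcendental_algebraMap_iff (algebraMap F F').injective).mpr hx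
  have h1 : Algebra.EssFiniteType K F' := Algebra.EssFiniteType.comp K F F'
  refine IsFF.of_trdeg ⟨_, hx'⟩ ?_
  have h2 := lift_trdeg_add_eq K F F'
  rw [(_root_.trdeg_eq_zero (R := F) (A := F'))] at h2
  have h3 := IsFF.trdeg_le_one K F
  rw [Cardinal.lift_zero, add_zero] at h2
  have h4 := h2.symm.le.trans (Cardinal.lift_le.mpr h3)
  simpa using h4

/-- change of base along an embedding of fields: `K(x) ≅ K(φ x)`. -/
theorem finite_of_algebraMap (F₀ : Type*) [Field F₀] [Algebra K F₀]
    [Algebra F₀ F] [IsScalarTower K F₀ F] (x : F₀)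
    [FiniteDimensional K⟮algebraMap F₀ F x⟯ F] : FiniteDimensional K⟮x⟯ F := by
  have h1 : K⟮x⟯.map (IsScalarTower.toAlgHom K F₀ F) = K⟮algebraMap F₀ F x⟯ := by
    rw [IntermediateField.adjoin_map, Set.image_singleton]
    rfl
  let e : K⟮x⟯ ≃ₐ[K] K⟮algebraMap F₀ F x⟯ :=
    (IntermediateField.equivMap K⟮x⟯ (IsScalarTower.toAlgHom K F₀ F)).trans
      (IntermediateField.equivOfEq h1)
  refine Module.Finite.of_equiv_equiv (A₁ := K⟮algebraMap F₀ F x⟯) (B₁ := F) e.symm.toRingEquiv
    (RingEquiv.refl F) ?_
  ext z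
  obtain ⟨w, rfl⟩ := e.surjective z
  simp only [RingHom.coe_comp, Function.comp_apply]
  show algebraMap K⟮x⟯ F (e.symm (e w)) = (e w : F)
  rw [e.symm_apply_apply]
  rfl

/-- intermediate fields. -/
theorem IsFF.of_tower [IsFF K F] (F₀ : Type*) [Field F₀] [Algebra K F₀]
    [Algebra F₀ F] [IsScalarTower K F₀ F] (hx : ∃ x : F₀, Transcendental K x) : IsFF K F₀ := by
  obtain ⟨x, hx⟩ := hx
  have hx' : Transcendental K (algebraMap F₀ F x) :=
    (transcendental_algebraMap_iff (algebraMap F₀ F).injective).mpr hx
  have h1 := IsFF.finite_adjoin _ hx'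
  have h2 : FiniteDimensional K⟮x⟯ F := finite_of_algebraMap F₀ x
  have h3 : FiniteDimensional K⟮x⟯ F₀ :=
    Module.Finite.of_injective (IsScalarTower.toAlgHom K⟮x⟯ F₀ F).toLinearMap
      (algebraMap F₀ F).injective
  exact IsFF.of_finite hx

theorem IsFF.finiteDimensional_of_tower [IsFF K F] (F₀ : Type*) [Field F₀] [Algebra K F₀]
    [Algebra F₀ F] [IsScalarTower K F₀ F] (hx : ∃ x : F₀, Transcendental K x) :
    FiniteDimensional F₀ F := by
  obtain ⟨x, hx⟩ := hx
  have hx' : Transcendental K (algebraMap F₀ F x) :=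
    (transcendental_algebraMap_iff (algebraMap F₀ F).injective).mpr hx
  have h1 := IsFF.finite_adjoin _ hx'
  have h2 : FiniteDimensional K⟮x⟯ F := finite_of_algebraMap F₀ x
  exact Module.Finite.of_restrictScalars_finite K⟮x⟯ F₀ F

end Fermat.Agent.FF
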