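import Fermat.Agent.FF.Norm
import Fermat.Prelude.Def_AlgebraicCurve_Correspondence

set_option autoImplicit false

noncomputable section

open AlgebraicCurve WithZero Module Polynomial IntermediateField IsLocalRing

namespace Fermat.Agent.FF

variable {K F F' : Type*} [Field K] [Field F] [Field F'] [Algebra K F] [Algebra K F']

/-- Any `K`-homomorphism between function fields of curves is finite. -/
theorem finiteAlong [IsFF K F] [IsFF K F'] (φ : F →ₐ[K] F') : FiniteAlong K φ := by
  let _ := algebraAlong φ
  have := isScalarTower_along φ
  exact IsFF.finiteDimensional_of_tower (K := K) (F := F') F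
    (IsFF.exists_transcendental (K := K) (F := F))

theorem isIntegralAlong [IsFF K F] [IsFF K F'] (φ : F →ₐ[K] F') : φ.toRingHom.IsIntegral := by
  let _ := algebraAlong φ
  have := isScalarTower_along φ
  have : Module.Finite F F' := finiteAlong φ
  exact (Algebra.IsIntegral.of_finite F F').isIntegral

theorem fundamentalIdentityAlong [IsFF K F] [IsFF K F'] (φ : F →ₐ[K] F')
    (hφ : φ.toRingHom.IsIntegral) [HasPrincipalDivisors K F'] :
    FundamentalIdentityAlong K φ hφ := by
  let _ := algebraAlong φ
  have := isScalarTower_along φ
  have := isIntegral_along φ hφ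
  have : Module.Finite F F' := finiteAlong φ
  have := sumRamificationInertia (K := K) (F := F) F'
  exact (inferInstance : FundamentalIdentity K F F')

theorem normFormulaAlong [IsFF K F] [IsFF K F'] (φ : F →ₐ[K] F') (hfin : FiniteAlong K φ) :
    NormFormulaAlong K φ hfin := by
  let _ := algebraAlong φ
  have := isScalarTower_along φ
  have : Module.Finite F F' := hfin
  exact pushforwardNormFormula K F F'

end Fermat.Agent.FF
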