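import Fermat.Agent.FF.Basic

set_option autoImplicit false

noncomputable section

open AlgebraicCurve WithZero

namespace Fermat.Agent.FF

variable {K F : Type*} [Field K] [Field F] [Algebra K F]

/-- Independence: positive at `v`, negative at all places of `s` (not containing `v`). -/
theorem exists_pos_forall_neg (v : Place K F) (s : Finset (Place K F)) (hv : v ∉ s) :
    ∃ u : F, u ≠ 0 ∧ 0 < v.ord u ∧ ∀ w ∈ s, w.ord u < 0 := by
  classical
  induction s using Finset.induction_on with
  | empty =>
    obtain ⟨π, hπ0, hπ⟩ := exists_uniformizer v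
    exact ⟨π, hπ0, by omega, by simp⟩
  | insert w s hws ih =>
    rw [Finset.mem_insert, not_or] at hv
    obtain ⟨y, hy0, hvy, hsy⟩ := ih hv.2
    rcases lt_or_ge (w.ord y) 0 with hwy | hwy
    · refine ⟨y, hy0, hvy, ?_⟩
      intro w' hw'
      rcases Finset.mem_insert.mp hw' with rfl | h
      · exact hwy
      · exact hsy w' h
    · obtain ⟨z, hz0, hvz, hwz⟩ := exists_pos_neg (v := v) (w := w) hv.1
      set r : ℕ := 1 + ∑ w' ∈ s, (w'.ord y).natAbs with hr
      have hr1 : 1 ≤ r := by omega
      have hzr0 : z ^ r ≠ 0 := pow_ne_zero _ hz0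
      have hw0 : w.ord (z ^ r) < 0 := by
        rw [ord_pow]
        have : (r : ℤ) * w.ord z ≤ 1 * w.ord z := by
          apply mul_le_mul_of_nonpos_right
          · exact_mod_cast hr1
          · omega
        linarith
      have hw1 : w.ord (z ^ r) < w.ord y := lt_of_lt_of_le hw0 hwy
      obtain ⟨hne, hw2⟩ := ord_add_eq_of_lt w hzr0 hy0 hw1
      refine ⟨z ^ r + y, hne, ?_, ?_⟩
      · have h1z : (1 : ℤ) ≤ v.ord (z ^ r) := by
          rw [ord_pow]
          have : (1 : ℤ) * 1 ≤ r * v.ord z := by
            apply mul_le_mul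
            · exact_mod_cast hr1
            · omega
            · omega
            · omega
          linarith
        have : (1 : ℤ) ≤ v.ord (z ^ r + y) := ord_add_ge v h1z (by omega) hne
        omega
      · intro w' hw'
        rcases Finset.mem_insert.mp hw' with rfl | h
        · omega
        · have hyneg := hsy w' h
          have hle : (w'.ord y).natAbs ≤ ∑ w' ∈ s, (w'.ord y).natAbs :=
            Finset.single_le_sum (f := fun w' : Place K F => (w'.ord y).natAbs)
              (fun _ _ => Nat.zero_le _) h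
          have hrlt : -(w'.ord y) < r := by omega
          have hne' : w'.ord (z ^ r) ≠ w'.ord y := by
            rw [ord_pow]
            intro heq
            rcases lt_or_ge (w'.ord z) 0 with h1 | h1
            · have h2 : (r : ℤ) * w'.ord z ≤ r * (-1) :=
                mul_le_mul_of_nonneg_left (by omega) (by omega)
              linarith
            · have h2 : 0 ≤ (r : ℤ) * w'.ord z := mul_nonneg (by omega) h1
              linarith
          rcases lt_or_gt_of_ne hne' with hlt | hgt
          · have h3 := (ord_add_eq_of_lt w' hzr0 hy0 hlt).2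
            rw [h3]; exact hlt.trans hyneg
          · have h3 := (ord_add_eq_of_lt w' hy0 hzr0 hgt).2
            rw [add_comm] at h3
            rw [h3]; exact hyneg

theorem val_one_add_eq_one (v : Place K F) {u : F} (hu0 : u ≠ 0) (hu : 0 < v.ord u) :
    1 + u ≠ 0 ∧ v.ord (1 + u) = 0 := by
  have := ord_add_eq_of_lt v (f := 1) (g := u) one_ne_zero hu0 (by rw [v.ord_one]; exact hu)
  rw [v.ord_one] at this
  exact this

/-- Approximate idempotents. -/
theorem exists_approx_idem (v : Place K F) (s : Finset (Place K F)) (hv : v ∉ s) (n : ℕ) :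
    ∃ e : F, v.adicValuation (e - 1) ≤ exp (-(n : ℤ)) ∧
      ∀ w ∈ s, w.adicValuation e ≤ exp (-(n : ℤ)) := by
  obtain ⟨u, hu0, hvu, hsu⟩ := exists_pos_forall_neg v s hv
  set N : ℕ := n + 1 with hN
  have huN0 : u ^ N ≠ 0 := pow_ne_zero _ hu0
  have hvN : (n : ℤ) < v.ord (u ^ N) := by
    rw [ord_pow]
    have : ((N : ℕ) : ℤ) * 1 ≤ N * v.ord u := by
      apply mul_le_mul_of_nonneg_left (by omega) (by omega)
    omega
  obtain ⟨h1, h2⟩ := val_one_add_eq_one v huN0 (by omega)
  refine ⟨(1 + u ^ N)⁻¹, ?_, ?_⟩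
  · have : (1 + u ^ N)⁻¹ - 1 = -(u ^ N * (1 + u ^ N)⁻¹) := by
      field_simp; ring
    rw [this, Valuation.map_neg, v.adicValuation_le_exp_iff]
    right
    rw [v.ord_mul huN0 (inv_ne_zero h1), v.ord_inv, h2]
    omega
  · intro w hw
    have hwu := hsu w hw
    have hwN : w.ord (u ^ N) < -(n : ℤ) := by
      rw [ord_pow]
      have : ((N : ℕ) : ℤ) * w.ord u ≤ N * (-1) := by
        apply mul_le_mul_of_nonneg_left (by omega) (by omega)
      omega
    have h3 := (ord_add_eq_of_lt w huN0 (one_ne_zero) (by rw [w.ord_one]; omega)).2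
    rw [w.adicValuation_le_exp_iff]
    right
    rw [w.ord_inv, add_comm, h3]
    omega

/-- Weak approximation. -/
theorem weak_approx (s : Finset (Place K F)) (x : Place K F → F) (n : Place K F → ℤ) :
    ∃ z : F, ∀ v ∈ s, v.adicValuation (z - x v) ≤ exp (n v) := by
  classical
  -- choose `m` large
  set m : ℕ := ∑ v ∈ s, ∑ w ∈ s, ((n w).natAbs + (w.ord (x v)).natAbs) with hm
  have hbound : ∀ v ∈ s, ∀ w ∈ s, (n w).natAbs + (w.ord (x v)).natAbs ≤ m := by
    intro v hv w hw
    calc (n w).natAbs + (w.ord (x v)).natAbs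
        ≤ ∑ w ∈ s, ((n w).natAbs + (w.ord (x v)).natAbs) :=
          Finset.single_le_sum (f := fun w : Place K F => (n w).natAbs + (w.ord (x v)).natAbs)
            (fun _ _ => Nat.zero_le _) hw
      _ ≤ m := Finset.single_le_sum
            (f := fun v : Place K F => ∑ w ∈ s, ((n w).natAbs + (w.ord (x v)).natAbs))
            (fun _ _ => Nat.zero_le _) hv
  have hch : ∀ v : Place K F, ∃ e : F, v.adicValuation (e - 1) ≤ exp (-(m : ℤ)) ∧
      ∀ w ∈ s.erase v, w.adicValuation e ≤ exp (-(m : ℤ)) := fun v =>
    exists_approx_idem v (s.erase v) (Finset.notMem_erase v s) m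
  choose e he1 he2 using hch
  refine ⟨∑ v ∈ s, e v * x v, fun w hw => ?_⟩
  have hmul : ∀ v ∈ s, ∀ c : F, w.adicValuation c ≤ exp (-(m : ℤ)) →
      w.adicValuation (c * x v) ≤ exp (n w) := by
    intro v hv c hc
    rcases eq_or_ne (x v) 0 with h0 | h0
    · rw [h0, mul_zero, map_zero]; exact zero_le
    · rw [map_mul, w.adicValuation_eq_exp_neg_ord h0]
      calc w.adicValuation c * exp (-w.ord (x v)) ≤ exp (-(m : ℤ)) * exp (-w.ord (x v)) := by
            gcongr
        _ = exp (-(m : ℤ) + -w.ord (x v)) := by rw [exp_add]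
        _ ≤ exp (n w) := by
            rw [exp_le_exp]
            have := hbound v hv w hw
            omega
  have hsplit : ∑ v ∈ s, e v * x v - x w
      = ∑ v ∈ s, (if v = w then e v - 1 else e v) * x v := by
    rw [← Finset.add_sum_erase s _ hw, ← Finset.add_sum_erase s _ hw]
    rw [if_pos rfl]
    have : ∑ v ∈ s.erase w, (if v = w then e v - 1 else e v) * x v
        = ∑ v ∈ s.erase w, e v * x v := by
      refine Finset.sum_congr rfl fun v hv => ?_
      rw [if_neg (Finset.ne_of_mem_erase hv)]
    rw [this]; ring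
  rw [hsplit]
  refine Valuation.map_sum_le _ fun v hv => ?_
  apply hmul v hv
  by_cases hvw : v = w
  · subst hvw; rw [if_pos rfl]; exact he1 v
  · rw [if_neg hvw]
    exact he2 v w (Finset.mem_erase.mpr ⟨fun h => hvw h.symm, hw⟩)

end Fermat.Agent.FF
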