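import Fermat.Agent.FF.Construct

set_option autoImplicit false

noncomputable section

open AlgebraicCurve WithZero Module Polynomial IntermediateField

namespace Fermat.Agent.FF

variable {K F : Type*} [Field K] [Field F] [Algebra K F]

theorem deg_eq_one [IsAlgClosed K] [IsFF K F] (v : Place K F) : v.deg = 1 :=
  v.deg_eq_one_of_isAlgClosed_of_finite

theorem algebraMap_residueField_bijective [IsAlgClosed K] [IsFF K F] (v : Place K F) :
    Function.Bijective (algebraMap K v.ResidueField) :=
  IsAlgClosed.algebraMap_bijective_of_isIntegral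

/-- Fundamental identity at the zeros of `y`, general constant field. -/
theorem sum_ord_mul_deg_eq_finrank [IsFF K F] {y : F} (hy : Transcendental K y) :
    ∑ v ∈ (finite_zeros hy).toFinset, v.ord y * (v.deg : ℤ) = finrank K⟮y⟯ F := by
  rw [← degree_zeroDiv hy, degree_eq_sum _ (finite_zeros hy).toFinset]
  · refine Finset.sum_congr rfl fun v hv => ?_
    have hv' : 0 < v.ord y := by simpa using hv
    rw [zeroDiv_apply, max_eq_left hv'.le]
  · intro v hv
    rw [Finsupp.mem_support_iff, zeroDiv_apply] at hv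
    simp only [Set.Finite.mem_toFinset]
    show 0 < v.ord y
    by_contra h
    exact hv (max_eq_right (by omega))

/-- Fundamental identity at the zeros of `y`, algebraically closed constant field. -/
theorem sum_ord_eq_finrank [IsAlgClosed K] [IsFF K F] {y : F} (hy : Transcendental K y) :
    ∑ v ∈ (finite_zeros hy).toFinset, v.ord y = finrank K⟮y⟯ F := by
  rw [← sum_ord_mul_deg_eq_finrank hy]
  refine Finset.sum_congr rfl fun v _ => ?_
  rw [deg_eq_one v]; simp

/-- Constants: for `K` algebraically closed, algebraic elements are constants. -/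
theorem mem_range_of_isAlgebraic [IsAlgClosed K] {x : F} (hx : IsAlgebraic K x) :
    x ∈ Set.range (algebraMap K F) := by
  have h1 : IsIntegral K x := hx.isIntegral
  have h2 := IsAlgClosed.degree_eq_one_of_irreducible K (minpoly.irreducible h1)
  have h3 : (minpoly K x).natDegree = 1 := natDegree_eq_of_degree_eq_some h2
  have h4 := (minpoly.natDegree_eq_one_iff (A := K) (x := x)).mp h3
  simpa using h4

/-- Integral closure as an intersection of valuation rings of places. -/
theorem isIntegral_iff_forall_place [IsFF K F] (R : Subalgebra K F) (b : F) :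
    IsIntegral R b ↔ ∀ w : Place K F, (∀ r ∈ R, r ∈ w.toValuationSubring) →
      b ∈ w.toValuationSubring := by
  constructor
  · intro hb w hw
    let _ : Algebra R w.toValuationSubring :=
      (R.toSubring.subtype.codRestrict w.toValuationSubring.toSubring
        (fun x => hw x x.2)).toAlgebra
    have : IsScalarTower R w.toValuationSubring F := IsScalarTower.of_algebraMap_eq fun a => rfl
    have h1 : IsIntegral w.toValuationSubring b := hb.tower_top
    obtain ⟨y, hy⟩ := IsIntegrallyClosed.isIntegral_iff.mp h1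
    exact hy ▸ y.2
  · intro h
    by_contra hb
    have hb' : b ∉ (integralClosure R F).toSubring := hb
    obtain ⟨V, hRV, hbV⟩ := Subring.exists_le_valuationSubring_of_isIntegrallyClosedIn hb'
    have hRV' : ∀ r ∈ R, r ∈ V := fun r hr =>
      hRV (show r ∈ integralClosure R F from isIntegral_algebraMap (x := (⟨r, hr⟩ : R)))
    have hKV : ∀ a : K, algebraMap K F a ∈ V := fun a => hRV' _ (R.algebraMap_mem a)
    have hne : V ≠ ⊤ := by
      rintro rfl; exact hbV (ValuationSubring.mem_top b)
    exact hbV (h (placeOf V hKV hne) hRV')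

theorem aeval_mem (w : Place K F) {y : F} (hy : y ∈ w.toValuationSubring) (p : K[X]) :
    aeval y p ∈ w.toValuationSubring := by
  induction p using Polynomial.induction_on' with
  | add p q hp hq => rw [map_add]; exact add_mem hp hq
  | monomial n a =>
    rw [aeval_monomial]
    exact mul_mem (w.algebraMap_mem' a) (pow_mem hy n)

/-- If `y` is integral at `w`, some nonzero polynomial in `y` vanishes at `w`. -/
theorem exists_poly_pos [IsFF K F] {y : F} (hy : Transcendental K y) (w : Place K F)
    (hyw : y ∈ w.toValuationSubring) : ∃ p : K[X], p ≠ 0 ∧ 0 < w.ord (aeval y p) := by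
  have hfin := IsFF.finite_adjoin y hy
  obtain ⟨f, hf0, hf⟩ := w.exists_ord_eq_ramificationIndex (F := K⟮y⟯)
  have hpos := w.ramificationIndex_pos (F := K⟮y⟯)
  obtain ⟨r, s, hrs⟩ := (IntermediateField.mem_adjoin_simple_iff K (f : F)).mp f.2
  have hfF : (f : F) ≠ 0 := by simpa using hf0
  have hr0 : aeval y r ≠ 0 := by
    intro h; rw [h, zero_div] at hrs; exact hfF hrs
  have hs0 : aeval y s ≠ 0 := by
    intro h; rw [h, div_zero] at hrs; exact hfF hrs
  have h1 : w.ord (f : F) = w.ord (aeval y r) - w.ord (aeval y s) := by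
    rw [hrs, div_eq_mul_inv, w.ord_mul hr0 (inv_ne_zero hs0), w.ord_inv]; ring
  have h2 := (mem_iff_ord_nonneg w hs0).mp (aeval_mem w hyw s)
  have h3 : w.ord (f : F) = (w.ramificationIndex K⟮y⟯ : ℤ) := hf
  refine ⟨r, ?_, by omega⟩
  rintro rfl
  simp at hr0

/-- If `ord_w y = 0`, there is a polynomial with nonzero constant term vanishing at `w`. -/
theorem exists_poly_pos' [IsFF K F] {y : F} (hy : Transcendental K y) (w : Place K F)
    (hyw : w.ord y = 0) : ∃ q : K[X], q.coeff 0 ≠ 0 ∧ 0 < w.ord (aeval y q) := by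
  have hy0 : y ≠ 0 := by rintro rfl; exact hy isAlgebraic_zero
  obtain ⟨p, hp0, hp⟩ := exists_poly_pos hy w ((mem_iff_ord_nonneg w hy0).mpr hyw.ge)
  obtain ⟨q, hq, hq'⟩ := Polynomial.exists_eq_pow_rootMultiplicity_mul_and_not_dvd p hp0 0
  rw [map_zero, sub_zero] at hq hq'
  have hq0 : q.coeff 0 ≠ 0 := by
    intro h; exact hq' (X_dvd_iff.mpr h)
  refine ⟨q, hq0, ?_⟩
  rw [hq, map_mul, map_pow, aeval_X] at hp
  have hyk : y ^ p.rootMultiplicity 0 ≠ 0 := pow_ne_zero _ hy0
  have hqne : aeval y q ≠ 0 := by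
    intro h
    rw [h, mul_zero, w.ord_zero] at hp
    exact lt_irrefl _ hp
  rw [w.ord_mul hyk hqne, ord_pow, hyw, mul_zero, zero_add] at hp
  exact hp

/-- Separation by integral elements: for places `v ∉ s`, all zeros of `y`, there is `b`
integral over `K[y]` with `b(v) ≠ 0` and `b(w) = 0` for `w ∈ s`; moreover `b` can be chosen
to be congruent to a prescribed `c` up to a unit... -/
theorem exists_integral_multiple [IsFF K F] {y : F} (hy : Transcendental K y) (c : F)
    (hc : ∀ w : Place K F, 0 < w.ord y → c ∈ w.toValuationSubring) :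
    ∃ q : K[X], q.coeff 0 ≠ 0 ∧ IsIntegral (Algebra.adjoin K {y}) (aeval y q * c) := by
  classical
  have hy0 : y ≠ 0 := by rintro rfl; exact hy isAlgebraic_zero
  -- the bad places
  set B : Finset (Place K F) := (finite_ord_ne_zero (K := K) c).toFinset.filter
    (fun w => w.ord y = 0) with hB
  have hch : ∀ w : Place K F, ∃ q : K[X], q.coeff 0 ≠ 0 ∧ (w.ord y = 0 → 0 < w.ord (aeval y q)) := by
    intro w
    by_cases h : w.ord y = 0
    · obtain ⟨q, h1, h2⟩ := exists_poly_pos' hy w h
      exact ⟨q, h1, fun _ => h2⟩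
    · exact ⟨1, by simp, fun h' => absurd h' h⟩
  choose q hq0 hq using hch
  refine ⟨∏ w ∈ B, q w ^ (w.ord c).natAbs, ?_, ?_⟩
  · rw [Polynomial.coeff_zero_prod]
    exact Finset.prod_ne_zero_iff.mpr fun w _ => by
      rw [Polynomial.coeff_zero_eq_eval_zero, eval_pow, ← Polynomial.coeff_zero_eq_eval_zero]
      exact pow_ne_zero _ (hq0 w)
  · rw [isIntegral_iff_forall_place]
    intro w hw
    have hyw : y ∈ w.toValuationSubring := hw y (Algebra.subset_adjoin rfl)
    rcases eq_or_ne c 0 with rfl | hc0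
    · rw [mul_zero]; exact zero_mem _
    have hqw : ∀ p : K[X], aeval y p ∈ w.toValuationSubring := aeval_mem w hyw
    by_cases hyw0 : 0 < w.ord y
    · exact mul_mem (hqw _) (hc w hyw0)
    have hyw1 : w.ord y = 0 := by
      have := (mem_iff_ord_nonneg w hy0).mp hyw
      omega
    by_cases hcw : w.ord c = 0
    · exact mul_mem (hqw _) ((mem_iff_ord_nonneg w hc0).mpr hcw.ge)
    have hwB : w ∈ B := by
      rw [hB, Finset.mem_filter]
      exact ⟨by simpa using hcw, hyw1⟩
    rw [← Finset.mul_prod_erase B _ hwB, map_mul, map_pow]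
    have hqne : aeval y (q w) ≠ 0 := by
      intro h
      have := hq w hyw1
      rw [h, w.ord_zero] at this
      exact lt_irrefl _ this
    have hkey : aeval y (q w) ^ (w.ord c).natAbs * c ∈ w.toValuationSubring := by
      rw [mem_iff_ord_nonneg w (mul_ne_zero (pow_ne_zero _ hqne) hc0),
        w.ord_mul (pow_ne_zero _ hqne) hc0, ord_pow]
      have h1 := hq w hyw1
      have h2 : (((w.ord c).natAbs : ℕ) : ℤ) * 1 ≤ (w.ord c).natAbs * w.ord (aeval y (q w)) :=
        mul_le_mul_of_nonneg_left (by omega) (by omega)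
      omega
    have := mul_mem (hqw (∏ x ∈ B.erase w, q x ^ (x.ord c).natAbs)) hkey
    convert this using 1
    ring

theorem ord_aeval_eq_zero (w : Place K F) {y : F} (hyw : 0 < w.ord y) {q : K[X]}
    (hq : q.coeff 0 ≠ 0) : aeval y q ≠ 0 ∧ w.ord (aeval y q) = 0 := by
  have hy0 : y ≠ 0 := by rintro rfl; simp at hyw
  have hymem : y ∈ w.toValuationSubring := (mem_iff_ord_nonneg w hy0).mpr hyw.le
  have h1 : aeval y q = algebraMap K F (q.coeff 0) + y * aeval y (divX q) := by
    conv_lhs => rw [← X_mul_divX_add q]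
    rw [map_add, map_mul, aeval_X, aeval_C, add_comm]
  have hc0 : algebraMap K F (q.coeff 0) ≠ 0 := by simpa using hq
  rcases eq_or_ne (aeval y (divX q)) 0 with h0 | h0
  · rw [h1, h0, mul_zero, add_zero]
    exact ⟨hc0, ord_algebraMap w _⟩
  · have h2 := (mem_iff_ord_nonneg w h0).mp (aeval_mem w hymem (divX q))
    rw [h1]
    have h3 := ord_add_eq_of_lt w hc0 (mul_ne_zero hy0 h0)
      (by rw [ord_algebraMap, w.ord_mul hy0 h0]; omega)
    rw [ord_algebraMap] at h3
    exact h3

theorem exists_integral_separating [IsFF K F] {y : F} (hy : Transcendental K y) (v : Place K F)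
    (s : Finset (Place K F)) (hv : v ∉ s) (hvy : 0 < v.ord y) (hsy : ∀ w ∈ s, 0 < w.ord y) :
    ∃ b : F, IsIntegral (Algebra.adjoin K {y}) b ∧ b ≠ 0 ∧ v.ord b = 0 ∧
      ∀ w ∈ s, 0 < w.ord b := by
  classical
  obtain ⟨c, hc⟩ := weak_approx (finite_zeros hy).toFinset (fun w => if w ∈ s then 0 else 1)
    (fun _ => -1)
  have hmemZ : ∀ w : Place K F, 0 < w.ord y → w ∈ (finite_zeros (K := K) hy).toFinset :=
    fun w hw => by simpa using hw
  have hcv : v.adicValuation (c - 1) ≤ exp (-1) := by
    have := hc v (hmemZ v hvy)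
    simpa [hv] using this
  have hcs : ∀ w ∈ s, w.adicValuation c ≤ exp (-1) := by
    intro w hw
    have := hc w (hmemZ w (hsy w hw))
    simpa [hw] using this
  have hc1 : ∀ w, 0 < w.ord y → w ∉ s → w.ord c = 0 ∧ c ≠ 0 := by
    intro w hw hws
    have h1 := hc w (hmemZ w hw)
    rw [if_neg hws] at h1
    rcases eq_or_ne (c - 1) 0 with h2 | h2
    · have : c = 1 := sub_eq_zero.mp h2
      rw [this]; exact ⟨w.ord_one, one_ne_zero⟩
    · have h3 := (w.adicValuation_le_exp_iff.mp h1).resolve_left h2
      have h4 := ord_add_eq_of_lt w (one_ne_zero) h2 (by rw [w.ord_one]; omega)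
      rw [add_sub_cancel, w.ord_one] at h4
      exact ⟨h4.2, h4.1⟩
  have hc0 : c ≠ 0 := (hc1 v hvy hv).2
  have hint : ∀ w : Place K F, 0 < w.ord y → c ∈ w.toValuationSubring := by
    intro w hw
    rw [mem_iff_ord_nonneg w hc0]
    by_cases hws : w ∈ s
    · have := (w.adicValuation_le_exp_iff.mp (hcs w hws)).resolve_left hc0
      omega
    · exact (hc1 w hw hws).1.ge
  obtain ⟨q, hq0, hq⟩ := exists_integral_multiple hy c hint
  refine ⟨aeval y q * c, hq, ?_, ?_, ?_⟩
  · exact mul_ne_zero (ord_aeval_eq_zero v hvy hq0).1 hc0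
  · rw [v.ord_mul (ord_aeval_eq_zero v hvy hq0).1 hc0, (ord_aeval_eq_zero v hvy hq0).2,
      (hc1 v hvy hv).1, add_zero]
  · intro w hw
    have h1 := ord_aeval_eq_zero w (hsy w hw) hq0
    rw [w.ord_mul h1.1 hc0, h1.2]
    have := (w.adicValuation_le_exp_iff.mp (hcs w hw)).resolve_left hc0
    omega

end Fermat.Agent.FF
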