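import Mathlib
import Fermat.Prelude.Def_AlgebraicCurve_CanonicalDivisor
import Fermat.Prelude.Def_AlgebraicCurve_IsCurveOver
import Fermat.Prelude.Def_AlgebraicCurve_Repartitions

/-! Differentials on function fields over an algebraically closed field of characteristic zero
(helper80).  Main facts: for a place `v` whose valuation ring is essentially of finite type over `K`
and with residue field `K`, `Ω[F⁄K]` is generated by the differential of a uniformizer, the
derivation `d/dπ` preserves the valuation ring, and `v.ordDifferential (D y) = v.ord y - 1` when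
`v.ord y ≠ 0`. -/

set_option autoImplicit false

noncomputable section

open AlgebraicCurve IsLocalRing KaehlerDifferential

namespace Fermat.Agent.FFDiff

variable {K F : Type*} [Field K] [Field F] [Algebra K F]

section Nakayama

variable (v : Place K F)

theorem exists_eq_algebraMap_add (hres : Function.Surjective (algebraMap K v.ResidueField))
    {π : v.toValuationSubring} (hπ : Irreducible π) (f : v.toValuationSubring) :
    ∃ (a : K) (g : v.toValuationSubring), f = algebraMap K _ a + π * g := by
  obtain ⟨a, ha⟩ := hres (IsLocalRing.residue _ f)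
  refine ⟨a, ?_⟩
  have h1 : IsLocalRing.residue _ (f - algebraMap K v.toValuationSubring a) = 0 := by
    rw [map_sub, sub_eq_zero, ← ha]
    rfl
  rw [IsLocalRing.residue_eq_zero_iff, hπ.maximalIdeal_eq, Ideal.mem_span_singleton'] at h1
  obtain ⟨g, hg⟩ := h1
  exact ⟨g, by rw [mul_comm, hg]; ring⟩

theorem span_D_eq_top [Algebra.EssFiniteType K v.toValuationSubring]
    (hres : Function.Surjective (algebraMap K v.ResidueField))
    {π : v.toValuationSubring} (hπ : Irreducible π) :
    Submodule.span v.toValuationSubring {KaehlerDifferential.D K v.toValuationSubring π} = ⊤ := by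
  have hfg : (⊤ : Submodule v.toValuationSubring Ω[v.toValuationSubring⁄K]).FG :=
    Module.Finite.fg_top
  have key : (⊤ : Submodule v.toValuationSubring Ω[v.toValuationSubring⁄K]) ≤
      Submodule.span v.toValuationSubring {KaehlerDifferential.D K v.toValuationSubring π} ⊔
      (maximalIdeal v.toValuationSubring) •
        (⊤ : Submodule v.toValuationSubring Ω[v.toValuationSubring⁄K]) := by
    rw [← KaehlerDifferential.span_range_derivation K v.toValuationSubring, Submodule.span_le]
    rintro _ ⟨f, rfl⟩
    obtain ⟨a, g, rfl⟩ := exists_eq_algebraMap_add v hres hπ f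
    rw [map_add, Derivation.map_algebraMap, zero_add, Derivation.leibniz]
    refine add_mem ?_ ?_
    · refine Submodule.mem_sup_right (Submodule.smul_mem_smul ?_ ?_)
      · rw [hπ.maximalIdeal_eq]
        exact Ideal.mem_span_singleton_self π
      · exact Submodule.subset_span ⟨g, rfl⟩
    · exact Submodule.mem_sup_left
        (Submodule.smul_mem _ g (Submodule.mem_span_singleton_self _))
  exact top_le_iff.mp (Submodule.le_of_le_smul_of_le_jacobson_bot hfg
    (IsLocalRing.maximalIdeal_le_jacobson _) key)

/-- in the valuation ring `A`, `D f = c • D π` for some `c ∈ A`, pushed to `Ω[F⁄K]`. -/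
theorem exists_D_eq_smul [Algebra.EssFiniteType K v.toValuationSubring]
    (hres : Function.Surjective (algebraMap K v.ResidueField))
    {π : v.toValuationSubring} (hπ : Irreducible π) (f : v.toValuationSubring) :
    ∃ c : v.toValuationSubring,
      KaehlerDifferential.D K F (f : F) = (c : F) • KaehlerDifferential.D K F (π : F) := by
  have h1 : KaehlerDifferential.D K v.toValuationSubring f ∈
      Submodule.span v.toValuationSubring {KaehlerDifferential.D K v.toValuationSubring π} := by
    rw [span_D_eq_top v hres hπ]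
    exact Submodule.mem_top
  obtain ⟨c, hc⟩ := Submodule.mem_span_singleton.mp h1
  refine ⟨c, ?_⟩
  have h2 := congrArg (KaehlerDifferential.map K K v.toValuationSubring F) hc
  rw [map_smul, KaehlerDifferential.map_D, KaehlerDifferential.map_D] at h2
  exact h2.symm

end Nakayama

section Coord

variable (v : Place K F)

/-- `v.dCoord` is the differential of a uniformizer. -/
theorem exists_uniformizer : ∃ π : v.toValuationSubring, Irreducible π ∧
    v.dCoord = KaehlerDifferential.D K F (π : F) :=
  ⟨_, (IsDiscreteValuationRing.exists_irreducible v.toValuationSubring).choose_spec, rfl⟩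

theorem dCoordGenerates [Algebra.EssFiniteType K v.toValuationSubring]
    (hres : Function.Surjective (algebraMap K v.ResidueField)) : v.DCoordGenerates where
  span_eq_top := by
    obtain ⟨π, hπ, hd⟩ := exists_uniformizer v
    rw [hd, eq_top_iff, ← KaehlerDifferential.span_range_derivation K F, Submodule.span_le]
    rintro _ ⟨f, rfl⟩
    rcases v.toValuationSubring.mem_or_inv_mem f with hf | hf
    · obtain ⟨c, hc⟩ := exists_D_eq_smul v hres hπ ⟨f, hf⟩
      rw [show ((⟨f, hf⟩ : v.toValuationSubring) : F) = f from rfl] at hc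
      rw [SetLike.mem_coe, hc]
      exact Submodule.smul_mem _ _ (Submodule.mem_span_singleton_self _)
    · obtain ⟨c, hc⟩ := exists_D_eq_smul v hres hπ ⟨f⁻¹, hf⟩
      rw [show ((⟨f⁻¹, hf⟩ : v.toValuationSubring) : F) = f⁻¹ from rfl] at hc
      have h1 : KaehlerDifferential.D K F f = (-(f ^ 2) * c) • KaehlerDifferential.D K F (π : F) := by
        rw [mul_smul, ← hc]
        have h2 := Derivation.leibniz_inv (KaehlerDifferential.D K F) f⁻¹
        rw [inv_inv] at h2
        rw [h2]
      rw [SetLike.mem_coe, h1]
      exact Submodule.smul_mem _ _ (Submodule.mem_span_singleton_self _)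

/-- If `D f = c • dCoord` with `c ≠ 0` then `ordDifferential (D f) = ord c`. -/
theorem ordDifferential_of_eq_smul [v.DCoordGenerates] [Nontrivial Ω[F⁄K]] {ω : Ω[F⁄K]} {c : F}
    (h : ω = c • v.dCoord) : v.ordDifferential ω = v.ord c := by
  rw [Place.ordDifferential, v.differentialCoeff_unique h]

theorem differentialCoeff_ne_zero [v.DCoordGenerates] {ω : Ω[F⁄K]} (hω : ω ≠ 0) :
    v.differentialCoeff ω ≠ 0 := by
  intro h
  apply hω
  rw [← v.differentialCoeff_smul_dCoord ω, h, zero_smul]

end Coord

section Ord

variable (v : Place K F)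

theorem mem_iff_ord_nonneg {f : F} (hf : f ≠ 0) :
    f ∈ v.toValuationSubring ↔ 0 ≤ v.ord f := by
  obtain ⟨π, hπ⟩ := IsDiscreteValuationRing.exists_irreducible v.toValuationSubring
  constructor
  · intro h
    obtain ⟨n, u, hu⟩ := IsDiscreteValuationRing.eq_unit_mul_pow_irreducible
      (x := (⟨f, h⟩ : v.toValuationSubring)) (by simpa [Subtype.ext_iff] using hf) hπ
    have hcoe : f = ((u : v.toValuationSubring) : F) * ((π : F) ^ (n : ℤ)) := by
      have h := congrArg (Subtype.val) hu
      push_cast at h
      rw [zpow_natCast]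
      exact h
    rw [hcoe, v.ord_unit_smul_zpow u hπ (n : ℤ)]
    exact Int.natCast_nonneg n
  · intro h
    obtain ⟨u, hu⟩ := v.exists_unit_mul_zpow hf hπ
    rw [hu, show v.ord f = (((v.ord f).toNat : ℕ) : ℤ) from (Int.toNat_of_nonneg h).symm,
      zpow_natCast]
    exact mul_mem (u : v.toValuationSubring).2 (pow_mem (π : v.toValuationSubring).2 _)

theorem ord_coe_nonneg (f : v.toValuationSubring) : 0 ≤ v.ord (f : F) := by
  rcases eq_or_ne (f : F) 0 with h | h
  · simp [h]
  · exact (mem_iff_ord_nonneg v h).mp f.2

/-- ultrametric: `ord (f + g) = ord f` if `ord f < ord g` (or `g = 0`). -/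
theorem ord_add_eq {f g : F} (hf : f ≠ 0) (hg : g = 0 ∨ v.ord f < v.ord g) :
    v.ord (f + g) = v.ord f := by
  rcases eq_or_ne g 0 with rfl | hg0
  · simp
  have hlt := hg.resolve_left hg0
  have h1 : v.adicValuation g < v.adicValuation f := by
    rw [v.adicValuation_eq_exp_neg_ord hf, v.adicValuation_eq_exp_neg_ord hg0,
      WithZero.exp_lt_exp]
    omega
  have h2 : v.adicValuation (f + g) = v.adicValuation f :=
    Valuation.map_add_eq_of_lt_left _ h1
  rw [Place.ord, Place.ord, h2]

theorem ord_algebraMap {a : K} (ha : a ≠ 0) : v.ord (algebraMap K F a) = 0 := by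
  have hu : IsUnit (algebraMap K v.toValuationSubring a) := ha.isUnit.map _
  have := v.ord_coe_unit hu.unit
  rwa [IsUnit.unit_spec, v.coe_algebraMap] at this

/-- the order of vanishing of the differential of `y` when `ord y ≠ 0`, in characteristic zero. -/
theorem ordDifferential_D [CharZero K] [Algebra.EssFiniteType K v.toValuationSubring]
    (hres : Function.Surjective (algebraMap K v.ResidueField)) [Nontrivial Ω[F⁄K]]
    {y : F} (hy : v.ord y ≠ 0) :
    v.ordDifferential (KaehlerDifferential.D K F y) = v.ord y - 1 := by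
  have := dCoordGenerates v hres
  obtain ⟨π, hπ, hd⟩ := exists_uniformizer v
  have hy0 : y ≠ 0 := by rintro rfl; simp at hy
  obtain ⟨u, hu⟩ := v.exists_unit_mul_zpow hy0 hπ
  set e := v.ord y with he
  have hπF : (π : F) ≠ 0 := by
    simpa [ne_eq, ZeroMemClass.coe_eq_zero] using hπ.ne_zero
  have huF : ((u : v.toValuationSubring) : F) ≠ 0 := by
    simp [ne_eq, ZeroMemClass.coe_eq_zero]
  obtain ⟨c, hc⟩ := exists_D_eq_smul v hres hπ (u : v.toValuationSubring)
  have hK : algebraMap K F (e : K) ≠ 0 := by
    rw [ne_eq, map_eq_zero]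
    exact_mod_cast hy
  have hordE : v.ord (algebraMap K F (e : K)) = 0 :=
    ord_algebraMap v (by exact_mod_cast hy)
  have key : KaehlerDifferential.D K F y =
      (((u : v.toValuationSubring) : F) * (algebraMap K F (e : K) * (π : F) ^ (e - 1))
        + (π : F) ^ e * (c : F)) • v.dCoord := by
    rw [hd, add_smul, mul_smul, mul_smul, mul_smul, ← hc]
    conv_lhs => rw [hu]
    rw [Derivation.leibniz, Derivation.leibniz_zpow]
    congr 2
    rw [algebraMap_smul, Int.cast_smul_eq_zsmul]
  rw [ordDifferential_of_eq_smul v key]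
  have h1 : v.ord (((u : v.toValuationSubring) : F) *
      (algebraMap K F (e : K) * (π : F) ^ (e - 1))) = e - 1 := by
    rw [v.ord_mul huF (mul_ne_zero hK (zpow_ne_zero _ hπF)), v.ord_mul hK (zpow_ne_zero _ hπF),
      hordE, v.ord_coe_unit, v.ord_zpow, v.ord_coe_irreducible hπ]
    ring
  have h2 : ((u : v.toValuationSubring) : F) * (algebraMap K F (e : K) * (π : F) ^ (e - 1)) ≠ 0 :=
    mul_ne_zero huF (mul_ne_zero hK (zpow_ne_zero _ hπF))
  rw [ord_add_eq v h2, h1]
  rcases eq_or_ne (c : F) 0 with h0 | h0
  · left; rw [h0, mul_zero]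
  · right
    rw [h1, v.ord_mul (zpow_ne_zero _ hπF) h0, v.ord_zpow, v.ord_coe_irreducible hπ]
    have := ord_coe_nonneg v c
    omega

/-- version with a shift by a constant: the differential of `y` at a place where `y ≡ a`. -/
theorem ordDifferential_D_sub [CharZero K] [Algebra.EssFiniteType K v.toValuationSubring]
    (hres : Function.Surjective (algebraMap K v.ResidueField)) [Nontrivial Ω[F⁄K]]
    {y : F} {a : K} (hy : v.ord (y - algebraMap K F a) ≠ 0) :
    v.ordDifferential (KaehlerDifferential.D K F y) = v.ord (y - algebraMap K F a) - 1 := by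
  rw [← ordDifferential_D v hres hy, map_sub, Derivation.map_algebraMap, sub_zero]

end Ord

section Degree

variable [HasPrincipalDivisors K F]

/-- the degree of the divisor of a nonzero differential does not depend on the differential. -/
theorem degree_eq_of_divisor_differential [∀ v : Place K F, v.DCoordGenerates]
    [Nontrivial Ω[F⁄K]] (hrank : ∀ ω ω' : Ω[F⁄K], ω ≠ 0 → ∃ f : F, ω' = f • ω)
    {ω ω' : Ω[F⁄K]} (hω : ω ≠ 0) (hω' : ω' ≠ 0) {D D' : Divisor K F}
    (hD : ∀ v : Place K F, D v = v.ordDifferential ω)
    (hD' : ∀ v : Place K F, D' v = v.ordDifferential ω') :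
    Divisor.degree D = Divisor.degree D' := by
  obtain ⟨f, rfl⟩ := hrank ω ω' hω
  have hf : f ≠ 0 := by rintro rfl; simp at hω'
  obtain ⟨E, hE, hdeg⟩ := HasPrincipalDivisors.exists_divisor (K := K) f hf
  have h : D' = E + D := by
    ext v
    rw [hD' v, Finsupp.add_apply, hE v, hD v,
      v.ordDifferential_smul hf (differentialCoeff_ne_zero v hω)]
  rw [h, map_add, hdeg, zero_add]

theorem exists_smul_eq_of_generates (v : Place K F) [v.DCoordGenerates]
    (ω ω' : Ω[F⁄K]) (hω : ω ≠ 0) : ∃ f : F, ω' = f • ω := by
  have h1 := v.differentialCoeff_smul_dCoord ω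
  have h2 := v.differentialCoeff_smul_dCoord ω'
  have h3 : (v.differentialCoeff ω' / v.differentialCoeff ω) • ω
      = (v.differentialCoeff ω' / v.differentialCoeff ω) • v.differentialCoeff ω • v.dCoord := by
    rw [h1]
  refine ⟨v.differentialCoeff ω' / v.differentialCoeff ω, ?_⟩
  rw [h3, smul_smul, div_mul_cancel₀ _ (differentialCoeff_ne_zero v hω), h2]

end Degree

end Fermat.Agent.FFDiff
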