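import Mathlib
import Fermat.Prelude.Def_AlgebraicCurve_CanonicalDivisor
import Fermat.Prelude.Def_AlgebraicCurve_IsCurveOver
import Fermat.Prelude.Def_AlgebraicCurve_Repartitions
import Fermat.Agent.FF.Differential

/-! Places of a function field versus orbits of embeddings into a valued field (helper80). -/

set_option autoImplicit false

noncomputable section

open AlgebraicCurve IsLocalRing WithZero
open scoped IntermediateField Polynomial

namespace Fermat.Agent.FFOrb

variable {K F : Type*} [Field K] [Field F] [Algebra K F]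

section OfOrd

variable {L : Type*} [Field L]

open Classical in
/-- a `ℤᵐ⁰`-valued valuation from an integer valued order function. -/
def valOfOrd (o : L → ℤ) (o_mul : ∀ f g, f ≠ 0 → g ≠ 0 → o (f * g) = o f + o g)
    (o_add : ∀ f g, f ≠ 0 → g ≠ 0 → f + g ≠ 0 → min (o f) (o g) ≤ o (f + g)) :
    Valuation L ℤᵐ⁰ where
  toFun f := if f = 0 then 0 else exp (-(o f))
  map_zero' := by simp
  map_one' := by
    have h := o_mul 1 1 one_ne_zero one_ne_zero
    rw [mul_one] at h
    have h1 : o 1 = 0 := by omega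
    simp [h1]
  map_mul' f g := by
    by_cases hf : f = 0
    · simp [hf]
    by_cases hg : g = 0
    · simp [hg]
    simp only [hf, hg, mul_eq_zero, or_self, if_false]
    rw [o_mul f g hf hg, neg_add, exp_add]
  map_add_le_max' f g := by
    by_cases hf : f = 0
    · subst hf; simp
    by_cases hg : g = 0
    · subst hg; simp
    by_cases hfg : f + g = 0
    · simp [hfg]
    simp only [hf, hg, hfg, if_false]
    have := o_add f g hf hg hfg
    rcases min_le_iff.mp this with h | h
    · exact le_max_of_le_left (exp_le_exp.mpr (by omega))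
    · exact le_max_of_le_right (exp_le_exp.mpr (by omega))

theorem valOfOrd_apply (o : L → ℤ) (o_mul : ∀ f g, f ≠ 0 → g ≠ 0 → o (f * g) = o f + o g)
    (o_add : ∀ f g, f ≠ 0 → g ≠ 0 → f + g ≠ 0 → min (o f) (o g) ≤ o (f + g)) {f : L}
    (hf : f ≠ 0) : valOfOrd o o_mul o_add f = exp (-(o f)) := by
  show (letI := Classical.propDecidable; if f = 0 then (0 : ℤᵐ⁰) else exp (-(o f))) = _
  simp [hf]

end OfOrd

section PlaceOf

open MonoidWithZeroHom in
/-- the place attached to a nontrivial `ℤᵐ⁰`-valued valuation, trivial on constants. -/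
def placeOf (w : Valuation F ℤᵐ⁰) (hK : ∀ a : K, w (algebraMap K F a) ≤ 1)
    (hnt : ∃ f : F, f ≠ 0 ∧ w f < 1) : Place K F where
  toValuationSubring := w.valuationSubring
  algebraMap_mem' := hK
  ne_top' := by
    obtain ⟨f, hf, hlt⟩ := hnt
    intro h
    have h1 : f⁻¹ ∈ w.valuationSubring := h ▸ ValuationSubring.mem_top _
    rw [Valuation.mem_valuationSubring_iff, map_inv₀] at h1
    have h2 : w f ≠ 0 := (Valuation.ne_zero_iff _).mpr hf
    have h3 : 1 < (w f)⁻¹ := (one_lt_inv₀ (zero_lt_iff.mpr h2)).mpr hlt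
    exact absurd h1 (not_le.mpr h3)
  isPrincipalIdealRing' := by
    obtain ⟨f, hf, hlt⟩ := hnt
    have h2 : w f ≠ 0 := (Valuation.ne_zero_iff _).mpr hf
    have : IsCyclic (valueGroup (.ofClass w)) := inferInstance
    have : Nontrivial (valueGroup (.ofClass w)) := by
      refine Subgroup.nontrivial_iff_exists_ne_one _ |>.mpr ⟨Units.mk0 (w f) h2, ?_, ?_⟩
      · exact MonoidWithZeroHom.mem_valueGroup _ ⟨f, rfl⟩
      · intro h
        have := congrArg Units.val h
        simp at this
        exact hlt.ne this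
    exact Valuation.valuationSubring_isPrincipalIdealRing w

@[simp]
theorem placeOf_toValuationSubring (w : Valuation F ℤᵐ⁰) (hK : ∀ a : K, w (algebraMap K F a) ≤ 1)
    (hnt : ∃ f : F, f ≠ 0 ∧ w f < 1) :
    (placeOf w hK hnt).toValuationSubring = w.valuationSubring := rfl

/-- comparison of `w` with the normalised order function of the associated place. -/
theorem exists_mult (w : Valuation F ℤᵐ⁰) (hK : ∀ a : K, w (algebraMap K F a) ≤ 1)
    (hnt : ∃ f : F, f ≠ 0 ∧ w f < 1) :
    ∃ m : ℤ, 0 < m ∧ ∀ f : F, f ≠ 0 → w f = exp (-(m * (placeOf w hK hnt).ord f)) := by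
  set v := placeOf w hK hnt with hv
  obtain ⟨π, hπ⟩ := IsDiscreteValuationRing.exists_irreducible v.toValuationSubring
  have hπF : (π : F) ≠ 0 := by
    simpa [ne_eq, ZeroMemClass.coe_eq_zero] using hπ.ne_zero
  have hwπ0 : w (π : F) ≠ 0 := (Valuation.ne_zero_iff _).mpr hπF
  have hunit : ∀ u : v.toValuationSubringˣ, w ((u : v.toValuationSubring) : F) = 1 := by
    intro u
    have h1 : w ((u : v.toValuationSubring) : F) ≤ 1 := (u : v.toValuationSubring).2
    have h2 : w (((u⁻¹ : v.toValuationSubringˣ) : v.toValuationSubring) : F) ≤ 1 :=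
      ((u⁻¹ : v.toValuationSubringˣ) : v.toValuationSubring).2
    have h3 : w ((u : v.toValuationSubring) : F) *
        w (((u⁻¹ : v.toValuationSubringˣ) : v.toValuationSubring) : F) = 1 := by
      rw [← map_mul]
      have : ((u : v.toValuationSubring) : F) *
        (((u⁻¹ : v.toValuationSubringˣ) : v.toValuationSubring) : F) = 1 := by
        exact_mod_cast congrArg Subtype.val (u.mul_inv)
      rw [this, map_one]
    refine le_antisymm h1 ?_
    calc (1 : ℤᵐ⁰) = _ := h3.symm
      _ ≤ w ((u : v.toValuationSubring) : F) * 1 := mul_le_mul_right h2 _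
      _ = _ := mul_one _
  have hlt : w (π : F) < 1 := by
    refine lt_of_le_of_ne π.2 fun h => hπ.not_isUnit ?_
    have hinv : (π : F)⁻¹ ∈ v.toValuationSubring := by
      show w _ ≤ 1
      rw [map_inv₀, h, inv_one]
    refine IsUnit.of_mul_eq_one ⟨(π : F)⁻¹, hinv⟩ (Subtype.ext ?_)
    exact mul_inv_cancel₀ hπF
  refine ⟨-(log (w (π : F))), ?_, fun f hf => ?_⟩
  · have := (log_lt_log hwπ0 one_ne_zero).mpr hlt
    rw [log_one] at this
    omega
  · obtain ⟨u, hu⟩ := v.exists_unit_mul_zpow hf hπ
    conv_lhs => rw [hu]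
    rw [map_mul, hunit, one_mul, map_zpow₀]
    conv_lhs => rw [← exp_log hwπ0]
    rw [← exp_zsmul]
    congr 1
    simp [mul_comm]

end PlaceOf

section Center

open IsDedekindDomain IsDedekindDomain.HeightOneSpectrum

variable (B : Type*) [CommRing B] [Algebra B F]

/-- The center on `B` of a place whose valuation ring contains `B`. -/
def center (v : Place K F) (hv : ∀ b : B, algebraMap B F b ∈ v.toValuationSubring) : Ideal B :=
  (maximalIdeal v.toValuationSubring).comap
    ((algebraMap B F).codRestrict v.toValuationSubring.toSubring hv)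

theorem mem_center_iff (v : Place K F) (hv : ∀ b : B, algebraMap B F b ∈ v.toValuationSubring)
    (b : B) : b ∈ center B v hv ↔ v.adicValuation (algebraMap B F b) < 1 := by
  have h1 := v.adicValuation_coe_eq_one_iff ⟨algebraMap B F b, hv b⟩
  have h2 := v.adicValuation_le_one_of_mem (hv b)
  rw [center, Ideal.mem_comap, IsLocalRing.mem_maximalIdeal, mem_nonunits_iff]
  constructor
  · intro h
    refine lt_of_le_of_ne h2 fun h3 => h (h1.mp h3)
  · intro h h3
    exact h.ne (h1.mpr h3)

instance center_isPrime (v : Place K F)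
    (hv : ∀ b : B, algebraMap B F b ∈ v.toValuationSubring) : (center B v hv).IsPrime := by
  unfold center
  infer_instance

variable [IsDedekindDomain B] [IsFractionRing B F]

theorem center_ne_bot (v : Place K F) (hv : ∀ b : B, algebraMap B F b ∈ v.toValuationSubring) :
    center B v hv ≠ ⊥ := by
  intro h
  apply v.ne_top'
  refine SetLike.ext fun x => ⟨fun _ => ValuationSubring.mem_top x, fun _ => ?_⟩
  obtain ⟨a, s, hs, rfl⟩ := IsFractionRing.div_surjective (A := B) x
  have hs0 : s ≠ 0 := nonZeroDivisors.ne_zero hs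
  have hsc : s ∉ center B v hv := by rw [h]; simpa using hs0
  have hu : IsUnit (⟨algebraMap B F s, hv s⟩ : v.toValuationSubring) := by
    by_contra hcon
    exact hsc ((Ideal.mem_comap).mpr ((IsLocalRing.mem_maximalIdeal _).mpr hcon))
  obtain ⟨t, ht⟩ := isUnit_iff_exists_inv.mp hu
  have ht' : algebraMap B F s * (t : F) = 1 := by simpa [Subtype.ext_iff] using ht
  have : algebraMap B F a / algebraMap B F s = algebraMap B F a * (t : F) := by
    rw [div_eq_iff (fun h0 => by rw [h0, zero_mul] at ht'; exact zero_ne_one ht'), mul_assoc,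
      mul_comm (t : F), ht', mul_one]
  rw [this]
  exact mul_mem (hv a) t.2

/-- the center as a height one prime. -/
def centerHOS (v : Place K F) (hv : ∀ b : B, algebraMap B F b ∈ v.toValuationSubring) :
    HeightOneSpectrum B :=
  ⟨center B v hv, center_isPrime B v hv, center_ne_bot B v hv⟩

theorem toValuationSubring_eq (v : Place K F)
    (hv : ∀ b : B, algebraMap B F b ∈ v.toValuationSubring) :
    v.toValuationSubring = valuationSubringAtPrime F (centerHOS B v hv) := by
  symm
  refine ValuationSubring.eq_of_le_of_ne_top _ ?_ v.ne_top'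
  rintro x ⟨a, s, hs, rfl⟩
  have hu : IsUnit (⟨algebraMap B F s, hv s⟩ : v.toValuationSubring) := by
    by_contra hcon
    exact hs ((Ideal.mem_comap).mpr ((IsLocalRing.mem_maximalIdeal _).mpr hcon))
  obtain ⟨t, ht⟩ := isUnit_iff_exists_inv.mp hu
  have ht' : algebraMap B F s * (t : F) = 1 := by simpa [Subtype.ext_iff] using ht
  have h3 : (algebraMap B F s)⁻¹ = (t : F) := (eq_inv_of_mul_eq_one_right ht').symm
  rw [h3]
  exact mul_mem (hv a) t.2

theorem place_eq_of_center_le (v v' : Place K F)
    (hv : ∀ b : B, algebraMap B F b ∈ v.toValuationSubring)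
    (hv' : ∀ b : B, algebraMap B F b ∈ v'.toValuationSubring)
    (h : center B v hv ≤ center B v' hv') : v = v' := by
  have hmax : (center B v hv).IsMaximal :=
    (center_isPrime B v hv).isMaximal (center_ne_bot B v hv)
  have heq : center B v hv = center B v' hv' :=
    hmax.eq_of_le (center_isPrime B v' hv').ne_top h
  apply Place.ext
  rw [toValuationSubring_eq B v hv, toValuationSubring_eq B v' hv']
  congr 1
  exact HeightOneSpectrum.ext heq

end Center

section Surj

open IntermediateField.algebraAdjoinAdjoin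

variable (y : F)

theorem isPrincipalIdealRing_adjoin (hy : Transcendental K y) :
    IsPrincipalIdealRing (Algebra.adjoin K {y}) :=
  IsPrincipalIdealRing.of_surjective (Polynomial.algEquivOfTranscendental K y hy : K[X] →+* _)
    (Polynomial.algEquivOfTranscendental K y hy).surjective

/-- the integral closure of `K[y]` in `F` -/
abbrev BRing : Type _ := integralClosure (Algebra.adjoin K {y}) F

theorem isDedekindDomain_BRing [CharZero K] (hy : Transcendental K y) [FiniteDimensional K⟮y⟯ F] :
    IsDedekindDomain (BRing (K := K) y) := by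
  have := isPrincipalIdealRing_adjoin y hy
  have : CharZero K⟮y⟯ := inferInstance
  exact IsIntegralClosure.isDedekindDomain (Algebra.adjoin K {y}) K⟮y⟯ F (BRing (K := K) y)

theorem mem_of_mem_adjoin (v : Place K F) (hy : y ∈ v.toValuationSubring) {a : F}
    (ha : a ∈ Algebra.adjoin K {y}) : a ∈ v.toValuationSubring := by
  induction ha using Algebra.adjoin_induction with
  | mem x hx => rw [Set.mem_singleton_iff.mp hx]; exact hy
  | algebraMap r => exact v.algebraMap_mem' r
  | add a b _ _ ha hb => exact add_mem ha hb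
  | mul a b _ _ ha hb => exact mul_mem ha hb

theorem mem_of_BRing (v : Place K F) (hy : y ∈ v.toValuationSubring) (b : BRing (K := K) y) :
    algebraMap (BRing (K := K) y) F b ∈ v.toValuationSubring := by
  have hb : IsIntegral (Algebra.adjoin K {y}) (b : F) := b.2
  obtain ⟨p, hp, hpb⟩ := hb
  have hb' : IsIntegral v.toValuationSubring (b : F) := by
    refine ⟨p.map (Subring.inclusion (S := (Algebra.adjoin K {y}).toSubring)
      (T := v.toValuationSubring.toSubring) fun a ha => mem_of_mem_adjoin y v hy ha),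
      hp.map _, ?_⟩
    rw [Polynomial.eval₂_map]
    exact hpb
  obtain ⟨z, hz⟩ := IsIntegrallyClosed.isIntegral_iff.mp hb'
  rw [show algebraMap (BRing (K := K) y) F b = (b : F) from rfl, ← hz]
  exact z.2

theorem isFractionRing_BRing [FiniteDimensional K⟮y⟯ F] : IsFractionRing (BRing (K := K) y) F :=
  integralClosure.isFractionRing_of_finite_extension K⟮y⟯ F

/-- elements of `K[y]` lying in the maximal ideal of a place over `y = 0` are divisible by `y`. -/
theorem exists_eq_mul_of_adicValuation_lt_one (v : Place K F) (hyv : v.adicValuation y < 1)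
    {a : F} (ha : a ∈ Algebra.adjoin K {y}) (hav : v.adicValuation a < 1) :
    ∃ q : K[X], a = y * Polynomial.aeval y q := by
  rw [Algebra.adjoin_singleton_eq_range_aeval] at ha
  obtain ⟨p, rfl⟩ := ha
  have h1 : Polynomial.aeval y p = y * Polynomial.aeval y p.divX + algebraMap K F (p.coeff 0) := by
    have := congrArg (Polynomial.aeval y) (Polynomial.X_mul_divX_add p)
    rw [map_add, map_mul, Polynomial.aeval_X, Polynomial.aeval_C] at this
    exact this.symm
  refine ⟨p.divX, ?_⟩
  have hyV : y ∈ v.toValuationSubring := by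
    rcases eq_or_ne y 0 with rfl | h0
    · exact zero_mem _
    · rw [FFDiff.mem_iff_ord_nonneg v h0]
      have := v.adicValuation_le_one_iff.mp hyv.le
      exact this.resolve_left h0
  have hq : Polynomial.aeval y p.divX ∈ v.toValuationSubring :=
    mem_of_mem_adjoin (K := K) y v hyV (by
      rw [Algebra.adjoin_singleton_eq_range_aeval]; exact ⟨_, rfl⟩)
  have h2 : v.adicValuation (algebraMap K F (p.coeff 0)) < 1 := by
    have h3 : algebraMap K F (p.coeff 0) = Polynomial.aeval y p - y * Polynomial.aeval y p.divX := by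
      rw [h1]; ring
    rw [h3]
    refine (Valuation.map_sub _ _ _).trans_lt (max_lt hav ?_)
    rw [map_mul]
    exact mul_lt_one_of_lt_of_le hyv (v.adicValuation_le_one_of_mem hq)
  have h4 : p.coeff 0 = 0 := by
    by_contra h0
    have h5 := FFDiff.ord_algebraMap v h0
    have h6 : algebraMap K F (p.coeff 0) ≠ 0 := by simpa using h0
    rw [v.adicValuation_eq_exp_neg_ord h6, h5] at h2
    simp at h2
  rw [AlgHom.toRingHom_eq_coe, RingHom.coe_coe] at *
  rw [h1, h4, map_zero, add_zero]

/-- Norm computation with embeddings into a field `L`. -/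
theorem algebraMap_norm_eq_prod {E L X : Type*} [Field E] [Field L] [Algebra E F]
    [FiniteDimensional E F] [Algebra.IsSeparable E F] [Algebra E L] [Fintype X]
    (Ψ : X → (F →ₐ[E] L)) (hinj : Function.Injective Ψ)
    (hcard : Fintype.card X = Module.finrank E F) (b : F) :
    algebraMap E L (Algebra.norm E b) = ∏ x, Ψ x b := by
  classical
  let Ω := AlgebraicClosure L
  let Φ : X → (F →ₐ[E] Ω) := fun x => (IsScalarTower.toAlgHom E L Ω).comp (Ψ x)
  have hΦ : Function.Injective Φ := by
    intro x x' h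
    apply hinj
    ext f
    have h1 := DFunLike.congr_fun h f
    exact (algebraMap L Ω).injective h1
  have hbij : Function.Bijective Φ := by
    rw [Fintype.bijective_iff_injective_and_card]
    exact ⟨hΦ, by rw [hcard, AlgHom.card E F Ω]⟩
  apply (algebraMap L Ω).injective
  rw [← IsScalarTower.algebraMap_apply, Algebra.norm_eq_prod_embeddings E Ω b, map_prod]
  exact (Fintype.prod_bijective Φ hbij _ _ fun x => rfl).symm

theorem exists_map_lt_one [CharZero K] (hy : Transcendental K y) [FiniteDimensional K⟮y⟯ F]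
    {L X : Type*} [Field L] [Algebra K⟮y⟯ L] [Fintype X]
    (Ψ : X → (F →ₐ[K⟮y⟯] L)) (hinj : Function.Injective Ψ)
    (hcard : Fintype.card X = Module.finrank K⟮y⟯ F) (W : Valuation L ℤᵐ⁰)
    (hWK : ∀ x (c : K), W (Ψ x (algebraMap K F c)) ≤ 1) (hWy : ∀ x, W (Ψ x y) < 1)
    (v : Place K F) (hyv : v.adicValuation y < 1)
    (b : BRing (K := K) y) (hb : v.adicValuation (b : F) < 1) :
    ∃ x, W (Ψ x b) < 1 := by
  have : CharZero K⟮y⟯ := inferInstance
  have := isPrincipalIdealRing_adjoin y hy
  have := isDedekindDomain_BRing y hy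
  have := isFractionRing_BRing (K := K) y
  have : Module.Finite (Algebra.adjoin K {y}) (BRing (K := K) y) :=
    IsIntegralClosure.finite (Algebra.adjoin K {y}) K⟮y⟯ F (BRing (K := K) y)
  have hyV : y ∈ v.toValuationSubring := by
    rcases eq_or_ne y 0 with h0 | h0
    · rw [h0]; exact zero_mem _
    · rw [FFDiff.mem_iff_ord_nonneg v h0]
      have := v.adicValuation_le_one_iff.mp hyv.le
      exact this.resolve_left h0
  have hX : Nonempty X := by
    rw [← Fintype.card_pos_iff, hcard]
    exact Module.finrank_pos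
  -- the norm of `b` is in `K[y]` and divisible by `b` in `B`
  obtain ⟨z, hz⟩ := Algebra.dvd_algebraMap_intNorm_self (A := Algebra.adjoin K {y})
    (B := BRing (K := K) y) b
  set a := Algebra.intNorm (Algebra.adjoin K {y}) (BRing (K := K) y) b with ha
  have hnorm : algebraMap (Algebra.adjoin K {y}) K⟮y⟯ a = Algebra.norm K⟮y⟯ (b : F) := by
    rw [ha]
    exact Algebra.algebraMap_intNorm (A := Algebra.adjoin K {y}) (K := K⟮y⟯) (L := F)
      (B := BRing (K := K) y) b
  have hav : v.adicValuation (a : F) < 1 := by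
    have h1 : (a : F) = (b : F) * (z : F) := by
      have := congrArg (algebraMap (BRing (K := K) y) F) hz
      exact this
    rw [h1, map_mul]
    exact mul_lt_one_of_lt_of_le hb (v.adicValuation_le_one_of_mem (mem_of_BRing y v hyV z))
  obtain ⟨q, hq⟩ := exists_eq_mul_of_adicValuation_lt_one y v hyv a.2 hav
  by_contra hcon
  push Not at hcon
  have hprod := algebraMap_norm_eq_prod Ψ hinj hcard (b : F)
  have h2 : (1 : ℤᵐ⁰) ≤ W (∏ x, Ψ x b) := by
    rw [map_prod]
    exact Finset.one_le_prod' fun x _ => hcon x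
  rw [← hprod, ← hnorm] at h2
  obtain ⟨x⟩ := hX
  have h3 : algebraMap K⟮y⟯ L (algebraMap (Algebra.adjoin K {y}) K⟮y⟯ a) = Ψ x (a : F) := by
    rw [← (Ψ x).commutes]
    rfl
  rw [h3, hq, map_mul, map_mul] at h2
  have h4 : W (Ψ x (Polynomial.aeval y q)) ≤ 1 := by
    rw [Polynomial.aeval_eq_sum_range, map_sum]
    refine Valuation.map_sum_le _ fun i _ => ?_
    rw [Algebra.smul_def, map_mul, map_mul, map_pow, map_pow]
    exact mul_le_one' (hWK x _) (pow_le_one₀ zero_le (hWy x).le)
  exact absurd h2 (not_le.mpr (mul_lt_one_of_lt_of_le (hWy x) h4))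

end Surj

section Count

/-- pure counting lemma -/
theorem count_bijective {P Q : Type*} [Fintype P] [Fintype Q] (Φ : Q → P)
    (hΦ : Function.Surjective Φ) (e : P → ℤ) (s : Q → ℤ) (hs : ∀ q, 0 < s q)
    (hle : ∀ q, e (Φ q) ≤ s q) (hsum : ∑ q, s q ≤ ∑ p, e p) :
    Function.Bijective Φ ∧ ∀ q, e (Φ q) = s q := by
  classical
  have key : ∀ σ : P → Q, (∀ p, Φ (σ p) = p) →
      Function.Surjective σ ∧ ∀ p, e p = s (σ p) := by
    intro σ hσ
    have hinj : Function.Injective σ := fun a b h => by rw [← hσ a, ← hσ b, h]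
    have h1 : ∑ p, e p ≤ ∑ p, s (σ p) := Finset.sum_le_sum fun p _ => by
      conv_lhs => rw [← hσ p]
      exact hle _
    have h2 : ∑ p, s (σ p) = ∑ q ∈ Finset.univ.image σ, s q := by
      rw [Finset.sum_image (fun a _ b _ h => hinj h)]
    have h3 : ∑ q ∈ Finset.univ.image σ, s q ≤ ∑ q, s q :=
      Finset.sum_le_sum_of_subset_of_nonneg (Finset.subset_univ _) fun q _ _ => (hs q).le
    refine ⟨?_, ?_⟩
    · intro q
      by_contra hcon
      have h4 : ∑ q ∈ Finset.univ.image σ, s q < ∑ q, s q := by
        refine Finset.sum_lt_sum_of_subset (Finset.subset_univ _) (Finset.mem_univ q) ?_ (hs q)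
          fun j _ _ => (hs j).le
        intro hq
        obtain ⟨p, -, hp⟩ := Finset.mem_image.mp hq
        exact hcon ⟨p, hp⟩
      omega
    · have h5 : ∑ p, e p = ∑ p, s (σ p) := by omega
      have h6 := (Finset.sum_eq_sum_iff_of_le (s := Finset.univ) (f := e)
        (g := fun p => s (σ p)) (fun p _ => by
          conv_lhs => rw [← hσ p]
          exact hle _)).mp h5
      intro p
      exact h6 p (Finset.mem_univ p)
  obtain ⟨h1, h2⟩ := key (Function.surjInv hΦ) (Function.surjInv_eq hΦ)
  have hinj : Function.Injective Φ := by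
    intro a b hab
    obtain ⟨p, rfl⟩ := h1 a
    obtain ⟨p', rfl⟩ := h1 b
    rw [Function.surjInv_eq hΦ, Function.surjInv_eq hΦ] at hab
    rw [hab]
  refine ⟨⟨hinj, hΦ⟩, fun q => ?_⟩
  rw [h2 (Φ q)]
  congr 1
  exact hinj (Function.surjInv_eq hΦ _)

end Count

section Main

open IntermediateField.algebraAdjoinAdjoin

/-- Main counting theorem, given the fundamental identity for `y`. -/
theorem card_places_of_sum [CharZero K] {L : Type*} [Field L]
    (y : F) (hy : Transcendental K y) [FiniteDimensional K⟮y⟯ F]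
    (hsum : ∀ (h : {v : Place K F | 0 < v.ord y}.Finite),
      ∑ v ∈ h.toFinset, v.ord y = Module.finrank K⟮y⟯ F)
    {X : Type*} [Finite X] (Ψ : X → (F →+* L)) (hinj : Function.Injective Ψ)
    (hcard : Nat.card X = Module.finrank K⟮y⟯ F)
    (hΨK : ∀ x x' (c : K), Ψ x (algebraMap K F c) = Ψ x' (algebraMap K F c))
    (hΨy : ∀ x x', Ψ x y = Ψ x' y)
    (o : L → ℤ) (o_mul : ∀ f g, f ≠ 0 → g ≠ 0 → o (f * g) = o f + o g)
    (o_add : ∀ f g, f ≠ 0 → g ≠ 0 → f + g ≠ 0 → min (o f) (o g) ≤ o (f + g))
    (oK : ∀ x (c : K), c ≠ 0 → o (Ψ x (algebraMap K F c)) = 0)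
    (oy : ∀ x, 0 < o (Ψ x y)) (π : Equiv.Perm X)
    (hπ : ∀ x f, f ≠ 0 → o (Ψ (π x) f) = o (Ψ x f))
    (hdvd : ∀ x (r : ℕ), 0 < r → (π ^ r) x = x → ∀ f, f ≠ 0 → o (Ψ x y) ∣ r * o (Ψ x f)) :
    {v : Place K F | 0 < v.ord y}.Finite ∧
    Nat.card {v : Place K F // 0 < v.ord y}
      = Nat.card (MulAction.orbitRel.Quotient (Subgroup.zpowers π) X) := by
  classical
  have := Fintype.ofFinite X
  have hy0 : y ≠ 0 := by
    rintro rfl
    exact hy isAlgebraic_zero
  set W := valOfOrd o o_mul o_add with hW
  have hWap : ∀ f : L, f ≠ 0 → W f = exp (-(o f)) := fun f hf => valOfOrd_apply o o_mul o_add hf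
  have hne : ∀ x (f : F), f ≠ 0 → Ψ x f ≠ 0 := fun x f hf => by simpa using hf
  have hWK : ∀ x (c : K), W (Ψ x (algebraMap K F c)) ≤ 1 := by
    intro x c
    rcases eq_or_ne c 0 with rfl | hc
    · simp
    · rw [hWap _ (hne x _ (by simpa using hc)), oK x c hc]
      simp
  have hWy : ∀ x, W (Ψ x y) < 1 := by
    intro x
    rw [hWap _ (hne x y hy0), ← exp_zero, exp_lt_exp]
    have := oy x
    omega
  -- the places attached to the embeddings
  let w : X → Valuation F ℤᵐ⁰ := fun x => W.comap (Ψ x)
  have hwK : ∀ x (a : K), w x (algebraMap K F a) ≤ 1 := fun x a => hWK x a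
  have hwnt : ∀ x, ∃ f : F, f ≠ 0 ∧ w x f < 1 := fun x => ⟨y, hy0, hWy x⟩
  let pl : X → Place K F := fun x => placeOf (w x) (hwK x) (hwnt x)
  have hmult : ∀ x, ∃ m : ℤ, 0 < m ∧ ∀ f : F, f ≠ 0 → o (Ψ x f) = m * (pl x).ord f := by
    intro x
    obtain ⟨m, hm, hmf⟩ := exists_mult (w x) (hwK x) (hwnt x)
    refine ⟨m, hm, fun f hf => ?_⟩
    have h1 := hmf f hf
    have h2 : w x f = exp (-(o (Ψ x f))) := hWap _ (hne x f hf)
    rw [h2, exp_inj] at h1
    have : (pl x).ord f = (placeOf (w x) (hwK x) (hwnt x)).ord f := rfl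
    rw [this]
    omega
  have hplpos : ∀ x, 0 < (pl x).ord y := by
    intro x
    obtain ⟨m, hm, hmf⟩ := hmult x
    have h1 := oy x
    rw [hmf y hy0] at h1
    exact (mul_pos_iff_of_pos_left hm).mp h1
  have hplπ : ∀ x, pl (π x) = pl x := by
    intro x
    have h1 : w (π x) = w x := by
      refine Valuation.ext fun f => ?_
      rcases eq_or_ne f 0 with rfl | hf
      · simp
      · show W (Ψ (π x) f) = W (Ψ x f)
        rw [hWap _ (hne _ f hf), hWap _ (hne _ f hf), hπ x f hf]
    apply Place.ext
    show (w (π x)).valuationSubring = (w x).valuationSubring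
    rw [h1]
  -- surjectivity onto the places over `y = 0`
  have hX : Nonempty X := by
    by_contra hcon
    rw [not_nonempty_iff] at hcon
    rw [Nat.card_of_isEmpty] at hcard
    exact absurd hcard.symm (Module.finrank_pos (R := K⟮y⟯) (M := F)).ne'
  obtain ⟨x0⟩ := hX
  have hagree : ∀ x (e : K⟮y⟯), Ψ x (e : F) = Ψ x0 (e : F) := by
    rintro x ⟨e, he⟩
    show Ψ x e = Ψ x0 e
    induction he using IntermediateField.adjoin_induction with
    | mem z hz => rw [Set.mem_singleton_iff.mp hz]; exact hΨy _ _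
    | algebraMap c => exact hΨK _ _ _
    | add a b _ _ ha hb => rw [map_add, map_add, ha, hb]
    | inv a _ ha => rw [map_inv₀, map_inv₀, ha]
    | mul a b _ _ ha hb => rw [map_mul, map_mul, ha, hb]
  let : Algebra K⟮y⟯ L := ((Ψ x0).comp (algebraMap K⟮y⟯ F)).toAlgebra
  let Ψ' : X → (F →ₐ[K⟮y⟯] L) := fun x =>
    { Ψ x with commutes' := fun e => hagree x e }
  have hinj' : Function.Injective Ψ' := by
    intro x x' h
    apply hinj
    ext f
    exact DFunLike.congr_fun h f
  have hsurj : ∀ v : Place K F, 0 < v.ord y → ∃ x, pl x = v := by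
    intro v hv
    have := isDedekindDomain_BRing y hy
    have := isFractionRing_BRing (K := K) y
    have hyV : y ∈ v.toValuationSubring := (FFDiff.mem_iff_ord_nonneg v hy0).mpr hv.le
    have hyv : v.adicValuation y < 1 := by
      rw [v.adicValuation_eq_exp_neg_ord hy0, ← exp_zero, exp_lt_exp]
      omega
    have hyP : ∀ x, y ∈ (pl x).toValuationSubring := fun x =>
      (FFDiff.mem_iff_ord_nonneg _ hy0).mpr (hplpos x).le
    have hcover : (center (BRing (K := K) y) v (mem_of_BRing y v hyV) : Set (BRing (K := K) y)) ⊆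
        ⋃ x ∈ ((Finset.univ : Finset X) : Set X),
          (center (BRing (K := K) y) (pl x) (mem_of_BRing y (pl x) (hyP x)) :
            Set (BRing (K := K) y)) := by
      intro b hb
      rw [SetLike.mem_coe, mem_center_iff] at hb
      obtain ⟨x, hx⟩ := exists_map_lt_one y hy Ψ' hinj'
        (by rw [← Nat.card_eq_fintype_card, hcard]) W hWK hWy v hyv b hb
      simp only [Finset.coe_univ, Set.mem_univ, Set.iUnion_true, Set.mem_iUnion, SetLike.mem_coe]
      refine ⟨x, ?_⟩
      rw [mem_center_iff]
      rcases eq_or_ne (b : F) 0 with h0 | h0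
      · rw [show algebraMap (BRing (K := K) y) F b = (b : F) from rfl, h0, map_zero]
        exact zero_lt_one
      · rw [show algebraMap (BRing (K := K) y) F b = (b : F) from rfl,
          Place.adicValuation_eq_exp_neg_ord _ h0, ← exp_zero, exp_lt_exp]
        obtain ⟨m, hm, hmf⟩ := hmult x
        have h1 : W (Ψ x b) < 1 := hx
        rw [hWap _ (hne x _ h0), ← exp_zero, exp_lt_exp, hmf _ h0] at h1
        have h2 : 0 < (pl x).ord (b : F) := (mul_pos_iff_of_pos_left hm).mp (by omega)
        omega
    rw [Ideal.subset_union_prime x0 x0 (fun i _ _ _ => center_isPrime _ _ _)] at hcover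
    obtain ⟨x, -, hx⟩ := hcover
    exact ⟨x, (place_eq_of_center_le _ _ _ _ _ hx).symm⟩
  have hfin : {v : Place K F | 0 < v.ord y}.Finite := by
    refine (Set.finite_range pl).subset fun v hv => ?_
    exact hsurj v hv
  refine ⟨hfin, ?_⟩
  have hfin' : Finite {v : Place K F // 0 < v.ord y} := hfin
  have := Fintype.ofFinite {v : Place K F // 0 < v.ord y}
  have := Fintype.ofFinite (MulAction.orbitRel.Quotient (Subgroup.zpowers π) X)
  -- the map from orbits to places
  have hplz : ∀ (g : Subgroup.zpowers π) (x : X), pl (g • x) = pl x := by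
    rintro ⟨g, hg⟩ x
    obtain ⟨n, rfl⟩ := hg
    show pl ((π ^ n) x) = pl x
    induction n using Int.induction_on with
    | zero => simp
    | succ n ih => rw [add_comm, zpow_one_add, Equiv.Perm.mul_apply, hplπ, ih]
    | pred n ih =>
      rw [← hplπ, ← Equiv.Perm.mul_apply, ← zpow_one_add]
      rw [show (1 : ℤ) + (-(n : ℤ) - 1) = -(n : ℤ) by ring]
      exact ih
  let Φ : MulAction.orbitRel.Quotient (Subgroup.zpowers π) X → {v : Place K F // 0 < v.ord y} :=
    Quotient.lift (fun x => ⟨pl x, hplpos x⟩) (by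
      intro a b hab
      obtain ⟨g, hg⟩ := hab
      apply Subtype.ext
      show pl a = pl b
      rw [← hg]
      exact hplz g b)
  have hΦ : Function.Surjective Φ := by
    rintro ⟨v, hv⟩
    obtain ⟨x, hx⟩ := hsurj v hv
    exact ⟨Quotient.mk'' x, Subtype.ext hx⟩
  have horb : ∀ q : MulAction.orbitRel.Quotient (Subgroup.zpowers π) X,
      0 < (Nat.card q.orbit : ℤ) ∧ (Φ q).1.ord y ≤ (Nat.card q.orbit : ℤ) := by
    intro q
    induction q using Quotient.inductionOn' with
    | h x =>
      rw [MulAction.orbitRel.Quotient.orbit_mk]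
      have hΦx : (Φ (Quotient.mk'' x)).1 = pl x := rfl
      rw [hΦx]
      obtain ⟨m, hm, hmf⟩ := hmult x
      set r := Nat.card (MulAction.orbit (Subgroup.zpowers π) x) with hr
      have hr0 : 0 < r := Nat.card_pos_iff.mpr
        ⟨⟨⟨x, MulAction.mem_orbit_self x⟩⟩, inferInstance⟩
      have := Fintype.ofFinite (MulAction.orbit (Subgroup.zpowers π) x)
      have hper : (π ^ r) x = x := by
        have h1 := MulAction.minimalPeriod_eq_card π x
        rw [← Nat.card_eq_fintype_card] at h1
        have h2 : π ^ r • x = x := by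
          rw [MulAction.pow_smul_eq_iff_minimalPeriod_dvd, h1]
        exact h2
      obtain ⟨ϖ, hϖ⟩ := IsDiscreteValuationRing.exists_irreducible (pl x).toValuationSubring
      have hϖ0 : (ϖ : F) ≠ 0 := by
        simpa [ne_eq, ZeroMemClass.coe_eq_zero] using hϖ.ne_zero
      have h3 := hdvd x r hr0 hper (ϖ : F) hϖ0
      rw [hmf y hy0, hmf _ hϖ0, (pl x).ord_coe_irreducible hϖ, mul_one, mul_comm (r : ℤ)] at h3
      have h4 : (pl x).ord y ∣ (r : ℤ) := (mul_dvd_mul_iff_left hm.ne').mp h3
      exact ⟨by exact_mod_cast hr0, Int.le_of_dvd (by exact_mod_cast hr0) h4⟩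
  have hcount := count_bijective Φ hΦ (fun v => v.1.ord y)
    (fun q => (Nat.card q.orbit : ℤ)) (fun q => (horb q).1) (fun q => (horb q).2) (by
      have h1 : ∑ q : MulAction.orbitRel.Quotient (Subgroup.zpowers π) X,
          (Nat.card q.orbit : ℤ) = Nat.card X := by
        rw [Nat.card_congr (MulAction.selfEquivSigmaOrbits' (Subgroup.zpowers π) X),
          Nat.card_sigma]
        push_cast
        rfl
      have h2 : ∑ v : {v : Place K F // 0 < v.ord y}, v.1.ord y = ∑ v ∈ hfin.toFinset, v.ord y := by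
        refine (Finset.sum_subtype (hfin.toFinset) (p := fun v => 0 < v.ord y) ?_
          (fun v => v.ord y)).symm
        intro v
        simp
      rw [h1, h2, hsum hfin, hcard])
  rw [Nat.card_eq_fintype_card, Nat.card_eq_fintype_card]
  exact (Fintype.card_of_bijective hcount.1).symm

end Main

end Fermat.Agent.FFOrb
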