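import Mathlib
import Fermat.Agent.FF.Orbits

/-! Fundamental identity and principal divisors for function fields over an algebraically closed
field of characteristic zero (helper80). -/

set_option autoImplicit false

noncomputable section

open AlgebraicCurve IsLocalRing WithZero
open scoped IntermediateField Polynomial
open IsDedekindDomain IsDedekindDomain.HeightOneSpectrum
open Fermat.Agent.FFOrb

namespace Fermat.Agent.FFFund

variable {K F : Type*} [Field K] [Field F] [Algebra K F]

section Dedekind

variable {B : Type*} [CommRing B] [IsDedekindDomain B] [Algebra B F] [IsFractionRing B F]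
  [Algebra K B] [IsScalarTower K B F]

theorem ord_ofHeightOneSpectrum (P : HeightOneSpectrum B) {f : F} (hf : f ≠ 0) :
    P.valuation F f = exp (-((Place.ofHeightOneSpectrum (K := K) P).ord f)) := by
  have hK : ∀ a : K, P.valuation F (algebraMap K F a) ≤ 1 := by
    intro a
    rw [IsScalarTower.algebraMap_apply K B F]
    exact P.valuation_le_one _
  obtain ⟨π, hπ⟩ := P.valuation_exists_uniformizer F
  have hπ0 : π ≠ 0 := by
    rintro rfl
    rw [map_zero] at hπ
    exact exp_ne_zero hπ.symm
  have hnt : ∃ f : F, f ≠ 0 ∧ P.valuation F f < 1 :=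
    ⟨π, hπ0, by rw [hπ, ← exp_zero, exp_lt_exp]; norm_num⟩
  have hpl : placeOf (P.valuation F) hK hnt = Place.ofHeightOneSpectrum (K := K) P :=
    Place.ext rfl
  obtain ⟨m, hm, hmf⟩ := exists_mult (P.valuation F) hK hnt
  rw [hpl] at hmf
  have h1 := hmf π hπ0
  rw [hπ, exp_inj, neg_inj] at h1
  have hm1 : m = 1 := Int.eq_one_of_mul_eq_one_right hm.le h1.symm
  rw [hmf f hf, hm1, one_mul]

theorem eq_ofHeightOneSpectrum (v : Place K F)
    (hv : ∀ b : B, algebraMap B F b ∈ v.toValuationSubring) :
    v = Place.ofHeightOneSpectrum (K := K) (centerHOS B v hv) := by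
  apply Place.ext
  rw [toValuationSubring_eq B v hv, valuationSubringAtPrime_eq_valuationSubring]
  rfl

theorem algebraMap_mem_ofHeightOneSpectrum (P : HeightOneSpectrum B) (b : B) :
    algebraMap B F b ∈ (Place.ofHeightOneSpectrum (K := K) (F := F) P).toValuationSubring :=
  P.valuation_le_one b

theorem centerHOS_ofHeightOneSpectrum (P : HeightOneSpectrum B) :
    centerHOS B (Place.ofHeightOneSpectrum (K := K) (F := F) P)
      (algebraMap_mem_ofHeightOneSpectrum P) = P := by
  ext b
  show b ∈ center B _ _ ↔ _
  rw [mem_center_iff, ← valuation_lt_one_iff_mem (K := F) P b]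
  rcases eq_or_ne (algebraMap B F b) 0 with h0 | h0
  · have h1 : (valuation F P) (algebraMap B F b) < 1 := by rw [h0, map_zero]; exact zero_lt_one
    have h2 : (Place.ofHeightOneSpectrum (K := K) (F := F) P).adicValuation (algebraMap B F b) < 1 := by
      rw [h0, map_zero]; exact zero_lt_one
    exact ⟨fun _ => h1, fun _ => h2⟩
  · rw [Place.adicValuation_eq_exp_neg_ord _ h0, ord_ofHeightOneSpectrum (K := K) P h0]

end Dedekind

section BR

open IntermediateField.algebraAdjoinAdjoin

variable (y : F)

theorem finite_BRing [CharZero K] (hy : Transcendental K y) [FiniteDimensional K⟮y⟯ F] :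
    Module.Finite (Algebra.adjoin K {y}) (BRing (K := K) y) := by
  have := isPrincipalIdealRing_adjoin y hy
  have : CharZero K⟮y⟯ := inferInstance
  exact IsIntegralClosure.finite (Algebra.adjoin K {y}) K⟮y⟯ F (BRing (K := K) y)

theorem finiteType_BRing [CharZero K] (hy : Transcendental K y) [FiniteDimensional K⟮y⟯ F] :
    Algebra.FiniteType K (BRing (K := K) y) := by
  have := finite_BRing y hy
  have h1 : Algebra.FiniteType K (Algebra.adjoin K {y}) :=
    (Subalgebra.fg_iff_finiteType _).mp ⟨{y}, by simp⟩
  exact Algebra.FiniteType.trans h1 inferInstance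

end BR

section Null

variable {B : Type*} [CommRing B] [Algebra K B]

theorem surjective_quotient [IsAlgClosed K] [Algebra.FiniteType K B] (P : Ideal B)
    [hP : P.IsMaximal] : Function.Surjective (algebraMap K (B ⧸ P)) := by
  let _ : Field (B ⧸ P) := Ideal.Quotient.field P
  have h1 : Module.Finite K (B ⧸ P) :=
    finite_of_finite_type_of_isJacobsonRing K (B ⧸ P)
  have h2 : Algebra.IsIntegral K (B ⧸ P) := Algebra.IsIntegral.of_finite K (B ⧸ P)
  have h3 : IsDomain (B ⧸ P) := inferInstance
  exact (IsAlgClosed.algebraMap_bijective_of_isIntegral (k := K) (K := B ⧸ P)).2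

end Null

section Model

variable {B : Type*} [CommRing B] [IsDedekindDomain B] [Algebra B F] [IsFractionRing B F]
  [Algebra K B] [IsScalarTower K B F]

/-- residue field of a place with affine model -/
theorem residue_surjective [IsAlgClosed K] [Algebra.FiniteType K B] (v : Place K F)
    (hv : ∀ b : B, algebraMap B F b ∈ v.toValuationSubring) :
    Function.Surjective (algebraMap K v.ResidueField) := by
  have hmax : (center B v hv).IsMaximal :=
    (center_isPrime B v hv).isMaximal (center_ne_bot B v hv)
  have hB : ∀ b : B, ∃ c : K, IsLocalRing.residue v.toValuationSubring ⟨algebraMap B F b, hv b⟩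
      = algebraMap K v.ResidueField c := by
    intro b
    obtain ⟨c, hc⟩ := surjective_quotient (K := K) (center B v hv) (Ideal.Quotient.mk _ b)
    refine ⟨c, ?_⟩
    have h1 : b - algebraMap K B c ∈ center B v hv := by
      rw [← Ideal.Quotient.eq_zero_iff_mem, map_sub, ← hc, sub_eq_zero]
      rfl
    rw [center, Ideal.mem_comap, ← IsLocalRing.residue_eq_zero_iff, map_sub, map_sub,
      sub_eq_zero] at h1
    rw [show IsLocalRing.residue v.toValuationSubring ⟨algebraMap B F b, hv b⟩ = _ from h1]
    show IsLocalRing.residue _ _ = IsLocalRing.residue _ (algebraMap K v.toValuationSubring c)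
    congr 1
    apply Subtype.ext
    show algebraMap B F (algebraMap K B c) = algebraMap K F c
    rw [← IsScalarTower.algebraMap_apply]
  intro r
  obtain ⟨⟨f, hf⟩, rfl⟩ := IsLocalRing.residue_surjective r
  have hf' := hf
  rw [toValuationSubring_eq B v hv] at hf'
  obtain ⟨a, s, hs, hfas⟩ := hf'
  obtain ⟨c, hc⟩ := hB a
  obtain ⟨d, hd⟩ := hB s
  have hsne : algebraMap B F s ≠ 0 := by
    intro h0
    apply hs
    show s ∈ center B v hv
    rw [mem_center_iff, h0, map_zero]
    exact zero_lt_one
  have hmul : (⟨f, hf⟩ : v.toValuationSubring) * ⟨algebraMap B F s, hv s⟩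
      = ⟨algebraMap B F a, hv a⟩ := by
    apply Subtype.ext
    show f * algebraMap B F s = algebraMap B F a
    rw [hfas, mul_assoc, inv_mul_cancel₀ hsne, mul_one]
  have hres := congrArg (IsLocalRing.residue v.toValuationSubring) hmul
  rw [map_mul, hc, hd] at hres
  have hd0 : algebraMap K v.ResidueField d ≠ 0 := by
    rw [← hd, ne_eq, IsLocalRing.residue_eq_zero_iff]
    intro h
    exact hs h
  have hd0' : d ≠ 0 := by rintro rfl; simp at hd0
  refine ⟨c / d, ?_⟩
  rw [map_div₀, div_eq_iff hd0, ← hres]

/-- the valuation ring of a place with affine model is a localization. -/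
theorem essFiniteType [Algebra.FiniteType K B] (v : Place K F)
    (hv : ∀ b : B, algebraMap B F b ∈ v.toValuationSubring) :
    Algebra.EssFiniteType K v.toValuationSubring := by
  let _ : Algebra B v.toValuationSubring :=
    ((algebraMap B F).codRestrict v.toValuationSubring.toSubring hv).toAlgebra
  have ht : IsScalarTower K B v.toValuationSubring := by
    refine IsScalarTower.of_algebraMap_eq fun c => Subtype.ext ?_
    show algebraMap K F c = algebraMap B F (algebraMap K B c)
    rw [← IsScalarTower.algebraMap_apply]
  have hloc : IsLocalization (center B v hv).primeCompl v.toValuationSubring := by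
    rw [isLocalization_iff]
    refine ⟨?_, ?_, ?_⟩
    · rintro ⟨s, hs⟩
      by_contra hcon
      exact hs ((Ideal.mem_comap).mpr ((IsLocalRing.mem_maximalIdeal _).mpr hcon))
    · rintro ⟨f, hf⟩
      have hf' := hf
      rw [toValuationSubring_eq B v hv] at hf'
      obtain ⟨a, s, hs, hfas⟩ := hf'
      have hsne : algebraMap B F s ≠ 0 := by
        intro h0
        apply hs
        show s ∈ center B v hv
        rw [mem_center_iff, h0, map_zero]
        exact zero_lt_one
      refine ⟨⟨a, ⟨s, hs⟩⟩, Subtype.ext ?_⟩
      show f * algebraMap B F s = algebraMap B F a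
      rw [hfas, mul_assoc, inv_mul_cancel₀ hsne, mul_one]
    · intro a b hab
      refine ⟨1, ?_⟩
      have h1 : algebraMap B F a = algebraMap B F b := congrArg Subtype.val hab
      rw [IsFractionRing.injective B F h1]
  have h1 : Algebra.EssFiniteType B v.toValuationSubring :=
    Algebra.EssFiniteType.of_isLocalization _ (center B v hv).primeCompl
  exact Algebra.EssFiniteType.comp K B v.toValuationSubring

end Model

section AnyPlace

open IntermediateField.algebraAdjoinAdjoin

theorem mem_or_inv_mem_adjoin (x : F) : K⟮x⁻¹⟯ = K⟮x⟯ := by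
  apply le_antisymm
  · rw [IntermediateField.adjoin_simple_le_iff]
    exact inv_mem (IntermediateField.mem_adjoin_simple_self K x)
  · rw [IntermediateField.adjoin_simple_le_iff]
    have := inv_mem (IntermediateField.mem_adjoin_simple_self K x⁻¹)
    rwa [inv_inv] at this

theorem adjoin_sub_algebraMap (x : F) (a : K) : K⟮x - algebraMap K F a⟯ = K⟮x⟯ := by
  apply le_antisymm
  · rw [IntermediateField.adjoin_simple_le_iff]
    exact sub_mem (IntermediateField.mem_adjoin_simple_self K x)
      (IntermediateField.algebraMap_mem _ a)
  · rw [IntermediateField.adjoin_simple_le_iff]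
    have := add_mem (IntermediateField.mem_adjoin_simple_self K (x - algebraMap K F a))
      (IntermediateField.algebraMap_mem K⟮x - algebraMap K F a⟯ a)
    rwa [sub_add_cancel] at this

theorem finiteDimensional_of_eq {E E' : IntermediateField K F} (h : E = E')
    [FiniteDimensional E' F] : FiniteDimensional E F := by subst h; assumption

theorem finrank_of_eq {E E' : IntermediateField K F} (h : E = E') :
    Module.finrank E F = Module.finrank E' F := by subst h; rfl

theorem transcendental_inv {x : F} (hx : Transcendental K x) : Transcendental K x⁻¹ := by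
  intro h
  exact hx (inv_inv x ▸ h.inv)

theorem transcendental_sub {x : F} (hx : Transcendental K x) (a : K) :
    Transcendental K (x - algebraMap K F a) := by
  intro h
  apply hx
  have := h.add (isAlgebraic_algebraMap a)
  rwa [sub_add_cancel] at this

variable [CharZero K] (x : F) (hx : Transcendental K x) [FiniteDimensional K⟮x⟯ F]
include hx

theorem exists_model (v : Place K F) :
    ∃ y : F, Transcendental K y ∧ K⟮y⟯ = K⟮x⟯ ∧ y ∈ v.toValuationSubring := by
  rcases v.toValuationSubring.mem_or_inv_mem x with h | h
  · exact ⟨x, hx, rfl, h⟩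
  · exact ⟨x⁻¹, transcendental_inv hx, mem_or_inv_mem_adjoin x, h⟩

theorem essFiniteType_of_place (v : Place K F) :
    Algebra.EssFiniteType K v.toValuationSubring := by
  obtain ⟨y, hy, hyx, hyv⟩ := exists_model x hx v
  have : FiniteDimensional K⟮y⟯ F := finiteDimensional_of_eq hyx
  have := isDedekindDomain_BRing y hy
  have := isFractionRing_BRing (K := K) y
  have := finiteType_BRing y hy
  exact essFiniteType v (mem_of_BRing y v hyv)

theorem residue_surjective_of_place [IsAlgClosed K] (v : Place K F) :
    Function.Surjective (algebraMap K v.ResidueField) := by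
  obtain ⟨y, hy, hyx, hyv⟩ := exists_model x hx v
  have : FiniteDimensional K⟮y⟯ F := finiteDimensional_of_eq hyx
  have := isDedekindDomain_BRing y hy
  have := isFractionRing_BRing (K := K) y
  have := finiteType_BRing y hy
  exact residue_surjective v (mem_of_BRing y v hyv)

theorem deg_eq_one_of_place [IsAlgClosed K] (v : Place K F) : v.deg = 1 := by
  have h := residue_surjective_of_place x hx v
  have hbij : Function.Bijective (algebraMap K v.ResidueField) :=
    ⟨(algebraMap K v.ResidueField).injective, h⟩
  show Module.finrank K v.ResidueField = 1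
  rw [← Module.finrank_self K]
  exact ((AlgEquiv.ofBijective (Algebra.ofId K v.ResidueField) hbij).toLinearEquiv.finrank_eq).symm

theorem essFiniteType_field : Algebra.EssFiniteType K F := by
  have := isDedekindDomain_BRing x hx
  have := isFractionRing_BRing (K := K) x
  have := finiteType_BRing x hx
  have h1 : Algebra.EssFiniteType (BRing (K := K) x) F :=
    Algebra.EssFiniteType.of_isLocalization _ (nonZeroDivisors (BRing (K := K) x))
  exact Algebra.EssFiniteType.comp K (BRing (K := K) x) F

theorem nontrivial_kaehler : Nontrivial (Ω[F⁄K]) := by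
  by_contra hcon
  rw [not_nontrivial_iff_subsingleton] at hcon
  have h1 : Algebra.FormallyUnramified K F := ⟨hcon⟩
  have h2 := essFiniteType_field x hx
  have h3 : Algebra.IsSeparable K F := (Algebra.FormallyUnramified.iff_isSeparable K F).mp h1
  exact hx (Algebra.IsAlgebraic.isAlgebraic x)

end AnyPlace

end Fermat.Agent.FFFund
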