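import Fermat.Agent.FF.AlgClosed
import Fermat.Agent.RR.Riemann

set_option autoImplicit false

noncomputable section

open AlgebraicCurve WithZero Module Polynomial IntermediateField

namespace Fermat.Agent.FF

variable {K F : Type*} [Field K] [Field F] [Algebra K F]

instance [IsFF K F] (v : Place K F) : v.FiniteResidue := ⟨inferInstance⟩

instance [IsFF K F] : Nonempty (Place K F) := exists_place

/-- A function with a single zero at `v`. -/
theorem exists_single_zero [IsFF K F] (v : Place K F) :
    ∃ y : F, Transcendental K y ∧ ∀ u : Place K F, 0 < u.ord y ↔ u = v := by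
  classical
  obtain ⟨x, hx⟩ := IsFF.exists_transcendental (K := K) (F := F)
  have := IsFF.finite_adjoin x hx
  obtain ⟨γ, hγ⟩ := RR.riemann_inequality (K := K) x hx
  set m : ℕ := (γ + finrank K (riemannRochSpace (0 : Divisor K F)) + 1).toNat with hm
  have h1 := hγ (Finsupp.single v (m : ℤ))
  rw [Divisor.degree_single] at h1
  have hdeg : (1 : ℤ) ≤ v.deg := by exact_mod_cast deg_pos v
  have h2 : γ + finrank K (riemannRochSpace (0 : Divisor K F)) + 1 ≤ m := Int.self_le_toNat _
  have h3 : (m : ℤ) * 1 ≤ m * v.deg := mul_le_mul_of_nonneg_left hdeg (by omega)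
  have h4 : finrank K (riemannRochSpace (0 : Divisor K F)) <
      finrank K (riemannRochSpace (Finsupp.single v (m : ℤ))) := by
    change _ - (finrank K (riemannRochSpace (Finsupp.single v (m : ℤ))) : ℤ) ≤ γ at h1
    omega
  have h5 : ¬ riemannRochSpace (Finsupp.single v (m : ℤ)) ≤ riemannRochSpace (0 : Divisor K F) := by
    intro hle
    have hfin := finite_riemannRochSpace (0 : Divisor K F)
    exact absurd (Submodule.finrank_mono hle) (not_le.mpr h4)
  obtain ⟨f, hf, hf'⟩ := SetLike.not_le_iff_exists.mp h5
  have hf0 : f ≠ 0 := by rintro rfl; exact hf' (zero_mem _)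
  rw [mem_riemannRochSpace_iff] at hf hf'
  push Not at hf'
  obtain ⟨u, -, hu⟩ := hf'
  have hu' : u.ord f < 0 := by simpa using hu
  have huv : ∀ w : Place K F, w.ord f < 0 → w = v := by
    intro w hw
    by_contra hne
    have h6 := (hf w).resolve_left hf0
    rw [Finsupp.single_eq_of_ne hne] at h6
    omega
  refine ⟨f⁻¹, transcendental_inv (transcendental_of_ord_ne_zero u (by omega)), fun w => ?_⟩
  rw [w.ord_inv]
  constructor
  · intro hw; exact huv w (by omega)
  · rintro rfl
    have := huv u hu'
    rw [← this]; omega

theorem finrank_adjoin_algebraMap (F' : Type*) [Field F'] [Algebra K F']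
    [Algebra F F'] [IsScalarTower K F F'] (x : F) :
    finrank K⟮algebraMap F F' x⟯ F' = finrank K⟮x⟯ F * finrank F F' := by
  have h1 : K⟮x⟯.map (IsScalarTower.toAlgHom K F F') = K⟮algebraMap F F' x⟯ := by
    rw [IntermediateField.adjoin_map, Set.image_singleton]
    rfl
  let e : K⟮x⟯ ≃ₐ[K] K⟮algebraMap F F' x⟯ :=
    (IntermediateField.equivMap K⟮x⟯ (IsScalarTower.toAlgHom K F F')).trans
      (IntermediateField.equivOfEq h1)
  rw [Module.finrank_mul_finrank]
  refine (Algebra.finrank_eq_of_equiv_equiv e.toRingEquiv (RingEquiv.refl F') ?_).symm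
  ext z
  rfl

/-- The fundamental identity `∑ e f = [F':F]`. -/
theorem sumRamificationInertia [IsFF K F] (F' : Type*) [Field F'] [Algebra K F']
    [Algebra F F'] [IsScalarTower K F F'] [FiniteDimensional F F'] [Algebra.IsIntegral F F']
    [HasPrincipalDivisors K F'] : SumRamificationInertia K F F' where
  sum_ramificationIndex_mul_inertiaDeg v := by
    classical
    have hF' : IsFF K F' := IsFF.of_finite_extension (F := F) F'
    obtain ⟨y, hy, hyv⟩ := exists_single_zero v
    have hy' : Transcendental K (algebraMap F F' y) :=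
      (transcendental_algebraMap_iff (algebraMap F F').injective).mpr hy
    have h1 := sum_ord_mul_deg_eq_finrank hy
    have h2 := sum_ord_mul_deg_eq_finrank hy'
    have hZ : (finite_zeros (K := K) hy).toFinset = {v} := by
      ext u
      simp [hyv]
    rw [hZ, Finset.sum_singleton] at h1
    have hepos : ∀ w : Place K F', 0 < w.ramificationIndex F := fun w => w.ramificationIndex_pos
    have hZ' : (finite_zeros (K := K) hy').toFinset = v.fiber F' := by
      ext w
      rw [Place.mem_fiber, ← hyv]
      simp only [Set.Finite.mem_toFinset]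
      show 0 < w.ord (algebraMap F F' y) ↔ _
      rw [w.ord_restrict]
      have := hepos w
      constructor
      · intro h
        by_contra h'
        have : (w.ramificationIndex F : ℤ) * (w.restrict F).ord y ≤ 0 :=
          mul_nonpos_of_nonneg_of_nonpos (by omega) (by omega)
        omega
      · intro h; exact mul_pos (by omega) h
    rw [hZ', finrank_adjoin_algebraMap] at h2
    push_cast at h2
    rw [← h1] at h2
    have h3 : ∑ w ∈ v.fiber F', w.ord (algebraMap F F' y) * (w.deg : ℤ)
        = (v.ord y * v.deg) * ∑ w ∈ v.fiber F',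
          (w.ramificationIndex F : ℤ) * (w.inertiaDeg F : ℤ) := by
      rw [Finset.mul_sum]
      refine Finset.sum_congr rfl fun w hw => ?_
      rw [w.ord_restrict, ← w.deg_restrict_mul_inertiaDeg (F := F), Place.mem_fiber.mp hw]
      push_cast
      ring
    rw [h3] at h2
    have h4 : (v.ord y * v.deg : ℤ) ≠ 0 := by
      have h5 : 0 < v.ord y := (hyv v).mpr rfl
      have h6 := deg_pos v
      positivity
    exact mul_left_cancel₀ h4 h2

end Fermat.Agent.FF
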