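import Fermat.Agent.FF.Zeros

set_option autoImplicit false

noncomputable section

open AlgebraicCurve WithZero Module Polynomial IntermediateField

namespace Fermat.Agent.FF

variable {K F : Type*} [Field K] [Field F] [Algebra K F]

/-- `L(D)` is finite-dimensional, with `l(D) ≤ deg D + l(0)` for `D ≥ 0`. -/
theorem finite_riemannRochSpace [IsFF K F] (D : Divisor K F) :
    Module.Finite K (riemannRochSpace D) := by
  classical
  have h0 := finite_MM_univ_zero (K := K) (F := F)
  have h1 : (0 : Divisor K F) ≤ D ⊔ 0 := le_sup_right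
  have h2 := (MM_le (Set.univ : Set (Place K F)) h1).1
  have h3 := RFin.trans (N := ⊥) bot_le (MM_mono Set.univ h1) (RFin.bot_iff.mpr h0) h2
  have h4 := RFin.left (MM_mono Set.univ (le_sup_left : D ≤ D ⊔ 0)) h3
  rw [MM_univ] at h4
  exact RFin.bot_iff.mp h4

theorem finrank_riemannRochSpace_le [IsFF K F] {D D' : Divisor K F} (h : D ≤ D') :
    (finrank K (riemannRochSpace D') : ℤ) ≤
      finrank K (riemannRochSpace D) + (Divisor.degree D' - Divisor.degree D) := by
  obtain ⟨h1, h2⟩ := MM_le (Set.univ : Set (Place K F)) h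
  have h3 := finrank_add_rd (MM_mono Set.univ h)
    (by rw [MM_univ]; exact finite_riemannRochSpace D')
  rw [MM_univ, MM_univ] at h1 h2 h3
  omega

theorem riemannRochSpace_mono [IsFF K F] {D D' : Divisor K F} (h : D ≤ D') :
    riemannRochSpace D ≤ riemannRochSpace D' := by
  rw [← MM_univ, ← MM_univ]; exact MM_mono _ h

/-- The divisor of zeros of `y`. -/
def zeroDiv [IsFF K F] (y : F) : Divisor K F :=
  Finsupp.ofSupportFinite (fun v => max (v.ord y) 0)
    ((finite_ord_ne_zero (K := K) y).subset fun v hv => by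
      intro h
      apply hv
      simp [h])

theorem zeroDiv_apply [IsFF K F] (y : F) (v : Place K F) :
    zeroDiv (K := K) y v = max (v.ord y) 0 := rfl

theorem zeroDiv_nonneg [IsFF K F] (y : F) : 0 ≤ zeroDiv (K := K) y := fun v => by
  rw [zeroDiv_apply]; simp

theorem degree_eq_sum (D : Divisor K F) (s : Finset (Place K F)) (hs : D.support ⊆ s) :
    Divisor.degree D = ∑ v ∈ s, D v * v.deg := by
  conv_lhs => rw [← Finsupp.sum_single D]
  rw [Finsupp.sum, map_sum, ← Finset.sum_subset hs]
  · refine Finset.sum_congr rfl fun v _ => Divisor.degree_single v _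
  · intro v _ hv
    rw [Finsupp.notMem_support_iff.mp hv, zero_mul]

theorem degree_zeroDiv_le [IsFF K F] {y : F} (hy : Transcendental K y) :
    Divisor.degree (zeroDiv (K := K) y) ≤ finrank K⟮y⟯ F := by
  classical
  rw [degree_eq_sum _ _ (Finset.Subset.refl _)]
  refine le_trans (le_of_eq ?_) (sum_zeros_le hy (zeroDiv (K := K) y).support ?_)
  · refine Finset.sum_congr rfl fun v hv => ?_
    rw [Finsupp.mem_support_iff, zeroDiv_apply] at hv
    rw [zeroDiv_apply]
    have : max (v.ord y) 0 = v.ord y := by
      apply max_eq_left; by_contra h; apply hv; exact max_eq_right (by omega)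
    rw [this]
  · intro v hv
    rw [Finsupp.mem_support_iff, zeroDiv_apply] at hv
    by_contra h
    apply hv
    exact max_eq_right (by omega)

theorem linearIndependent_zpow {y : F} (hy : Transcendental K y) (l : ℕ) :
    LinearIndependent K (fun j : Fin (l + 1) =>
      (⟨y⁻¹ ^ (j : ℕ), pow_mem (inv_mem (mem_adjoin_simple_self K y)) _⟩ : K⟮y⟯)) := by
  rw [Fintype.linearIndependent_iff]
  intro g hg j
  have hy' := transcendental_inv hy
  have h1 : aeval y⁻¹ (∑ j : Fin (l + 1), C (g j) * X ^ (j : ℕ)) = 0 := by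
    rw [map_sum]
    have := congrArg (fun z : K⟮y⟯ => (z : F)) hg
    simp only [ZeroMemClass.coe_zero] at this
    rw [← this]
    push_cast
    refine Finset.sum_congr rfl fun j _ => ?_
    rw [map_mul, aeval_C, map_pow, aeval_X, Algebra.smul_def]
  have h2 := (transcendental_iff.mp hy') _ h1
  have h3 := congrArg (fun p : K[X] => p.coeff (j : ℕ)) h2
  simp only [finsetSum_coeff, coeff_C_mul, coeff_X_pow, coeff_zero] at h3
  rw [Finset.sum_eq_single j] at h3
  · simpa using h3
  · intro b _ hb
    have : (j : ℕ) ≠ b := fun h => hb (Fin.ext h.symm)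
    simp [this]
  · simp

/-- The degree of the zero divisor is the degree of the field extension. -/
theorem degree_zeroDiv [IsFF K F] {y : F} (hy : Transcendental K y) :
    Divisor.degree (zeroDiv (K := K) y) = finrank K⟮y⟯ F := by
  classical
  apply le_antisymm (degree_zeroDiv_le hy)
  have hfin := IsFF.finite_adjoin y hy
  set n := finrank K⟮y⟯ F with hn
  let b := Module.finBasis K⟮y⟯ F
  -- a divisor bounding the poles of the basis
  set C : Divisor K F := ∑ i, zeroDiv (K := K) (b i)⁻¹ with hC
  have hC0 : 0 ≤ C := Finset.sum_nonneg fun i _ => zeroDiv_nonneg _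
  have hbC : ∀ i v, b i ∈ fil v (C v) := by
    intro i v
    rw [mem_fil_iff]
    right
    have h1 : zeroDiv (K := K) (b i)⁻¹ v ≤ C v := by
      rw [hC, Finset.sum_apply']
      exact Finset.single_le_sum (f := fun i => zeroDiv (K := K) (b i)⁻¹ v)
        (fun i _ => zeroDiv_nonneg _ v) (Finset.mem_univ i)
    rw [zeroDiv_apply, v.ord_inv] at h1
    have := le_max_left (-v.ord (b i)) 0
    omega
  set B := zeroDiv (K := K) y with hB
  have hy0 : y ≠ 0 := by rintro rfl; exact hy isAlgebraic_zero
  -- the elements `y^{-j} b_i` lie in `L(lB + C)`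
  have hbound : ∀ l : ℕ, ((l : ℤ) + 1) * n ≤ finrank K (riemannRochSpace (0 : Divisor K F))
      + (l * Divisor.degree B + Divisor.degree C) := by
    intro l
    have hmem : ∀ p : Fin (l + 1) × Fin n, (y⁻¹ ^ (p.1 : ℕ)) * b p.2 ∈
        riemannRochSpace (l • B + C) := by
      intro p
      rw [← MM_univ, mem_MM]
      intro v _
      have h1 := mul_mem_fil_of_ord (y⁻¹ ^ (p.1 : ℕ)) (hbC p.2 v)
      refine fil_mono v ?_ h1
      rw [ord_pow, v.ord_inv]
      have h2 : (l • B + C : Divisor K F) v = l * max (v.ord y) 0 + C v := by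
        simp [hB, zeroDiv_apply]
      rw [h2]
      have h3 : (p.1 : ℕ) ≤ l := Nat.lt_succ_iff.mp p.1.2
      have h4 : ((p.1 : ℕ) : ℤ) * v.ord y ≤ l * max (v.ord y) 0 := by
        calc ((p.1 : ℕ) : ℤ) * v.ord y ≤ ((p.1 : ℕ) : ℤ) * max (v.ord y) 0 := by
              apply mul_le_mul_of_nonneg_left (le_max_left _ _) (by omega)
          _ ≤ l * max (v.ord y) 0 := by
              apply mul_le_mul_of_nonneg_right (by omega) (le_max_right _ _)
      linarith
    have hli : LinearIndependent K (fun p : Fin (l + 1) × Fin n =>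
        (⟨(y⁻¹ ^ (p.1 : ℕ)) * b p.2, hmem p⟩ : riemannRochSpace (l • B + C))) := by
      have h1 := linearIndependent_smul (linearIndependent_zpow hy l) b.linearIndependent
      apply LinearIndependent.of_comp (riemannRochSpace (l • B + C)).subtype
      exact h1
    have hf1 := finite_riemannRochSpace (l • B + C)
    have h2 := hli.fintype_card_le_finrank
    rw [Fintype.card_prod, Fintype.card_fin, Fintype.card_fin] at h2
    have h3 : (0 : Divisor K F) ≤ l • B + C := add_nonneg (nsmul_nonneg (zeroDiv_nonneg y) l) hC0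
    have h4 := finrank_riemannRochSpace_le h3
    rw [map_zero, sub_zero, map_add, map_nsmul, nsmul_eq_mul] at h4
    have h5 : (((l + 1) * n : ℕ) : ℤ) ≤ finrank K (riemannRochSpace (l • B + C)) := by
      exact_mod_cast h2
    push_cast at h5
    linarith
  by_contra hlt
  push Not at hlt
  set c : ℤ := finrank K (riemannRochSpace (0 : Divisor K F)) + Divisor.degree C with hc
  have hc0 : 0 ≤ c := by
    have h1 : 0 ≤ Divisor.degree C := by
      rw [degree_eq_sum _ _ (Finset.Subset.refl _)]
      exact Finset.sum_nonneg fun v _ => mul_nonneg (hC0 v) (by omega)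
    omega
  have h1 := hbound c.toNat
  have h2 : ((c.toNat : ℕ) : ℤ) = c := Int.toNat_of_nonneg hc0
  rw [h2] at h1
  have h3 : c * Divisor.degree B ≤ c * (n - 1) :=
    mul_le_mul_of_nonneg_left (by omega) hc0
  have hn0 : 0 < n := Module.finrank_pos
  have h4 : (1 : ℤ) ≤ n := by exact_mod_cast hn0
  nlinarith

/-- The principal divisor. -/
def divOf [IsFF K F] (f : F) : Divisor K F :=
  Finsupp.ofSupportFinite (fun v => v.ord f) (finite_ord_ne_zero (K := K) f)

@[simp] theorem divOf_apply [IsFF K F] (f : F) (v : Place K F) : divOf (K := K) f v = v.ord f :=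
  rfl

theorem divOf_eq [IsFF K F] (f : F) :
    divOf (K := K) f = zeroDiv (K := K) f - zeroDiv (K := K) f⁻¹ := by
  ext v
  rw [Finsupp.sub_apply, divOf_apply, zeroDiv_apply, zeroDiv_apply, v.ord_inv]
  rcases le_total (v.ord f) 0 with h | h
  · rw [max_eq_right h, max_eq_left (by omega)]; ring
  · rw [max_eq_left h, max_eq_right (by omega)]; ring

theorem degree_divOf [IsFF K F] (f : F) : Divisor.degree (divOf (K := K) f) = 0 := by
  rcases eq_or_ne f 0 with rfl | hf0
  · have : divOf (K := K) (0 : F) = 0 := by ext v; simp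
    rw [this, map_zero]
  by_cases hf : IsAlgebraic K f
  · have : divOf (K := K) f = 0 := by
      ext v; rw [divOf_apply, algebraic_ord_eq_zero v hf hf0]; rfl
    rw [this, map_zero]
  · rw [divOf_eq, map_sub, degree_zeroDiv hf, degree_zeroDiv (transcendental_inv hf),
      isFF_nontrivial_adjoin_inv, sub_self]

instance instHasPrincipalDivisors [IsFF K F] : HasPrincipalDivisors K F where
  exists_divisor f _ := ⟨divOf f, fun v => divOf_apply f v, degree_divOf f⟩

end Fermat.Agent.FF
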