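import Mathlib
import Fermat.Prelude.Def_AlgebraicCurve_Repartitions
import Fermat.Prelude.Def_AlgebraicCurve_DivisorPushPull
import Fermat.Prelude.Def_AlgebraicCurve_IsCurveOver

set_option autoImplicit false

noncomputable section

open AlgebraicCurve WithZero

namespace Fermat.Agent.FF

variable {K F : Type*} [Field K] [Field F] [Algebra K F]

/-! ### Basic facts on `ord` -/

theorem mem_iff_ord_nonneg (v : Place K F) {f : F} (hf : f ≠ 0) :
    f ∈ v.toValuationSubring ↔ 0 ≤ v.ord f := by
  constructor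
  · intro h
    have := (v.adicValuation_le_one_iff (f := f)).mp (v.adicValuation_le_one_of_mem h)
    exact this.resolve_left hf
  · intro h
    obtain ⟨π, hπ⟩ := IsDiscreteValuationRing.exists_irreducible v.toValuationSubring
    obtain ⟨u, hu⟩ := v.exists_unit_mul_zpow hf hπ
    rw [hu, show v.ord f = (((v.ord f).toNat : ℕ) : ℤ) from (Int.toNat_of_nonneg h).symm,
      zpow_natCast]
    exact mul_mem (u : v.toValuationSubring).2 (pow_mem (π : v.toValuationSubring).2 _)

theorem mem_iff_val_le_one (v : Place K F) {f : F} :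
    f ∈ v.toValuationSubring ↔ v.adicValuation f ≤ 1 := by
  rcases eq_or_ne f 0 with rfl | hf
  · simp [zero_mem]
  · rw [mem_iff_ord_nonneg v hf, v.adicValuation_le_one_iff, or_iff_right hf]

theorem ord_add_ge (v : Place K F) {f g : F} {n : ℤ} (hf : n ≤ v.ord f) (hg : n ≤ v.ord g)
    (h : f + g ≠ 0) : n ≤ v.ord (f + g) := by
  have h1 : v.adicValuation f ≤ exp (-n) := (v.adicValuation_le_exp_iff).mpr (Or.inr (by simpa))
  have h2 : v.adicValuation g ≤ exp (-n) := (v.adicValuation_le_exp_iff).mpr (Or.inr (by simpa))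
  have h3 : v.adicValuation (f + g) ≤ exp (-n) :=
    (Valuation.map_add _ _ _).trans (max_le h1 h2)
  have := ((v.adicValuation_le_exp_iff).mp h3).resolve_left h
  simpa using this

theorem ord_neg (v : Place K F) (f : F) : v.ord (-f) = v.ord f := by
  simp [Place.ord, Valuation.map_neg]

theorem ord_pow (v : Place K F) (f : F) (n : ℕ) : v.ord (f ^ n) = n * v.ord f := by
  have := v.ord_zpow f n
  simpa using this

theorem ord_algebraMap (v : Place K F) (a : K) : v.ord (algebraMap K F a) = 0 := by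
  rcases eq_or_ne a 0 with rfl | ha
  · simp
  · have h0 : algebraMap K F a ≠ 0 := by simpa using ha
    have h1 := (mem_iff_ord_nonneg v h0).mp (v.algebraMap_mem' a)
    have h2 := (mem_iff_ord_nonneg v (inv_ne_zero h0)).mp
      (by rw [← map_inv₀]; exact v.algebraMap_mem' a⁻¹)
    rw [v.ord_inv] at h2
    omega

theorem val_lt_iff (v : Place K F) {f : F} (hf : f ≠ 0) {g : F} (hg : g ≠ 0) :
    v.adicValuation f < v.adicValuation g ↔ v.ord g < v.ord f := by
  rw [v.adicValuation_eq_exp_neg_ord hf, v.adicValuation_eq_exp_neg_ord hg, exp_lt_exp]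
  omega

/-- if `ord f ≠ ord g` then `ord (f+g) = min`. -/
theorem ord_add_eq_of_lt (v : Place K F) {f g : F} (hf : f ≠ 0) (hg : g ≠ 0)
    (h : v.ord f < v.ord g) : f + g ≠ 0 ∧ v.ord (f + g) = v.ord f := by
  have h1 : v.adicValuation g < v.adicValuation f := (val_lt_iff v hg hf).mpr h
  have h2 : v.adicValuation (f + g) = v.adicValuation f :=
    Valuation.map_add_eq_of_lt_left _ h1
  constructor
  · intro h0
    rw [h0, map_zero] at h2
    exact v.adicValuation_ne_zero hf h2.symm
  · simp [Place.ord, h2]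

theorem exists_uniformizer (v : Place K F) : ∃ π : F, π ≠ 0 ∧ v.ord π = 1 := by
  obtain ⟨π, hπ⟩ := IsDiscreteValuationRing.exists_irreducible v.toValuationSubring
  exact ⟨π, by simpa [ZeroMemClass.coe_eq_zero] using hπ.ne_zero, v.ord_coe_irreducible hπ⟩

/-- Distinct places: neither valuation ring contains the other. -/
theorem eq_of_le {v w : Place K F} (h : v.toValuationSubring ≤ w.toValuationSubring) : v = w := by
  obtain ⟨π, hπ0, hπ⟩ := exists_uniformizer v
  have hπmem : π ∈ v.toValuationSubring := (mem_iff_ord_nonneg v hπ0).mpr (by omega)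
  have hwπ : 0 ≤ w.ord π := (mem_iff_ord_nonneg w hπ0).mp (h hπmem)
  -- a unit of v has w-order zero
  have hunit : ∀ u : F, u ≠ 0 → v.ord u = 0 → w.ord u = 0 := by
    intro u hu0 hu
    have h1 := (mem_iff_ord_nonneg w hu0).mp (h ((mem_iff_ord_nonneg v hu0).mpr (by omega)))
    have h2 := (mem_iff_ord_nonneg w (inv_ne_zero hu0)).mp
      (h ((mem_iff_ord_nonneg v (inv_ne_zero hu0)).mpr (by rw [v.ord_inv]; omega)))
    rw [w.ord_inv] at h2
    omega
  have hformula : ∀ f : F, f ≠ 0 → w.ord f = v.ord f * w.ord π := by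
    intro f hf
    have hu0 : f * π ^ (-(v.ord f)) ≠ 0 := mul_ne_zero hf (zpow_ne_zero _ hπ0)
    have hu : v.ord (f * π ^ (-(v.ord f))) = 0 := by
      rw [v.ord_mul hf (zpow_ne_zero _ hπ0), v.ord_zpow, hπ]; ring
    have h3 := hunit _ hu0 hu
    rw [w.ord_mul hf (zpow_ne_zero _ hπ0), w.ord_zpow] at h3
    linarith
  have hpos : 0 < w.ord π := by
    rcases hwπ.lt_or_eq with h' | h'
    · exact h'
    · exfalso
      apply w.ne_top'
      rw [eq_top_iff]
      intro f _
      rcases eq_or_ne f 0 with rfl | hf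
      · exact zero_mem _
      · rw [mem_iff_ord_nonneg w hf, hformula f hf, ← h', mul_zero]
  apply Place.ext
  refine le_antisymm h ?_
  intro f hf
  rcases eq_or_ne f 0 with rfl | hf0
  · exact zero_mem _
  · rw [mem_iff_ord_nonneg v hf0]
    have h4 := (mem_iff_ord_nonneg w hf0).mp hf
    rw [hformula f hf0] at h4
    by_contra hneg
    push Not at hneg
    nlinarith

/-- For distinct places there is an element with positive order at the first and negative
order at the second. -/
theorem exists_pos_neg {v w : Place K F} (h : v ≠ w) :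
    ∃ u : F, u ≠ 0 ∧ 0 < v.ord u ∧ w.ord u < 0 := by
  have h1 : ¬ v.toValuationSubring ≤ w.toValuationSubring := fun h' => h (eq_of_le h')
  have h2 : ¬ w.toValuationSubring ≤ v.toValuationSubring := fun h' => h (eq_of_le h').symm
  obtain ⟨a, ha, ha'⟩ := SetLike.not_le_iff_exists.mp h1
  obtain ⟨b, hb, hb'⟩ := SetLike.not_le_iff_exists.mp h2
  have ha0 : a ≠ 0 := by rintro rfl; exact ha' (zero_mem _)
  have hb0 : b ≠ 0 := by rintro rfl; exact hb' (zero_mem _)
  rw [mem_iff_ord_nonneg _ ha0] at ha ha'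
  rw [mem_iff_ord_nonneg _ hb0] at hb hb'
  refine ⟨a * b⁻¹, mul_ne_zero ha0 (inv_ne_zero hb0), ?_, ?_⟩
  · rw [v.ord_mul ha0 (inv_ne_zero hb0), v.ord_inv]; omega
  · rw [w.ord_mul ha0 (inv_ne_zero hb0), w.ord_inv]; omega

end Fermat.Agent.FF
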