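import Fermat.Agent.FF.Curve

/-!
The integral closure of `K[y]` in a function field `F` is finite free over `K[y]`
of rank `[F : K(y)]` (no separability assumption).
-/

set_option autoImplicit false

noncomputable section

open AlgebraicCurve WithZero Module Polynomial IntermediateField IsLocalRing

namespace Fermat.Agent.FF

variable {K F : Type*} [Field K] [Field F] [Algebra K F]

/-- `L(m (y)_∞)`. -/
def VV (K : Type*) {F : Type*} [Field K] [Field F] [Algebra K F] [IsFF K F] (y : F) (m : ℕ) :
    Submodule K F :=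
  riemannRochSpace ((m : ℤ) • zeroDiv (K := K) y⁻¹)

theorem mem_VV [IsFF K F] {y : F} {m : ℕ} {f : F} :
    f ∈ VV K y m ↔ ∀ v : Place K F, f = 0 ∨ -(m * max (-v.ord y) 0) ≤ v.ord f := by
  rw [VV, mem_riemannRochSpace_iff]
  refine forall_congr' fun v => ?_
  rw [Finsupp.smul_apply, zeroDiv_apply, v.ord_inv, smul_eq_mul]

instance finite_VV [IsFF K F] (y : F) (m : ℕ) : Module.Finite K (VV K y m) :=
  finite_riemannRochSpace _

theorem VV_mono [IsFF K F] (y : F) {m m' : ℕ} (h : m ≤ m') : VV K y m ≤ VV K y m' := by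
  intro f hf
  rw [mem_VV] at hf ⊢
  intro v
  refine (hf v).imp id fun h1 => le_trans ?_ h1
  have h2 : (0 : ℤ) ≤ max (-v.ord y) 0 := le_max_right _ _
  have h3 : (m : ℤ) * max (-v.ord y) 0 ≤ m' * max (-v.ord y) 0 :=
    mul_le_mul_of_nonneg_right (by exact_mod_cast h) h2
  omega

theorem mul_mem_VV [IsFF K F] {y : F} (hy : y ≠ 0) {m : ℕ} {f : F} (hf : f ∈ VV K y m) :
    y * f ∈ VV K y (m + 1) := by
  rcases eq_or_ne f 0 with rfl | hf0
  · rw [mul_zero]; exact zero_mem _
  rw [mem_VV] at hf ⊢
  intro v
  right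
  have h1 := (hf v).resolve_left hf0
  rw [v.ord_mul hy hf0]
  have h2 : -v.ord y ≤ max (-v.ord y) 0 := le_max_left _ _
  push_cast
  rw [add_mul, one_mul]
  omega

theorem mem_VV_of_mul_mem [IsFF K F] {y : F} (hy : y ≠ 0) {m : ℕ} {f : F}
    (hf : f ∈ VV K y (m + 1)) (hyf : y * f ∈ VV K y (m + 1)) : f ∈ VV K y m := by
  rcases eq_or_ne f 0 with rfl | hf0
  · exact zero_mem _
  rw [mem_VV] at hf hyf ⊢
  intro v
  right
  have h1 := (hf v).resolve_left hf0
  have h2 := (hyf v).resolve_left (mul_ne_zero hy hf0)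
  rw [v.ord_mul hy hf0] at h2
  rcases le_total (-v.ord y) 0 with h3 | h3
  · rw [max_eq_right h3] at h1 ⊢
    simpa using h1
  · rw [max_eq_left h3] at h2 ⊢
    push_cast at h2
    rw [add_mul, one_mul] at h2
    omega

theorem finrank_map_of_injective {V W : Type*} [AddCommGroup V] [Module K V] [AddCommGroup W]
    [Module K W] (f : V →ₗ[K] W) (hf : Function.Injective f) (p : Submodule K V) :
    finrank K (p.map f) = finrank K p :=
  ((Submodule.equivMapOfInjective f hf p).finrank_eq).symm

theorem finrank_VV_succ_le [IsFF K F] {y : F} (hy : Transcendental K y) (m : ℕ) :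
    finrank K (VV K y (m + 1)) ≤ finrank K (VV K y m) + finrank K⟮y⟯ F := by
  have h1 : ((m : ℕ) : ℤ) • zeroDiv (K := K) y⁻¹ ≤ ((m + 1 : ℕ) : ℤ) • zeroDiv (K := K) y⁻¹ := by
    intro v
    have h2 : 0 ≤ zeroDiv (K := K) y⁻¹ v := zeroDiv_nonneg y⁻¹ v
    simp only [Finsupp.smul_apply, smul_eq_mul]
    push_cast
    rw [add_mul, one_mul]
    omega
  have h2 := finrank_riemannRochSpace_le h1
  rw [map_zsmul, map_zsmul, degree_zeroDiv (transcendental_inv hy), smul_eq_mul,
    smul_eq_mul] at h2
  have h3 : K⟮y⁻¹⟯ = K⟮y⟯ := by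
    apply le_antisymm
    · rw [adjoin_simple_le_iff]; exact inv_mem (mem_adjoin_simple_self K y)
    · rw [adjoin_simple_le_iff]
      have := inv_mem (mem_adjoin_simple_self K y⁻¹)
      rwa [inv_inv] at this
  rw [h3] at h2
  push_cast at h2
  have h4 : (finrank K (VV K y (m + 1)) : ℤ) ≤ finrank K (VV K y m) + finrank K⟮y⟯ F := by
    unfold VV
    push_cast
    linarith
  exact_mod_cast h4

theorem exists_finrank_VV_eq [IsFF K F] {y : F} (hy : Transcendental K y) :
    ∃ m₀ : ℕ, ∀ m, m₀ ≤ m → finrank K (VV K y (m + 1)) = finrank K (VV K y m) + finrank K⟮y⟯ F := by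
  classical
  have hfin := IsFF.finite_adjoin y hy
  obtain ⟨γ, hγ⟩ := RR.riemann_inequality (K := K) y hy
  set n := finrank K⟮y⟯ F
  set r : ℕ → ℤ := fun m => (m : ℤ) * n - finrank K (VV K y m) with hr
  have hmono : Monotone r := by
    refine monotone_nat_of_le_succ fun m => ?_
    have := finrank_VV_succ_le (K := K) hy m
    simp only [hr]
    push_cast
    have h2 : (finrank K (VV K y (m + 1)) : ℤ) ≤ finrank K (VV K y m) + n := by exact_mod_cast this
    linarith
  have h3 : K⟮y⁻¹⟯ = K⟮y⟯ := by
    apply le_antisymm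
    · rw [adjoin_simple_le_iff]; exact inv_mem (mem_adjoin_simple_self K y)
    · rw [adjoin_simple_le_iff]
      have := inv_mem (mem_adjoin_simple_self K y⁻¹)
      rwa [inv_inv] at this
  have hbd : ∀ m, r m ≤ γ := by
    intro m
    have := hγ ((m : ℤ) • zeroDiv (K := K) y⁻¹)
    rw [map_zsmul, degree_zeroDiv (transcendental_inv hy), h3, smul_eq_mul] at this
    exact this
  obtain ⟨ub, ⟨m₀, hm₀⟩, hmax⟩ := Int.exists_greatest_of_bdd
    (P := fun z => ∃ m, r m = z) ⟨γ, by rintro z ⟨m, rfl⟩; exact hbd m⟩ ⟨_, 0, rfl⟩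
  refine ⟨m₀, fun m hm => ?_⟩
  have h4 : r m = r m₀ := le_antisymm (by rw [hm₀]; exact hmax _ ⟨m, rfl⟩) (hmono hm)
  have h5 : r (m + 1) = r m₀ :=
    le_antisymm (by rw [hm₀]; exact hmax _ ⟨m + 1, rfl⟩) (hmono (by omega))
  have h6 : r (m + 1) = r m := h5.trans h4.symm
  simp only [hr] at h6
  push_cast at h6
  have h7 : (finrank K (VV K y (m + 1)) : ℤ) = finrank K (VV K y m) + n := by linarith
  exact_mod_cast h7

/-- For large `m`: `L((m+2)D) = L((m+1)D) + y L((m+1)D)`. -/
theorem exists_VV_eq_sup [IsFF K F] {y : F} (hy : Transcendental K y) :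
    ∃ m₀ : ℕ, ∀ m, m₀ ≤ m → VV K y (m + 2) =
      VV K y (m + 1) ⊔ (VV K y (m + 1)).map (LinearMap.mulLeft K y) := by
  obtain ⟨m₀, hm₀⟩ := exists_finrank_VV_eq (K := K) hy
  have hy0 : y ≠ 0 := by rintro rfl; exact hy isAlgebraic_zero
  have hinj : Function.Injective (LinearMap.mulLeft K y : F →ₗ[K] F) := by
    intro a b hab
    exact mul_left_cancel₀ hy0 hab
  refine ⟨m₀, fun m hm => ?_⟩
  symm
  refine Submodule.eq_of_le_of_finrank_eq ?_ ?_
  · refine sup_le (VV_mono y (by omega)) ?_
    rintro _ ⟨f, hf, rfl⟩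
    exact mul_mem_VV hy0 hf
  · have h1 : VV K y (m + 1) ⊓ (VV K y (m + 1)).map (LinearMap.mulLeft K y)
        = (VV K y m).map (LinearMap.mulLeft K y) := by
      ext g
      constructor
      · rintro ⟨hg, f, hf, rfl⟩
        exact ⟨f, mem_VV_of_mul_mem hy0 hf hg, rfl⟩
      · rintro ⟨f, hf, rfl⟩
        exact ⟨mul_mem_VV hy0 hf, f, VV_mono y (by omega) hf, rfl⟩
    have h2 := Submodule.finrank_sup_add_finrank_inf_eq (VV K y (m + 1))
      ((VV K y (m + 1)).map (LinearMap.mulLeft K y))
    rw [h1, finrank_map_of_injective _ hinj,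
      finrank_map_of_injective _ hinj] at h2
    have h3 := hm₀ m hm
    have h4 := hm₀ (m + 1) (by omega)
    rw [show m + 1 + 1 = m + 2 from rfl] at h4
    omega

theorem mem_integralClosure_adjoin_iff [IsFF K F] {y : F} {f : F} :
    f ∈ integralClosure (Algebra.adjoin K {y}) F ↔
      ∀ w : Place K F, y ∈ w.toValuationSubring → f ∈ w.toValuationSubring := by
  show IsIntegral (Algebra.adjoin K {y}) f ↔ _
  rw [isIntegral_iff_forall_place (Algebra.adjoin K {y}) f]
  refine forall_congr' fun w => ?_
  have : (∀ r ∈ Algebra.adjoin K {y}, r ∈ w.toValuationSubring) ↔ y ∈ w.toValuationSubring := by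
    constructor
    · intro h; exact h y (Algebra.self_mem_adjoin_singleton K y)
    · intro h r hr
      rw [Algebra.adjoin_singleton_eq_range_aeval] at hr
      obtain ⟨p, rfl⟩ := hr
      exact aeval_mem w h p
  rw [this]

theorem mem_integralClosure_adjoin_iff_exists_VV [IsFF K F] {y : F} {f : F} :
    f ∈ integralClosure (Algebra.adjoin K {y}) F ↔ ∃ m, f ∈ VV K y m := by
  classical
  rw [mem_integralClosure_adjoin_iff]
  constructor
  · intro h
    refine ⟨∑ v ∈ (finite_ord_ne_zero (K := K) f).toFinset, (-v.ord f).toNat, ?_⟩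
    rw [mem_VV]
    intro v
    by_cases hf0 : f = 0
    · left; exact hf0
    right
    by_cases hfv : 0 ≤ v.ord f
    · have h1 : (0 : ℤ) ≤ max (-v.ord y) 0 := le_max_right _ _
      have h2 : (0 : ℤ) ≤ ((∑ v ∈ (finite_ord_ne_zero (K := K) f).toFinset,
        (-v.ord f).toNat : ℕ) : ℤ) := by positivity
      have := mul_nonneg h2 h1
      omega
    · have hy0 : y ≠ 0 := by
        rintro rfl
        exact hfv ((mem_iff_ord_nonneg v hf0).mp (h v (zero_mem _)))
      have hyv : v.ord y < 0 := by
        by_contra h3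
        exact hfv ((mem_iff_ord_nonneg v hf0).mp
          (h v ((mem_iff_ord_nonneg v hy0).mpr (not_lt.mp h3))))
      have h1 : (-v.ord f).toNat ≤ ∑ v ∈ (finite_ord_ne_zero (K := K) f).toFinset,
          (-v.ord f).toNat :=
        Finset.single_le_sum (f := fun v : Place K F => (-v.ord f).toNat)
          (fun _ _ => Nat.zero_le _) (by simp; omega)
      have h2 := Int.self_le_toNat (-v.ord f)
      have h3 : (1 : ℤ) ≤ max (-v.ord y) 0 := le_max_of_le_left (by omega)
      have h4 : ((∑ v ∈ (finite_ord_ne_zero (K := K) f).toFinset, (-v.ord f).toNat : ℕ) : ℤ) * 1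
          ≤ ((∑ v ∈ (finite_ord_ne_zero (K := K) f).toFinset, (-v.ord f).toNat : ℕ) : ℤ)
            * max (-v.ord y) 0 :=
        mul_le_mul_of_nonneg_left h3 (by positivity)
      omega
  · rintro ⟨m, hm⟩ w hw
    rcases eq_or_ne f 0 with rfl | hf0
    · exact zero_mem _
    rw [mem_iff_ord_nonneg w hf0]
    have h1 := (mem_VV.mp hm w).resolve_left hf0
    have h2 : max (-w.ord y) 0 = 0 := by
      rcases eq_or_ne y 0 with rfl | hy0
      · simp
      · have := (mem_iff_ord_nonneg w hy0).mp hw
        exact max_eq_right (by omega)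
    rw [h2, mul_zero, neg_zero] at h1
    exact h1

/-- **Finiteness of the integral closure of `K[y]`** (any characteristic). -/
theorem finite_integralClosure_adjoin [IsFF K F] {y : F} (hy : Transcendental K y) :
    Module.Finite (Algebra.adjoin K {y}) (integralClosure (Algebra.adjoin K {y}) F) := by
  classical
  obtain ⟨m₀, hm₀⟩ := exists_VV_eq_sup (K := K) hy
  have hA : y ∈ Algebra.adjoin K {y} := Algebra.self_mem_adjoin_singleton K y
  set N : Submodule (Algebra.adjoin K {y}) F :=
    Submodule.span (Algebra.adjoin K {y}) (VV K y (m₀ + 1) : Set F) with hN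
  have h1 : ∀ m, m₀ + 1 ≤ m → ∀ f ∈ VV K y m, f ∈ N := by
    intro m hm
    induction m, hm using Nat.le_induction with
    | base => exact fun f hf => Submodule.subset_span hf
    | succ m hm ih =>
      obtain ⟨m', rfl⟩ : ∃ m', m = m' + 1 := ⟨m - 1, by omega⟩
      intro f hf
      rw [show m' + 1 + 1 = m' + 2 from rfl, hm₀ m' (by omega)] at hf
      obtain ⟨a, ha, b, hb, rfl⟩ := Submodule.mem_sup.mp hf
      obtain ⟨c, hc, rfl⟩ := hb
      refine add_mem (ih a ha) ?_
      have := N.smul_mem (⟨y, hA⟩ : Algebra.adjoin K {y}) (ih c hc)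
      exact this
  have hle : Subalgebra.toSubmodule (integralClosure (Algebra.adjoin K {y}) F) = N := by
    apply le_antisymm
    · intro f hf
      obtain ⟨m, hm⟩ := mem_integralClosure_adjoin_iff_exists_VV.mp hf
      rcases le_total (m₀ + 1) m with h | h
      · exact h1 m h f hm
      · exact h1 (m₀ + 1) le_rfl f (VV_mono y h hm)
    · rw [hN, Submodule.span_le]
      intro f hf
      exact mem_integralClosure_adjoin_iff_exists_VV.mpr ⟨_, hf⟩
  have hfg : N.FG := by
    obtain ⟨s, hs⟩ := (Module.Finite.iff_fg (N := VV K y (m₀ + 1))).mp inferInstance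
    refine ⟨s, le_antisymm ?_ ?_⟩
    · rw [Submodule.span_le]
      intro f hf
      apply Submodule.subset_span
      rw [← hs]
      exact Submodule.subset_span hf
    · rw [hN, Submodule.span_le]
      intro f hf
      rw [← hs] at hf
      have h2 : Submodule.span K (s : Set F) ≤
          (Submodule.span (Algebra.adjoin K {y}) (s : Set F)).restrictScalars K := by
        rw [Submodule.span_le]; exact Submodule.subset_span
      exact h2 hf
  rw [← hle] at hfg
  exact Module.Finite.iff_fg.mpr hfg

section Model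

open scoped IntermediateField.algebraAdjoinAdjoin

variable [IsFF K F] {y : F} (hy : Transcendental K y)

include hy

omit [IsFF K F] in
theorem isPrincipalIdealRing_adjoin : IsPrincipalIdealRing (Algebra.adjoin K {y}) :=
  IsPrincipalIdealRing.of_surjective (Polynomial.algEquivOfTranscendental K y hy : K[X] →+* _)
    (Polynomial.algEquivOfTranscendental K y hy).surjective

theorem isFractionRing_integralClosure_adjoin :
    IsFractionRing (integralClosure (Algebra.adjoin K {y}) F) F := by
  have := IsFF.finite_adjoin y hy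
  exact IsIntegralClosure.isFractionRing_of_finite_extension (Algebra.adjoin K {y}) K⟮y⟯ F _

theorem isDedekindDomain_integralClosure_adjoin :
    IsDedekindDomain (integralClosure (Algebra.adjoin K {y}) F) := by
  have := IsFF.finite_adjoin y hy
  have h0 := isPrincipalIdealRing_adjoin (K := K) hy
  have h1 := finite_integralClosure_adjoin (K := K) hy
  have h2 := isFractionRing_integralClosure_adjoin (K := K) hy
  have h3 : Algebra.IsIntegral (Algebra.adjoin K {y})
    (integralClosure (Algebra.adjoin K {y}) F) := Algebra.IsIntegral.of_finite _ _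
  have h4 : IsNoetherianRing (integralClosure (Algebra.adjoin K {y}) F) :=
    isNoetherian_of_tower (Algebra.adjoin K {y})
      (isNoetherian_of_isNoetherianRing_of_finite (Algebra.adjoin K {y}) _)
  exact { h4, Ring.DimensionLEOne.of_isIntegral (Algebra.adjoin K {y})
      (integralClosure (Algebra.adjoin K {y}) F),
    (isIntegrallyClosed_iff F).mpr fun {x} hx =>
      ⟨⟨x, isIntegral_trans (R := Algebra.adjoin K {y}) _ hx⟩, rfl⟩ with }

theorem free_integralClosure_adjoin :
    Module.Free (Algebra.adjoin K {y}) (integralClosure (Algebra.adjoin K {y}) F) := by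
  have := IsFF.finite_adjoin y hy
  have h0 := isPrincipalIdealRing_adjoin (K := K) hy
  have h1 := finite_integralClosure_adjoin (K := K) hy
  infer_instance

theorem finrank_integralClosure_adjoin :
    finrank (Algebra.adjoin K {y}) (integralClosure (Algebra.adjoin K {y}) F)
      = finrank K⟮y⟯ F := by
  have := IsFF.finite_adjoin y hy
  have h0 := isPrincipalIdealRing_adjoin (K := K) hy
  have h1 := finite_integralClosure_adjoin (K := K) hy
  have h2 := free_integralClosure_adjoin (K := K) hy
  let b := Module.Free.chooseBasis (Algebra.adjoin K {y})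
    (integralClosure (Algebra.adjoin K {y}) F)
  have hloc : IsLocalization (Algebra.algebraMapSubmonoid
      (integralClosure (Algebra.adjoin K {y}) F) (nonZeroDivisors (Algebra.adjoin K {y}))) F :=
    IsIntegralClosure.isLocalization (Algebra.adjoin K {y}) K⟮y⟯ F _
  let b' := b.localizationLocalization K⟮y⟯ (nonZeroDivisors (Algebra.adjoin K {y})) F
  rw [Module.finrank_eq_card_basis b, Module.finrank_eq_card_basis b']

/-- `B = ⨁ K[y] b_i`. -/
theorem exists_basis_integralClosure_adjoin :
    ∃ b : Fin (finrank K⟮y⟯ F) → integralClosure (Algebra.adjoin K {y}) F,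
      Function.Bijective (fun v : Fin (finrank K⟮y⟯ F) → K[X] =>
        ∑ i, aeval (algebraMap (Algebra.adjoin K {y}) (integralClosure (Algebra.adjoin K {y}) F)
          ⟨y, Algebra.self_mem_adjoin_singleton K y⟩) (v i) * b i) := by
  have h0 := isPrincipalIdealRing_adjoin (K := K) hy
  have h1 := finite_integralClosure_adjoin (K := K) hy
  have h2 := free_integralClosure_adjoin (K := K) hy
  let b := Module.finBasisOfFinrankEq (Algebra.adjoin K {y})
    (integralClosure (Algebra.adjoin K {y}) F) (finrank_integralClosure_adjoin (K := K) hy)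
  let e := Polynomial.algEquivOfTranscendental K y hy
  refine ⟨b, ?_⟩
  have h3 : (fun v : Fin (finrank K⟮y⟯ F) → K[X] =>
        ∑ i, aeval (algebraMap (Algebra.adjoin K {y}) (integralClosure (Algebra.adjoin K {y}) F)
          ⟨y, Algebra.self_mem_adjoin_singleton K y⟩) (v i) * b i)
      = b.equivFun.symm ∘ (fun v : Fin (finrank K⟮y⟯ F) → K[X] => fun i => e (v i)) := by
    funext v
    rw [Function.comp_apply, b.equivFun_symm_apply]
    refine Finset.sum_congr rfl fun i _ => ?_
    rw [Algebra.smul_def]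
    congr 1
    have : e (v i) = aeval (⟨y, Algebra.self_mem_adjoin_singleton K y⟩ :
        Algebra.adjoin K {y}) (v i) := Polynomial.algEquivOfTranscendental_apply ..
    rw [this, Polynomial.aeval_algebraMap_apply]
  rw [h3]
  refine b.equivFun.symm.bijective.comp ?_
  exact ⟨fun v w h => funext fun i => e.injective (congrFun h i),
    fun v => ⟨fun i => e.symm (v i), funext fun i => e.apply_symm_apply (v i)⟩⟩

end Model

end Fermat.Agent.FF
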