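import Fermat.Agent.FF.Norm
import Fermat.Prelude.Def_AlgebraicCurve_IsCurveOver

set_option autoImplicit false

noncomputable section

open AlgebraicCurve WithZero Module Polynomial IntermediateField IsLocalRing
open scoped KaehlerDifferential

namespace Fermat.Agent.FF

variable {K F : Type*} [Field K] [Field F] [Algebra K F]

theorem nontrivial_kaehler [IsFF K F] : Nontrivial (Ω[F⁄K]) := by
  by_contra hcon
  rw [not_nontrivial_iff_subsingleton] at hcon
  have h1 : Algebra.FormallyUnramified K F := ⟨hcon⟩
  have h3 : Algebra.IsSeparable K F := (Algebra.FormallyUnramified.iff_isSeparable K F).mp h1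
  obtain ⟨x, hx⟩ := IsFF.exists_transcendental (K := K) (F := F)
  exact hx (Algebra.IsAlgebraic.isAlgebraic x)

/-- A derivation vanishing at `x` vanishes if `F / K(x)` is separable. -/
theorem derivation_eq_zero {x : F} [Algebra.IsSeparable K⟮x⟯ F] {M : Type*} [AddCommGroup M]
    [Module K M] [Module F M] [IsScalarTower K F M] (d : Derivation K F M) (hd : d x = 0) :
    d = 0 := by
  have h0 : ∀ c ∈ K⟮x⟯, d c = 0 := by
    intro c hc
    induction hc using IntermediateField.adjoin_induction with
    | mem y hy => rw [Set.mem_singleton_iff.mp hy, hd]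
    | algebraMap a => exact d.map_algebraMap a
    | add y z _ _ hy hz => rw [map_add, hy, hz, add_zero]
    | inv y _ hy => rw [Derivation.leibniz_inv, hy, smul_zero]
    | mul y z _ _ hy hz => rw [Derivation.leibniz, hy, hz, smul_zero, smul_zero, add_zero]
  let d' : Derivation K⟮x⟯ F M :=
    { toFun := d
      map_add' := d.map_add
      map_smul' := fun c f => by
        rw [RingHom.id_apply, Algebra.smul_def, d.leibniz]
        have : d (algebraMap K⟮x⟯ F c) = 0 := h0 _ c.2
        rw [this, smul_zero, add_zero, algebraMap_smul]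
      map_one_eq_zero' := d.map_one_eq_zero
      leibniz' := d.leibniz }
  have hun : Algebra.FormallyUnramified K⟮x⟯ F := Algebra.FormallyUnramified.of_isSeparable _ _
  have hsub : Subsingleton (Ω[F⁄K⟮x⟯]) := hun.subsingleton_kaehlerDifferential
  have hd' : d' = 0 := by
    ext f
    have h1 : d' f = d'.liftKaehlerDifferential (KaehlerDifferential.D K⟮x⟯ F f) :=
      (d'.liftKaehlerDifferential_comp_D f).symm
    have h2 : KaehlerDifferential.D K⟮x⟯ F f = 0 := Subsingleton.elim _ _
    rw [h1, h2, map_zero]
    rfl
  ext f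
  exact congrArg (fun e : Derivation K⟮x⟯ F M => e f) hd'

theorem span_D_eq_top {x : F} [Algebra.IsSeparable K⟮x⟯ F] :
    Submodule.span F {KaehlerDifferential.D K F x} = ⊤ := by
  set N := Submodule.span F {KaehlerDifferential.D K F x}
  let d : Derivation K F (Ω[F⁄K] ⧸ N) := N.mkQ.compDer (KaehlerDifferential.D K F)
  have hd : d = 0 := by
    apply derivation_eq_zero (x := x)
    show N.mkQ (KaehlerDifferential.D K F x) = 0
    rw [Submodule.mkQ_apply, Submodule.Quotient.mk_eq_zero]
    exact Submodule.mem_span_singleton_self _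
  rw [eq_top_iff, ← KaehlerDifferential.span_range_derivation, Submodule.span_le]
  rintro _ ⟨f, rfl⟩
  have : d f = 0 := by rw [hd]; rfl
  exact (Submodule.Quotient.mk_eq_zero _).mp this

theorem D_ne_zero [IsFF K F] {x : F} [Algebra.IsSeparable K⟮x⟯ F] :
    KaehlerDifferential.D K F x ≠ 0 := by
  intro h
  have h1 := span_D_eq_top (K := K) (F := F) (x := x)
  rw [h, Submodule.span_zero_singleton] at h1
  have := nontrivial_kaehler (K := K) (F := F)
  exact bot_ne_top h1

theorem finrank_kaehler_eq_one [IsFF K F] {x : F} [Algebra.IsSeparable K⟮x⟯ F] :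
    finrank F (Ω[F⁄K]) = 1 := by
  refine finrank_eq_one (KaehlerDifferential.D K F x) D_ne_zero fun w => ?_
  have : w ∈ Submodule.span F {KaehlerDifferential.D K F x} := by
    rw [span_D_eq_top]; trivial
  exact Submodule.mem_span_singleton.mp this

theorem isCurveOver_of_isSeparable [IsFF K F] (x : F) [Algebra.IsSeparable K⟮x⟯ F] :
    IsCurveOver K F where
  finiteResidue := fun _ => inferInstance
  kaehler_free_rank_one := ⟨inferInstance, finrank_kaehler_eq_one (x := x)⟩

/-- existence of a separating element over perfect constant fields. -/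
theorem exists_separating [IsFF K F] [PerfectField K] :
    ∃ x : F, Transcendental K x ∧ Algebra.IsSeparable K⟮x⟯ F := by
  obtain ⟨s, hs, hsep⟩ := exists_isTranscendenceBasis_and_isSeparable_of_perfectField K F
  obtain ⟨y, hy⟩ := IsFF.exists_transcendental (K := K) (F := F)
  have hcard : s.card = 1 := by
    have h1 : Cardinal.mk s = Algebra.trdeg K F := hs.cardinalMk_eq_trdeg
    have h2 := IsFF.trdeg_le_one K F
    have h3 : Algebra.trdeg K F ≠ 0 := by
      intro h
      have h' : Algebra.IsAlgebraic K F := trdeg_eq_zero_iff.mp h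
      exact hy (h'.isAlgebraic y)
    have h4 : Algebra.trdeg K F = 1 :=
      le_antisymm h2 (Cardinal.one_le_iff_ne_zero.mpr h3)
    rw [h4] at h1
    simpa using h1
  obtain ⟨x, rfl⟩ := Finset.card_eq_one.mp hcard
  refine ⟨x, ?_, ?_⟩
  · have := hs.1.transcendental ⟨x, Finset.mem_singleton_self x⟩
    simpa using this
  · rwa [Finset.coe_singleton] at hsep

instance (priority := 50) isCurveOver [IsFF K F] [PerfectField K] : IsCurveOver K F := by
  obtain ⟨x, -, hsep⟩ := exists_separating (K := K) (F := F)
  exact isCurveOver_of_isSeparable x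

end Fermat.Agent.FF
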