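import Fermat.Agent.FF.Multi

set_option autoImplicit false

noncomputable section

open AlgebraicCurve WithZero Module Polynomial IntermediateField

namespace Fermat.Agent.FF

/-- `F/K` is an algebraic function field of one variable (no assumption on the exact constant
field). -/
class IsFF (K F : Type*) [Field K] [Field F] [Algebra K F] : Prop where
  exists_transcendental : ∃ x : F, Transcendental K x
  finite_adjoin : ∀ x : F, Transcendental K x → FiniteDimensional K⟮x⟯ F

variable {K F : Type*} [Field K] [Field F] [Algebra K F]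

/-- Key independence lemma, polynomial form. -/
theorem X_pow_dvd {y : F} (hy0 : y ≠ 0) (M : Submodule K F) (hyM : ∀ m ∈ M, y * m ∈ M)
    {ι : Type*} [Fintype ι] (b : ι → F) (hb : ∀ i, b i ∈ M)
    (hind : ∀ c : ι → K, (∃ m ∈ M, ∑ i, c i • b i = y * m) → ∀ i, c i = 0) (n : ℕ) :
    ∀ p : ι → K[X], ∑ i, aeval y (p i) * b i = 0 → ∀ i, X ^ n ∣ p i := by
  have haev : ∀ q : K[X], ∀ m ∈ M, aeval y q * m ∈ M := by
    intro q m hm
    induction q using Polynomial.induction_on' with
    | add p q hp hq => rw [map_add, add_mul]; exact M.add_mem hp hq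
    | monomial n a =>
      rw [aeval_monomial, mul_assoc, ← Algebra.smul_def]
      refine M.smul_mem _ ?_
      induction n with
      | zero => simpa using hm
      | succ n ih => rw [pow_succ', mul_assoc]; exact hyM _ ih
  induction n with
  | zero => intro p _ i; simp
  | succ n ih =>
    intro p hp
    have hsplit : ∀ i, aeval y (p i) = y * aeval y (divX (p i)) +
        algebraMap K F ((p i).coeff 0) := by
      intro i
      conv_lhs => rw [← X_mul_divX_add (p i)]
      rw [map_add, map_mul, aeval_X, aeval_C]
    have h1 : ∑ i, (p i).coeff 0 • b i = y * (-∑ i, aeval y (divX (p i)) * b i) := by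
      have h2 : ∑ i, aeval y (p i) * b i
          = y * ∑ i, aeval y (divX (p i)) * b i + ∑ i, (p i).coeff 0 • b i := by
        rw [Finset.mul_sum, ← Finset.sum_add_distrib]
        refine Finset.sum_congr rfl fun i _ => ?_
        rw [hsplit i, Algebra.smul_def]; ring
      rw [hp] at h2
      linear_combination -h2
    have hc : ∀ i, (p i).coeff 0 = 0 :=
      hind _ ⟨_, M.neg_mem (M.sum_mem fun i _ => haev _ _ (hb i)), h1⟩
    have hq : ∑ i, aeval y (divX (p i)) * b i = 0 := by
      simp only [hc, zero_smul, Finset.sum_const_zero, mul_neg] at h1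
      have := neg_eq_zero.mp h1.symm
      exact (mul_eq_zero.mp this).resolve_left hy0
    intro i
    have h3 := ih (fun i => divX (p i)) hq i
    have h4 : p i = X * divX (p i) := by
      conv_lhs => rw [← X_mul_divX_add (p i), hc i]
      simp
    rw [h4, pow_succ']
    exact mul_dvd_mul_left X h3

theorem linearIndependent_adjoin {y : F} (hy : Transcendental K y)
    (M : Submodule K F) (hyM : ∀ m ∈ M, y * m ∈ M)
    {ι : Type*} [Fintype ι] (b : ι → F) (hb : ∀ i, b i ∈ M)
    (hind : ∀ c : ι → K, (∃ m ∈ M, ∑ i, c i • b i = y * m) → ∀ i, c i = 0) :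
    LinearIndependent K⟮y⟯ b := by
  classical
  have hy0 : y ≠ 0 := by rintro rfl; exact hy isAlgebraic_zero
  have hinj : ∀ q : K[X], aeval y q = 0 → q = 0 := fun q hq =>
    (transcendental_iff.mp hy) q hq
  have hpoly : ∀ p : ι → K[X], ∑ i, aeval y (p i) * b i = 0 → ∀ i, p i = 0 := by
    intro p hp i
    by_contra hne
    have := X_pow_dvd hy0 M hyM b hb hind ((p i).natDegree + 1) p hp i
    have h2 := Polynomial.natDegree_le_of_dvd this hne
    rw [natDegree_X_pow] at h2
    omega
  rw [Fintype.linearIndependent_iff]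
  intro g hg
  have hrep : ∀ i, ∃ r s : K[X], s ≠ 0 ∧ (g i : F) * aeval y s = aeval y r := by
    intro i
    obtain ⟨r, s, hrs⟩ := IntermediateField.mem_adjoin_simple_iff K (g i : F) |>.mp (g i).2
    by_cases hs : aeval y s = 0
    · exact ⟨0, 1, one_ne_zero, by rw [hrs, hs]; simp⟩
    · refine ⟨r, s, ?_, ?_⟩
      · rintro rfl; simp at hs
      · rw [hrs]; field_simp
  choose r s hs hrs using hrep
  have hsum : ∑ i, aeval y (r i * ∏ j ∈ Finset.univ.erase i, s j) * b i = 0 := by
    have h1 : ∀ i, aeval y (r i * ∏ j ∈ Finset.univ.erase i, s j) * b i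
        = (∏ j, aeval y (s j)) * ((g i : F) * b i) := by
      intro i
      rw [map_mul, map_prod, ← hrs i, ← Finset.mul_prod_erase Finset.univ _ (Finset.mem_univ i)]
      ring
    rw [Finset.sum_congr rfl fun i _ => h1 i, ← Finset.mul_sum]
    have h2 : ∑ i, (g i : F) * b i = 0 := by
      rw [← hg]
      refine Finset.sum_congr rfl fun i _ => ?_
      rw [Algebra.smul_def]; rfl
    rw [h2, mul_zero]
  intro i
  have h3 := hpoly _ hsum i
  have h4 : r i = 0 := by
    rcases mul_eq_zero.mp h3 with h | h
    · exact h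
    · exfalso
      rw [Finset.prod_eq_zero_iff] at h
      obtain ⟨j, -, hj⟩ := h
      exact hs j hj
  have h5 := hrs i
  rw [h4, map_zero] at h5
  have h6 : aeval y (s i) ≠ 0 := fun h => hs i (hinj _ h)
  have h7 : (g i : F) = 0 := (mul_eq_zero.mp h5).resolve_right h6
  exact_mod_cast h7

theorem card_le_finrank [IsFF K F] {y : F} (hy : Transcendental K y)
    (M : Submodule K F) (hyM : ∀ m ∈ M, y * m ∈ M)
    {ι : Type*} [Fintype ι] (b : ι → F) (hb : ∀ i, b i ∈ M)
    (hind : ∀ c : ι → K, (∃ m ∈ M, ∑ i, c i • b i = y * m) → ∀ i, c i = 0) :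
    Fintype.card ι ≤ finrank K⟮y⟯ F := by
  have := IsFF.finite_adjoin y hy
  exact (linearIndependent_adjoin hy M hyM b hb hind).fintype_card_le_finrank

/-- `dim M / (N ∩ M) ≤ [F : K(y)]` when `N ⊇ yM`. -/
theorem rd_le_finrank [IsFF K F] {y : F} (hy : Transcendental K y)
    (M N : Submodule K F) (hyM : ∀ m ∈ M, y * m ∈ M)
    (hN : ∀ m ∈ M, y * m ∈ N) :
    RFin N M ∧ rd N M ≤ finrank K⟮y⟯ F := by
  have key : ∀ (n : ℕ) (b : Fin n → RQ N M), LinearIndependent K b → n ≤ finrank K⟮y⟯ F := by
    intro n b hb
    have hch : ∀ i, ∃ x : M, Submodule.Quotient.mk x = b i := fun i =>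
      Submodule.Quotient.mk_surjective _ (b i)
    choose x hx using hch
    have := card_le_finrank hy M hyM (fun i => (x i : F)) (fun i => (x i).2) (by
      intro c hc
      obtain ⟨m, hm, hcm⟩ := hc
      rw [Fintype.linearIndependent_iff] at hb
      apply hb c
      have h1 : ∑ i, c i • b i = Submodule.Quotient.mk (∑ i, c i • x i) := by
        rw [← Submodule.mkQ_apply, map_sum]
        refine Finset.sum_congr rfl fun i _ => ?_
        rw [map_smul, Submodule.mkQ_apply, hx]
      rw [h1]
      refine (Submodule.Quotient.mk_eq_zero (p := N.submoduleOf M)).mpr ?_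
      rw [mem_submoduleOf]
      have h2 : ((∑ i, c i • x i : M) : F) = ∑ i, c i • (x i : F) := by
        simp
      rw [h2, hcm]
      exact hN m hm)
    simpa using this
  have hfin : Module.Finite K (RQ N M) := by
    by_contra hinf
    have h1 : Cardinal.aleph0 ≤ Module.rank K (RQ N M) := by
      by_contra hlt
      exact hinf (Module.rank_lt_aleph0_iff.mp (not_le.mp hlt))
    have h2 : ((finrank K⟮y⟯ F + 1 : ℕ) : Cardinal) ≤ Module.rank K (RQ N M) :=
      Cardinal.natCast_lt_aleph0.le.trans h1
    obtain ⟨b, hb⟩ := exists_linearIndependent_of_le_rank h2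
    have := key _ b hb
    omega
  refine ⟨hfin, ?_⟩
  have := key _ (Module.finBasis K (RQ N M)) (Module.finBasis K (RQ N M)).linearIndependent
  exact this

/-! ### Valuation rings of `F/K` are discrete -/

theorem algebraic_ord_eq_zero (v : Place K F) {x : F} (hx : IsAlgebraic K x) (hx0 : x ≠ 0) :
    v.ord x = 0 := by
  -- both `x` and `x⁻¹` are integral over `K`, so lie in the valuation ring
  have hmem : ∀ z : F, IsAlgebraic K z → z ∈ v.toValuationSubring := by
    intro z hz
    have h1 : IsIntegral v.toValuationSubring z :=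
      (isAlgebraic_iff_isIntegral.mp hz).tower_top
    obtain ⟨y, hy⟩ := IsIntegrallyClosed.isIntegral_iff.mp h1
    exact hy ▸ y.2
  have h1 := (mem_iff_ord_nonneg v hx0).mp (hmem x hx)
  have h2 := (mem_iff_ord_nonneg v (inv_ne_zero hx0)).mp (hmem _ hx.inv)
  rw [v.ord_inv] at h2
  omega

theorem transcendental_of_ord_ne_zero (v : Place K F) {x : F} (hx : v.ord x ≠ 0) :
    Transcendental K x := by
  intro h
  rcases eq_or_ne x 0 with rfl | hx0
  · exact hx v.ord_zero
  · exact hx (algebraic_ord_eq_zero v h hx0)

theorem algebraic_mem (A : ValuationSubring F) (hA : ∀ a : K, algebraMap K F a ∈ A) {z : F}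
    (hz : IsAlgebraic K z) : z ∈ A := by
  let _ : Algebra K A := ((algebraMap K F).codRestrict A.toSubring hA).toAlgebra
  have : IsScalarTower K A F := IsScalarTower.of_algebraMap_eq fun a => rfl
  have h1 : IsIntegral A z := (isAlgebraic_iff_isIntegral.mp hz).tower_top
  obtain ⟨y, hy⟩ := IsIntegrallyClosed.isIntegral_iff.mp h1
  exact hy ▸ y.2

theorem transcendental_of_mem_nonunits (A : ValuationSubring F)
    (hA : ∀ a : K, algebraMap K F a ∈ A) {x : F} (hx0 : x ≠ 0) (hx : x ∈ A.nonunits) :
    Transcendental K x := by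
  intro h
  have h1 := algebraic_mem A hA h.inv
  rw [ValuationSubring.mem_nonunits_iff] at hx
  rw [← ValuationSubring.valuation_le_one_iff, map_inv₀] at h1
  have h2 : A.valuation x ≠ 0 := (Valuation.ne_zero_iff _).mpr hx0
  have h3 : 1 ≤ A.valuation x := by
    rwa [inv_le_one₀ (zero_lt_iff.mpr h2)] at h1
  exact absurd hx (not_lt.mpr h3)

/-- No long chains: elements `e i ∈ A` with strictly increasing order, smaller than that of
`x`. -/
theorem chain_bound [IsFF K F] (A : ValuationSubring F)
    (hA : ∀ a : K, algebraMap K F a ∈ A) {x : F} (hx0 : x ≠ 0) (hx : x ∈ A.nonunits) (n : ℕ)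
    (e : Fin n → F) (he : ∀ i, e i ∈ A) (hinj : ∀ i j, i < j → A.valuation (e j) < A.valuation (e i))
    (hlt : ∀ i, A.valuation x < A.valuation (e i)) : n ≤ finrank K⟮x⟯ F := by
  classical
  have htr := transcendental_of_mem_nonunits A hA hx0 hx
  let M : Submodule K F :=
    { carrier := {f | f ∈ A}
      zero_mem' := zero_mem A
      add_mem' := fun ha hb => add_mem (S := ValuationSubring F) ha hb
      smul_mem' := fun c f hf => by
        show c • f ∈ A
        rw [Algebra.smul_def]; exact mul_mem (hA c) hf }
  have hM : ∀ f, f ∈ M ↔ f ∈ A := fun f => Iff.rfl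
  have hxA : x ∈ A := A.nonunits_subset hx
  have hval : ∀ c : K, c ≠ 0 → A.valuation (algebraMap K F c) = 1 := by
    intro c hc
    apply le_antisymm
    · exact (A.valuation_le_one_iff _).mpr (hA c)
    · have h1 := (A.valuation_le_one_iff _).mpr (hA c⁻¹)
      rw [map_inv₀, map_inv₀] at h1
      have h2 : A.valuation (algebraMap K F c) ≠ 0 := by
        rw [Valuation.ne_zero_iff]; simpa using hc
      rwa [inv_le_one₀ (zero_lt_iff.mpr h2)] at h1
  have := card_le_finrank htr M (fun m hm => A.mul_mem x m hxA hm) e he (by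
    intro c hc
    by_contra hne
    push Not at hne
    obtain ⟨m, hm, hcm⟩ := hc
    -- minimal index with nonzero coefficient
    obtain ⟨i0, hi0, hmin⟩ : ∃ i0, c i0 ≠ 0 ∧ ∀ j, j < i0 → c j = 0 := by
      have hex : (Finset.univ.filter fun i => c i ≠ 0).Nonempty := by
        obtain ⟨i, hi⟩ := hne
        exact ⟨i, by simpa using hi⟩
      refine ⟨_, by simpa using Finset.min'_mem _ hex, fun j hj => ?_⟩
      by_contra hcj
      have := Finset.min'_le (Finset.univ.filter fun i => c i ≠ 0) j (by simpa using hcj)
      exact absurd hj (not_lt.mpr this)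
    have h1 : A.valuation (∑ i, c i • e i) = A.valuation (c i0 • e i0) := by
      refine Valuation.map_sum_eq_of_lt _ (Finset.mem_univ i0) fun i hi => ?_
      have hi' : i ≠ i0 := by simpa using hi
      have hei0 : A.valuation (c i0 • e i0) = A.valuation (e i0) := by
        rw [Algebra.smul_def, map_mul, hval _ hi0, one_mul]
      rw [hei0]
      by_cases hci : c i = 0
      · rw [hci, zero_smul, map_zero]
        exact lt_of_le_of_lt zero_le (hlt i0)
      · rw [Algebra.smul_def, map_mul, hval _ hci, one_mul]
        rcases lt_or_gt_of_ne hi' with h | h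
        · exact absurd (hmin i h) hci
        · exact hinj i0 i h
    rw [hcm, Algebra.smul_def, map_mul, map_mul, hval _ hi0, one_mul] at h1
    have h2 : A.valuation m ≤ 1 := (A.valuation_le_one_iff _).mpr hm
    have h3 : A.valuation (e i0) ≤ A.valuation x := by
      rw [← h1]; exact mul_le_of_le_one_right' h2
    exact absurd (hlt i0) (not_lt.mpr h3))
  simpa using this

/-- Any nontrivial valuation ring of `F/K` is a PID. -/
theorem isPrincipalIdealRing_of_ne_top [IsFF K F] (A : ValuationSubring F)
    (hA : ∀ a : K, algebraMap K F a ∈ A) : IsPrincipalIdealRing A := by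
  classical
  constructor
  intro I
  by_contra hI
  -- there is a nonzero element
  have hI0 : ∃ x ∈ I, x ≠ 0 := by
    by_contra h
    push Not at h
    apply hI
    have : I = ⊥ := by
      rw [eq_bot_iff]; intro x hx; exact h x hx
    rw [this]
    exact bot_isPrincipal
  -- for every element of `I` there is a strictly larger principal ideal
  have hstep : ∀ b : I, ∃ c : I, A.valuation ((b : A) : F) < A.valuation ((c : A) : F) := by
    intro b
    by_contra h
    push Not at h
    apply hI
    refine ⟨⟨(b : A), ?_⟩⟩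
    apply le_antisymm
    · intro c hc
      have h1 := h ⟨c, hc⟩
      rw [Ideal.submodule_span_eq, Ideal.mem_span_singleton]
      rcases eq_or_ne (b : A) 0 with hb | hb
      · rw [hb] at h1
        have : A.valuation ((c : A) : F) = 0 := by
          apply le_antisymm _ zero_le
          simpa using h1
        rw [map_eq_zero] at this
        have hc0 : c = 0 := by exact_mod_cast this
        rw [hc0]; exact dvd_zero _
      · have hbF : ((b : A) : F) ≠ 0 := by simpa using hb
        have h2 : (c : F) / ((b : A) : F) ∈ A := by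
          rw [← A.valuation_le_one_iff, map_div₀]
          have h3 : A.valuation ((b : A) : F) ≠ 0 := (Valuation.ne_zero_iff _).mpr hbF
          exact div_le_one_of_le₀ h1 zero_le
        refine ⟨⟨_, h2⟩, ?_⟩
        ext
        push_cast
        field_simp
    · rw [Ideal.submodule_span_eq, Ideal.span_singleton_le_iff_mem]
      exact b.2
  choose nxt hnxt using hstep
  obtain ⟨x0, hx0I, hx0⟩ := hI0
  -- the chain
  let ch : ℕ → I := fun n => nxt^[n] ⟨x0, hx0I⟩
  have hch : ∀ n, A.valuation ((ch n : A) : F) < A.valuation ((ch (n + 1) : A) : F) := by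
    intro n
    have : ch (n + 1) = nxt (ch n) := Function.iterate_succ_apply' nxt n _
    rw [this]
    exact hnxt _
  have hmono : StrictMono fun n => A.valuation ((ch n : A) : F) := strictMono_nat_of_lt_succ hch
  have hx0F : (x0 : F) ≠ 0 := by simpa using hx0
  have hle1 : ∀ n, A.valuation ((ch n : A) : F) ≤ 1 := fun n =>
    (A.valuation_le_one_iff _).mpr (ch n : A).2
  have hpos : ∀ n, A.valuation ((ch n : A) : F) ≠ 0 := by
    intro n
    have h0 : A.valuation ((ch 0 : A) : F) ≠ 0 := (Valuation.ne_zero_iff _).mpr hx0F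
    have : A.valuation ((ch 0 : A) : F) ≤ A.valuation ((ch n : A) : F) :=
      hmono.monotone (Nat.zero_le n)
    exact ne_of_gt (lt_of_lt_of_le (zero_lt_iff.mpr h0) this)
  have hx0nu : (x0 : F) ∈ A.nonunits := by
    rw [ValuationSubring.mem_nonunits_iff]
    exact lt_of_lt_of_le (hch 0) (hle1 1)
  set n := finrank K⟮(x0 : F)⟯ F with hn
  -- elements e_i = x0 / ch i
  have := chain_bound A hA hx0F hx0nu (n + 1) (fun i => (x0 : F) / ((ch i : A) : F))
    (by
      intro i
      rw [← A.valuation_le_one_iff, map_div₀]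
      exact div_le_one_of_le₀ (hmono.monotone (Nat.zero_le (i : ℕ))) zero_le)
    (by
      intro i j hij
      show A.valuation _ < A.valuation _
      rw [map_div₀, map_div₀]
      have h1 : A.valuation ((ch i : A) : F) < A.valuation ((ch j : A) : F) := hmono hij
      exact div_lt_div_of_pos_left (zero_lt_iff.mpr ((Valuation.ne_zero_iff _).mpr hx0F))
        (zero_lt_iff.mpr (hpos i)) h1)
    (by
      intro i
      show A.valuation _ < A.valuation _
      rw [map_div₀]
      have h1 : A.valuation ((ch i : A) : F) < 1 := lt_of_lt_of_le (hch i) (hle1 _)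
      rw [lt_div_iff₀ (zero_lt_iff.mpr (hpos i))]
      exact mul_lt_of_lt_one_right (zero_lt_iff.mpr ((Valuation.ne_zero_iff _).mpr hx0F)) h1)
  omega

/-- The place attached to a nontrivial valuation ring. -/
def placeOf [IsFF K F] (A : ValuationSubring F) (hA : ∀ a : K, algebraMap K F a ∈ A)
    (hne : A ≠ ⊤) : Place K F where
  toValuationSubring := A
  algebraMap_mem' := hA
  ne_top' := hne
  isPrincipalIdealRing' := isPrincipalIdealRing_of_ne_top A hA

end Fermat.Agent.FF
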