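import Mathlib
import Fermat.Agent.FF.Differential

/-! Riemann–Hurwitz over the projective line (degree of the divisor of `dy`) (helper80). -/

set_option autoImplicit false

noncomputable section

open AlgebraicCurve IsLocalRing

namespace Fermat.Agent.FFHur

variable {K F : Type*} [Field K] [Field F] [Algebra K F]

theorem ord_neg (v : Place K F) (f : F) : v.ord (-f) = v.ord f := by
  simp [Place.ord, Valuation.map_neg]

theorem ord_eq_zero_iff_of_residue (v : Place K F)
    (hres : Function.Surjective (algebraMap K v.ResidueField)) {y : F}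
    (hy : y ∈ v.toValuationSubring) : ∃ a : K, y - algebraMap K F a = 0 ∨
      0 < v.ord (y - algebraMap K F a) := by
  obtain ⟨π, hπ⟩ := IsDiscreteValuationRing.exists_irreducible v.toValuationSubring
  obtain ⟨a, g, hg⟩ := FFDiff.exists_eq_algebraMap_add v hres hπ ⟨y, hy⟩
  refine ⟨a, ?_⟩
  have h1 : y = algebraMap K F a + (π : F) * (g : F) := by
    have := congrArg Subtype.val hg
    exact this
  have h2 : y - algebraMap K F a = (π : F) * (g : F) := by rw [h1]; ring
  rw [h2]
  rcases eq_or_ne (g : F) 0 with h0 | h0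
  · left; rw [h0, mul_zero]
  · right
    have hπF : (π : F) ≠ 0 := by
      simpa [ne_eq, ZeroMemClass.coe_eq_zero] using hπ.ne_zero
    rw [v.ord_mul hπF h0, v.ord_coe_irreducible hπ]
    have := FFDiff.ord_coe_nonneg v g
    omega

/-- a place over `y = a` is not over `y = b ≠ a`. -/
theorem eq_of_pos_of_pos (v : Place K F) {y : F} {a b : K}
    (ha : 0 < v.ord (y - algebraMap K F a)) (hb : 0 < v.ord (y - algebraMap K F b)) : a = b := by
  by_contra hab
  have h1 : algebraMap K F (a - b) = (y - algebraMap K F b) + -(y - algebraMap K F a) := by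
    rw [map_sub]; ring
  have h2 : v.adicValuation (algebraMap K F (a - b)) < 1 := by
    have hane : y - algebraMap K F a ≠ 0 := by rintro h; rw [h] at ha; simp at ha
    have hbne : y - algebraMap K F b ≠ 0 := by rintro h; rw [h] at hb; simp at hb
    rw [h1]
    refine (Valuation.map_add _ _ _).trans_lt (max_lt ?_ ?_)
    · rw [v.adicValuation_eq_exp_neg_ord hbne, ← WithZero.exp_zero, WithZero.exp_lt_exp]; omega
    · rw [Valuation.map_neg, v.adicValuation_eq_exp_neg_ord hane, ← WithZero.exp_zero,
        WithZero.exp_lt_exp]; omega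
  have h3 : (algebraMap K F (a - b)) ≠ 0 := by
    simpa [sub_eq_zero] using hab
  rw [v.adicValuation_eq_exp_neg_ord h3, FFDiff.ord_algebraMap v (sub_ne_zero.mpr hab)] at h2
  simp at h2

theorem ord_nonneg_of_pos (v : Place K F) {y : F} {a : K}
    (ha : 0 < v.ord (y - algebraMap K F a)) : 0 ≤ v.ord y := by
  have hane : y - algebraMap K F a ≠ 0 := by rintro h; rw [h] at ha; simp at ha
  have h1 : y - algebraMap K F a ∈ v.toValuationSubring :=
    (FFDiff.mem_iff_ord_nonneg v hane).mpr ha.le
  have h2 : y ∈ v.toValuationSubring := by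
    have := add_mem h1 (v.algebraMap_mem' a)
    simpa using this
  rcases eq_or_ne y 0 with rfl | h0
  · simp
  · exact (FFDiff.mem_iff_ord_nonneg v h0).mp h2

/-- Riemann–Hurwitz: the degree of the divisor of `dy`. -/
theorem degree_divisor_D [CharZero K] [Nontrivial (Ω[F⁄K])]
    (hess : ∀ v : Place K F, Algebra.EssFiniteType K v.toValuationSubring)
    (hres : ∀ v : Place K F, Function.Surjective (algebraMap K v.ResidueField))
    (hdeg : ∀ v : Place K F, v.deg = 1)
    (y : F) (hy : Transcendental K y) (n : ℕ)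
    (hfin : ∀ a : K, {v : Place K F | 0 < v.ord (y - algebraMap K F a)}.Finite)
    (hsum : ∀ a : K, ∑ v ∈ (hfin a).toFinset, v.ord (y - algebraMap K F a) = n)
    (hfin' : {v : Place K F | v.ord y < 0}.Finite)
    (hsum' : ∑ v ∈ hfin'.toFinset, -(v.ord y) = n)
    (S : Finset K)
    (hS : ∀ a, a ∉ S → Nat.card {v : Place K F // 0 < v.ord (y - algebraMap K F a)} = n)
    (D : Divisor K F) (hD : ∀ v, D v = v.ordDifferential (KaehlerDifferential.D K F y)) :
    Divisor.degree D = ∑ a ∈ S, ((n : ℤ) -
      Nat.card {v : Place K F // 0 < v.ord (y - algebraMap K F a)}) - n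
      - Nat.card {v : Place K F // v.ord y < 0} := by
  classical
  have hya : ∀ a : K, y - algebraMap K F a ≠ 0 := by
    intro a h
    apply hy
    rw [sub_eq_zero.mp h]
    exact isAlgebraic_algebraMap a
  have hy0 : y ≠ 0 := by simpa using hya 0
  have hcard : ∀ a, Nat.card {v : Place K F // 0 < v.ord (y - algebraMap K F a)}
      = (hfin a).toFinset.card := by
    intro a
    rw [← Set.ncard_eq_toFinset_card _ (hfin a)]
    rfl
  have hcard' : Nat.card {v : Place K F // v.ord y < 0} = hfin'.toFinset.card := by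
    rw [← Set.ncard_eq_toFinset_card _ hfin']
    rfl
  -- the values of D
  have hDa : ∀ a v, 0 < v.ord (y - algebraMap K F a) → D v = v.ord (y - algebraMap K F a) - 1 := by
    intro a v hv
    have := hess v
    rw [hD v, FFDiff.ordDifferential_D_sub v (hres v) hv.ne']
  have hDinf : ∀ v : Place K F, v.ord y < 0 → D v = v.ord y - 1 := by
    intro v hv
    have := hess v
    rw [hD v, FFDiff.ordDifferential_D v (hres v) hv.ne]
  have hunram : ∀ a, a ∉ S → ∀ v : Place K F, 0 < v.ord (y - algebraMap K F a) →
      v.ord (y - algebraMap K F a) = 1 := by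
    intro a ha v hv
    have h1 := hsum a
    have h2 := hS a ha
    rw [hcard a] at h2
    have h3 : ∑ v ∈ (hfin a).toFinset, (1 : ℤ)
        = ∑ v ∈ (hfin a).toFinset, v.ord (y - algebraMap K F a) := by
      rw [h1, ← h2]; simp
    have h4 := (Finset.sum_eq_sum_iff_of_le (s := (hfin a).toFinset) (f := fun _ => (1 : ℤ))
      (g := fun v => v.ord (y - algebraMap K F a)) (fun v hv => by
        have : 0 < v.ord (y - algebraMap K F a) := by simpa using hv
        omega)).mp h3
    exact (h4 v (by simpa using hv)).symm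
  -- the support
  set T : Finset (Place K F) := hfin'.toFinset ∪ S.biUnion fun a => (hfin a).toFinset with hT
  have hsupp : D.support ⊆ T := by
    intro v hv
    rw [Finsupp.mem_support_iff] at hv
    by_contra hvT
    simp only [hT, Finset.mem_union, Set.Finite.mem_toFinset, Set.mem_setOf_eq,
      Finset.mem_biUnion, not_or, not_exists, not_and, not_lt] at hvT
    obtain ⟨h1, h2⟩ := hvT
    have hyV : y ∈ v.toValuationSubring := (FFDiff.mem_iff_ord_nonneg v hy0).mpr h1
    obtain ⟨a, ha⟩ := ord_eq_zero_iff_of_residue v (hres v) hyV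
    have ha := ha.resolve_left (hya a)
    have haS : a ∉ S := fun haS => absurd ha (not_lt.mpr (h2 a haS))
    apply hv
    rw [hDa a v ha, hunram a haS v ha]
    ring
  have hdisj : Disjoint hfin'.toFinset (S.biUnion fun a => (hfin a).toFinset) := by
    rw [Finset.disjoint_left]
    intro v hv hv'
    simp only [Set.Finite.mem_toFinset, Set.mem_setOf_eq, Finset.mem_biUnion] at hv hv'
    obtain ⟨a, -, ha⟩ := hv'
    exact absurd (ord_nonneg_of_pos v ha) (not_le.mpr hv)
  have hpd : Set.PairwiseDisjoint (S : Set K) fun a => (hfin a).toFinset := by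
    intro a _ b _ hab
    rw [Function.onFun, Finset.disjoint_left]
    intro v hv hv'
    simp only [Set.Finite.mem_toFinset, Set.mem_setOf_eq] at hv hv'
    exact hab (eq_of_pos_of_pos v hv hv')
  have hdegsum : Divisor.degree D = ∑ v ∈ T, D v := by
    rw [Divisor.degree, Finsupp.liftAddHom_apply, Finsupp.sum]
    rw [← Finset.sum_subset hsupp (f := fun v => D v)]
    · refine Finset.sum_congr rfl fun v _ => ?_
      simp [hdeg v]
    · intro v _ hv
      simpa using hv
  rw [hdegsum, hT, Finset.sum_union hdisj, Finset.sum_biUnion hpd]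
  have h5 : ∑ v ∈ hfin'.toFinset, D v = -(n : ℤ) - Nat.card {v : Place K F // v.ord y < 0} := by
    rw [← hsum', hcard', ← Finset.sum_neg_distrib]
    rw [show ((hfin'.toFinset.card : ℕ) : ℤ) = ∑ v ∈ hfin'.toFinset, (1 : ℤ) by simp,
      ← Finset.sum_sub_distrib]
    refine Finset.sum_congr rfl fun v hv => ?_
    rw [hDinf v (by simpa using hv)]
    ring
  have h6 : ∀ a ∈ S, ∑ v ∈ (hfin a).toFinset, D v = (n : ℤ) -
      Nat.card {v : Place K F // 0 < v.ord (y - algebraMap K F a)} := by
    intro a _
    rw [hcard a, ← hsum a]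
    rw [show (((hfin a).toFinset.card : ℕ) : ℤ) = ∑ v ∈ (hfin a).toFinset, (1 : ℤ) by simp,
      ← Finset.sum_sub_distrib]
    refine Finset.sum_congr rfl fun v hv => ?_
    rw [hDa a v (by simpa using hv)]
  rw [h5, Finset.sum_congr rfl h6]
  ring

end Fermat.Agent.FFHur
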