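import Mathlib
import Fermat.Agent.FF.Hurwitz
import Fermat.Agent.FF.Fundamental
import Fermat.Agent.FF.Degree
import Fermat.Agent.FF.Construct

/-! Riemann–Hurwitz for `IsFF` function fields, and genus computation (helper80). -/

set_option autoImplicit false

noncomputable section

open AlgebraicCurve IsLocalRing
open scoped IntermediateField
open Fermat.Agent.FF

namespace Fermat.Agent.FFHur

variable {K F : Type*} [Field K] [Field F] [Algebra K F]

section IsFFsec

variable [IsFF K F]

theorem deg_eq_one [IsAlgClosed K] [CharZero K] (v : Place K F) : v.deg = 1 := by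
  obtain ⟨x, hx⟩ := IsFF.exists_transcendental (K := K) (F := F)
  have := IsFF.finite_adjoin x hx
  exact FFFund.deg_eq_one_of_place x hx v

theorem finite_pos (y : F) : {v : Place K F | 0 < v.ord y}.Finite :=
  (finite_ord_ne_zero (K := K) y).subset fun v hv => by
    have : 0 < v.ord y := hv
    exact this.ne'

theorem sum_ord [IsAlgClosed K] [CharZero K] {y : F} (hy : Transcendental K y)
    (h : {v : Place K F | 0 < v.ord y}.Finite) :
    ∑ v ∈ h.toFinset, v.ord y = Module.finrank K⟮y⟯ F := by
  classical
  rw [← degree_zeroDiv hy, degree_eq_sum _ h.toFinset]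
  · refine Finset.sum_congr rfl fun v hv => ?_
    have hv' : 0 < v.ord y := by simpa using hv
    rw [zeroDiv_apply, max_eq_left hv'.le, deg_eq_one]
    simp
  · intro v hv
    rw [Finsupp.mem_support_iff, zeroDiv_apply] at hv
    have : 0 < v.ord y := by
      by_contra hcon
      exact hv (max_eq_right (not_lt.mp hcon))
    simpa using this

/-- Riemann–Hurwitz over `P¹` -/
theorem degree_divisor_D_of_isFF [IsAlgClosed K] [CharZero K] (y : F) (hy : Transcendental K y)
    (S : Finset K)
    (hS : ∀ a, a ∉ S → Nat.card {v : Place K F // 0 < v.ord (y - algebraMap K F a)}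
      = Module.finrank K⟮y⟯ F)
    (D : Divisor K F) (hD : ∀ v, D v = v.ordDifferential (KaehlerDifferential.D K F y)) :
    Divisor.degree D = ∑ a ∈ S, ((Module.finrank K⟮y⟯ F : ℤ) -
      Nat.card {v : Place K F // 0 < v.ord (y - algebraMap K F a)}) - Module.finrank K⟮y⟯ F
      - Nat.card {v : Place K F // 0 < v.ord y⁻¹} := by
  have hfin := IsFF.finite_adjoin y hy
  have hnt := FFFund.nontrivial_kaehler y hy
  have hset : {v : Place K F | v.ord y < 0} = {v : Place K F | 0 < v.ord y⁻¹} := by
    ext v
    show v.ord y < 0 ↔ 0 < v.ord y⁻¹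
    rw [v.ord_inv]
    omega
  have hfin' : {v : Place K F | v.ord y < 0}.Finite := hset ▸ finite_pos y⁻¹
  have hsum' : ∑ v ∈ hfin'.toFinset, -(v.ord y) = (Module.finrank K⟮y⟯ F : ℤ) := by
    have h1 := sum_ord (FFFund.transcendental_inv hy) (finite_pos y⁻¹)
    rw [FFFund.finrank_of_eq (FFFund.mem_or_inv_mem_adjoin y)] at h1
    rw [← h1]
    refine Finset.sum_congr ?_ fun v _ => (v.ord_inv y).symm
    ext v
    simp only [Set.Finite.mem_toFinset]
    show v.ord y < 0 ↔ 0 < v.ord y⁻¹
    rw [v.ord_inv]
    omega
  have h := degree_divisor_D (FFFund.essFiniteType_of_place y hy)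
    (FFFund.residue_surjective_of_place y hy) deg_eq_one y hy (Module.finrank K⟮y⟯ F)
    (fun a => finite_pos _) (fun a => by
      rw [sum_ord (FFFund.transcendental_sub hy a),
        FFFund.finrank_of_eq (FFFund.adjoin_sub_algebraMap y a)]) hfin' hsum' S hS D hD
  rw [h]
  congr 2
  exact Nat.card_congr (Equiv.subtypeEquivRight fun v => by rw [v.ord_inv]; omega)

theorem D_ne_zero [IsAlgClosed K] [CharZero K] (y : F) (hy : Transcendental K y) :
    KaehlerDifferential.D K F y ≠ 0 := by
  have hfin := IsFF.finite_adjoin y hy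
  have hnt := FFFund.nontrivial_kaehler y hy
  have hpos : ∃ v : Place K F, 0 < v.ord y := by
    by_contra hcon
    push Not at hcon
    have h1 := sum_ord hy (finite_pos y)
    rw [Finset.sum_eq_zero] at h1
    · have := Module.finrank_pos (R := K⟮y⟯) (M := F)
      omega
    · intro v hv
      simp only [Set.Finite.mem_toFinset] at hv
      exact absurd hv (not_lt.mpr (hcon v))
  obtain ⟨v, hv⟩ := hpos
  have hy0 : y ≠ 0 := by rintro rfl; simp at hv
  have := FFFund.essFiniteType_of_place y hy v
  have hres := FFFund.residue_surjective_of_place y hy v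
  have := FFDiff.dCoordGenerates v hres
  intro h0
  have h1 : KaehlerDifferential.D K F (y * y) = 0 := by
    rw [Derivation.leibniz, h0, smul_zero, add_zero]
  have h2 := FFDiff.ordDifferential_D v hres (y := y * y) (by rw [v.ord_mul hy0 hy0]; omega)
  rw [h1, Place.ordDifferential, Place.differentialCoeff_zero, Place.ord_zero,
    v.ord_mul hy0 hy0] at h2
  omega

/-- the value of the Prelude genus, from the degree of `div (dy)`. -/
theorem genus_eq [IsAlgClosed K] [CharZero K] [HasCanonicalDivisor (K := K) (F := F)]
    (y : F) (hy : Transcendental K y)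
    (S : Finset K)
    (hS : ∀ a, a ∉ S → Nat.card {v : Place K F // 0 < v.ord (y - algebraMap K F a)}
      = Module.finrank K⟮y⟯ F) (g : ℕ)
    (hg : 2 * (g : ℤ) - 2 = ∑ a ∈ S, ((Module.finrank K⟮y⟯ F : ℤ) -
      Nat.card {v : Place K F // 0 < v.ord (y - algebraMap K F a)}) - Module.finrank K⟮y⟯ F
      - Nat.card {v : Place K F // 0 < v.ord y⁻¹}) :
    genus K F = g := by
  have hfin := IsFF.finite_adjoin y hy
  have hnt := FFFund.nontrivial_kaehler y hy
  have hgen : ∀ v : Place K F, v.DCoordGenerates := fun v => by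
    have := FFFund.essFiniteType_of_place y hy v
    exact FFDiff.dCoordGenerates v (FFFund.residue_surjective_of_place y hy v)
  have hne := D_ne_zero y hy
  have hpos : ∃ v : Place K F, 0 < v.ord y := by
    by_contra hcon
    push Not at hcon
    have h1 := sum_ord hy (finite_pos y)
    rw [Finset.sum_eq_zero] at h1
    · have := Module.finrank_pos (R := K⟮y⟯) (M := F)
      omega
    · intro v hv
      simp only [Set.Finite.mem_toFinset] at hv
      exact absurd hv (not_lt.mpr (hcon v))
  obtain ⟨v, -⟩ := hpos
  have hex : ∃ ω : Ω[F⁄K], ω ≠ 0 := ⟨_, hne⟩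
  have hdeg : Divisor.degree (canonicalDivisorOf (K := K) hex.choose_spec) =
      Divisor.degree (canonicalDivisorOf (K := K) hne) :=
    FFDiff.degree_eq_of_divisor_differential
      (fun ω ω' hω => FFDiff.exists_smul_eq_of_generates v ω ω' hω) hex.choose_spec hne
      (canonicalDivisorOf_apply _) (canonicalDivisorOf_apply _)
  have h1 := degree_divisor_D_of_isFF y hy S hS (canonicalDivisorOf (K := K) hne)
    (canonicalDivisorOf_apply _)
  have h2 : genus K F =
      (Divisor.degree (canonicalDivisorOf (K := K) hex.choose_spec) + 2).toNat / 2 := by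
    unfold genus
    exact dif_pos hex
  rw [h2, hdeg, h1, ← hg]
  omega

end IsFFsec

end Fermat.Agent.FFHur
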