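import Mathlib

set_option autoImplicit false

noncomputable section

open Module

namespace Fermat.Agent.FF

variable {K V : Type*} [Field K] [AddCommGroup V] [Module K V]

/-- The quotient `M / (M ∩ N)`. -/
abbrev RQ (N M : Submodule K V) : Type _ := ↥M ⧸ N.submoduleOf M

/-- relative dimension `dim M/(M ∩ N)`. -/
def rd (N M : Submodule K V) : ℕ := finrank K (RQ N M)

/-- relative finiteness. -/
def RFin (N M : Submodule K V) : Prop := Module.Finite K (RQ N M)

theorem mem_submoduleOf {N M : Submodule K V} (x : M) : x ∈ N.submoduleOf M ↔ (x : V) ∈ N :=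
  Iff.rfl

/-- If `φ : M → W` has kernel `N ∩ M`, then `M/N` embeds in `W`. -/
def rqEquivRange {W : Type*} [AddCommGroup W] [Module K W] {N M : Submodule K V}
    (φ : M →ₗ[K] W) (hker : LinearMap.ker φ = N.submoduleOf M) :
    RQ N M ≃ₗ[K] LinearMap.range φ :=
  (Submodule.quotEquivOfEq _ _ hker.symm).trans φ.quotKerEquivRange

theorem RFin.of_linearMap {W : Type*} [AddCommGroup W] [Module K W] [Module.Finite K W]
    {N M : Submodule K V} (φ : M →ₗ[K] W) (hker : LinearMap.ker φ = N.submoduleOf M) :
    RFin N M :=
  Module.Finite.equiv (rqEquivRange φ hker).symm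

theorem rd_le_of_linearMap {W : Type*} [AddCommGroup W] [Module K W] [Module.Finite K W]
    {N M : Submodule K V} (φ : M →ₗ[K] W) (hker : LinearMap.ker φ = N.submoduleOf M) :
    rd N M ≤ finrank K W := by
  rw [rd, (rqEquivRange φ hker).finrank_eq]
  exact Submodule.finrank_le _

theorem rd_eq_of_linearMap {W : Type*} [AddCommGroup W] [Module K W]
    {N M : Submodule K V} (φ : M →ₗ[K] W) (hker : LinearMap.ker φ = N.submoduleOf M)
    (hsurj : Function.Surjective φ) :
    rd N M = finrank K W := by
  rw [rd, (rqEquivRange φ hker).finrank_eq, LinearMap.range_eq_top.mpr hsurj, finrank_top]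

theorem RFin.of_linearMap_surjective {W : Type*} [AddCommGroup W] [Module K W]
    [Module.Finite K W]
    {N M : Submodule K V} (φ : M →ₗ[K] W) (hker : LinearMap.ker φ = N.submoduleOf M) :
    RFin N M := RFin.of_linearMap φ hker

/-- inclusion `M/N → L/N`. -/
def rqIncl (N : Submodule K V) {M L : Submodule K V} (h : M ≤ L) : RQ N M →ₗ[K] RQ N L :=
  Submodule.mapQ _ _ (Submodule.inclusion h) (fun _ hx => hx)

theorem rqIncl_injective (N : Submodule K V) {M L : Submodule K V} (h : M ≤ L) :
    Function.Injective (rqIncl N h) := by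
  rw [← LinearMap.ker_eq_bot, rqIncl, Submodule.ker_mapQ]
  rw [show Submodule.comap (Submodule.inclusion h) (N.submoduleOf L) = N.submoduleOf M from rfl]
  exact Submodule.mkQ_map_self _

/-- projection `L/N → L/M`. -/
def rqProj {N M : Submodule K V} (h : N ≤ M) (L : Submodule K V) : RQ N L →ₗ[K] RQ M L :=
  Submodule.factor (fun _ hx => h hx)

theorem rqProj_surjective {N M : Submodule K V} (h : N ≤ M) (L : Submodule K V) :
    Function.Surjective (rqProj h L) := by
  intro x
  obtain ⟨x, rfl⟩ := Submodule.Quotient.mk_surjective _ x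
  exact ⟨Submodule.Quotient.mk x, rfl⟩

theorem rqProj_ker {N M L : Submodule K V} (h : N ≤ M) (h' : M ≤ L) :
    LinearMap.ker (rqProj h L) = LinearMap.range (rqIncl N h') := by
  ext x
  obtain ⟨x, rfl⟩ := Submodule.Quotient.mk_surjective _ x
  constructor
  · intro hx
    rw [LinearMap.mem_ker, rqProj] at hx
    have hx' : (x : V) ∈ M := by
      have := (Submodule.Quotient.mk_eq_zero (p := M.submoduleOf L) (x := x)).mp hx
      exact this
    exact ⟨Submodule.Quotient.mk ⟨x, hx'⟩, rfl⟩
  · rintro ⟨y, hy⟩
    rw [← hy]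
    obtain ⟨y, rfl⟩ := Submodule.Quotient.mk_surjective _ y
    rw [LinearMap.mem_ker]
    exact (Submodule.Quotient.mk_eq_zero (p := M.submoduleOf L)).mpr y.2

theorem RFin.trans {N M L : Submodule K V} (h : N ≤ M) (h' : M ≤ L)
    (h1 : RFin N M) (h2 : RFin M L) : RFin N L := by
  unfold RFin at *
  have e1 : Module.Finite K (LinearMap.ker (rqProj h L)) := by
    rw [rqProj_ker h h']; infer_instance
  have e2 : Module.Finite K (LinearMap.range (rqProj h L)) := inferInstance
  rw [Module.finite_def] at *
  exact Submodule.fg_of_fg_map_of_fg_inf_ker (rqProj h L)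
    (by rw [Submodule.map_top]; exact (Submodule.fg_top _).mp e2)
    (by rw [top_inf_eq]; exact (Submodule.fg_top _).mp e1)

theorem RFin.left {N M L : Submodule K V} (h' : M ≤ L) (h1 : RFin N L) : RFin N M := by
  unfold RFin at *
  exact Module.Finite.of_injective (rqIncl N h') (rqIncl_injective N h')

theorem RFin.right {N M : Submodule K V} (L : Submodule K V) (h : N ≤ M) (h1 : RFin N L) :
    RFin M L := by
  unfold RFin at *
  exact Module.Finite.of_surjective (rqProj h L) (rqProj_surjective h L)

theorem rd_trans {N M L : Submodule K V} (h : N ≤ M) (h' : M ≤ L) (h1 : RFin N L) :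
    rd N L = rd N M + rd M L := by
  unfold RFin at h1
  have := (rqProj h L).finrank_range_add_finrank_ker
  rw [rqProj_ker h h', LinearMap.finrank_range_of_inj (rqIncl_injective N h'),
    LinearMap.range_eq_top.mpr (rqProj_surjective h L), finrank_top] at this
  rw [rd, rd, rd]
  omega

theorem RFin.self (N : Submodule K V) : RFin N N := by
  unfold RFin
  have : Subsingleton (RQ N N) := by
    rw [Submodule.Quotient.subsingleton_iff, Submodule.submoduleOf_self]
  infer_instance

theorem rd_self (N : Submodule K V) : rd N N = 0 := by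
  have : Subsingleton (RQ N N) := by
    rw [Submodule.Quotient.subsingleton_iff, Submodule.submoduleOf_self]
  exact finrank_zero_of_subsingleton

theorem rd_eq_zero_iff {N M : Submodule K V} (h : RFin N M) : rd N M = 0 ↔ M ≤ N := by
  unfold RFin at h
  rw [rd, finrank_zero_iff, Submodule.Quotient.subsingleton_iff,
    Submodule.submoduleOf_eq_top]

theorem RFin.bot_iff {M : Submodule K V} : RFin ⊥ M ↔ Module.Finite K M := by
  unfold RFin
  have : (⊥ : Submodule K V).submoduleOf M = ⊥ := by
    ext x; simp [Submodule.submoduleOf]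
  constructor
  · intro h
    exact Module.Finite.equiv (Submodule.quotEquivOfEqBot _ this)
  · intro h
    infer_instance

theorem rd_bot (M : Submodule K V) : rd ⊥ M = finrank K M := by
  have : (⊥ : Submodule K V).submoduleOf M = ⊥ := by
    ext x; simp [Submodule.submoduleOf]
  exact (Submodule.quotEquivOfEqBot _ this).finrank_eq

/-- `dim M/(M ∩ N)`: for a chain `N ≤ M` of finite-dim. spaces. -/
theorem finrank_add_rd {N M : Submodule K V} (h : N ≤ M) (hM : Module.Finite K M) :
    finrank K N + rd N M = finrank K M := by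
  have := rd_trans (N := ⊥) bot_le h (RFin.bot_iff.mpr hM)
  rw [rd_bot, rd_bot] at this
  omega

end Fermat.Agent.FF
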