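import Fermat.Agent.FF.Approx
import Fermat.Agent.FF.RelDim

set_option autoImplicit false

noncomputable section

open AlgebraicCurve WithZero Module

namespace Fermat.Agent.FF

variable {K F : Type*} [Field K] [Field F] [Algebra K F]

/-- elements with pole order at `v` at most `n`. -/
def fil (v : Place K F) (n : ℤ) : Submodule K F where
  carrier := {f | v.adicValuation f ≤ exp n}
  zero_mem' := by simp
  add_mem' := by
    intro f g hf hg
    show v.adicValuation (f + g) ≤ exp n
    exact (Valuation.map_add _ _ _).trans (max_le hf hg)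
  smul_mem' := by
    intro c f hf
    show v.adicValuation (c • f) ≤ exp n
    rw [Algebra.smul_def, map_mul]
    exact (mul_le_of_le_one_left' (v.adicValuation_algebraMap_le_one c)).trans hf

theorem mem_fil {v : Place K F} {n : ℤ} {f : F} : f ∈ fil v n ↔ v.adicValuation f ≤ exp n := by
  show v.adicValuation f ≤ exp n ↔ _
  exact Iff.rfl

theorem mem_fil_iff {v : Place K F} {n : ℤ} {f : F} : f ∈ fil v n ↔ f = 0 ∨ -n ≤ v.ord f :=
  mem_fil.trans v.adicValuation_le_exp_iff

theorem mem_fil_zero {v : Place K F} {f : F} : f ∈ fil v 0 ↔ f ∈ v.toValuationSubring := by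
  rw [mem_fil, mem_iff_val_le_one, exp_zero]

theorem fil_mono (v : Place K F) {m n : ℤ} (h : m ≤ n) : fil v m ≤ fil v n :=
  fun _ hf => mem_fil.mpr (le_trans (mem_fil.mp hf) (exp_le_exp.mpr h))

theorem mul_mem_fil {v : Place K F} {m n : ℤ} {f g : F} (hf : f ∈ fil v m) (hg : g ∈ fil v n) :
    f * g ∈ fil v (m + n) := by
  rw [mem_fil, map_mul, exp_add]
  exact mul_le_mul' (mem_fil.mp hf) (mem_fil.mp hg)

theorem fil_nonunit {v : Place K F} {f : F} (hf : f ∈ fil v 0) :
    IsLocalRing.residue v.toValuationSubring ⟨f, mem_fil_zero.mp hf⟩ = 0 ↔ f ∈ fil v (-1) := by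
  rw [IsLocalRing.residue_eq_zero_iff, IsLocalRing.mem_maximalIdeal, mem_nonunits_iff]
  rw [← v.adicValuation_coe_eq_one_iff]
  have h1 : v.adicValuation f ≤ 1 := by simpa using mem_fil.mp hf
  constructor
  · intro h
    rcases eq_or_ne f 0 with rfl | hf0
    · exact zero_mem _
    · rw [mem_fil_iff]
      right
      have h2 : v.adicValuation f < 1 := lt_of_le_of_ne h1 h
      rw [← map_one v.adicValuation, val_lt_iff v hf0 one_ne_zero, v.ord_one] at h2
      omega
  · intro h h2
    have h3 : v.adicValuation f ≤ exp (-1) := mem_fil.mp h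
    rw [h2] at h3
    rw [← exp_zero, exp_le_exp] at h3
    omega

theorem zpow_mul_mem_fil_zero {v : Place K F} {π : F} (hπ : v.adicValuation π = exp (-1))
    {n : ℤ} {f : F} (hf : f ∈ fil v n) : f * π ^ n ∈ fil v 0 := by
  rw [mem_fil, map_mul, map_zpow₀, hπ, ← exp_zsmul, smul_eq_mul, mul_neg, mul_one]
  calc v.adicValuation (f : F) * exp (-n) ≤ exp n * exp (-n) := by
        gcongr; exact mem_fil.mp hf
    _ = exp 0 := by rw [← exp_add]; simp

/-- leading coefficient map. -/
def lead (v : Place K F) (π : F) (hπ : v.adicValuation π = exp (-1)) (n : ℤ) :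
    fil v n →ₗ[K] v.ResidueField where
  toFun f := IsLocalRing.residue v.toValuationSubring
    ⟨(f : F) * π ^ n, mem_fil_zero.mp (zpow_mul_mem_fil_zero hπ f.2)⟩
  map_add' f g := by
    rw [← map_add]
    congr 1
    ext
    push_cast
    ring
  map_smul' c f := by
    have h : (⟨((c • f : fil v n) : F) * π ^ n,
        mem_fil_zero.mp (zpow_mul_mem_fil_zero hπ (c • f).2)⟩ : v.toValuationSubring)
        = algebraMap K v.toValuationSubring c *
          ⟨(f : F) * π ^ n, mem_fil_zero.mp (zpow_mul_mem_fil_zero hπ f.2)⟩ := by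
      ext
      push_cast
      rw [Place.coe_algebraMap, Algebra.smul_def]
      ring
    rw [h, map_mul, RingHom.id_apply, Algebra.smul_def]
    rfl

theorem lead_apply (v : Place K F) (π : F) (hπ : v.adicValuation π = exp (-1)) (n : ℤ)
    (f : fil v n) (h : (f : F) * π ^ n ∈ v.toValuationSubring) :
    lead v π hπ n f = IsLocalRing.residue v.toValuationSubring ⟨(f : F) * π ^ n, h⟩ := rfl

theorem lead_ker (v : Place K F) (π : F) (hπ : v.adicValuation π = exp (-1)) (n : ℤ) :
    LinearMap.ker (lead v π hπ n) = (fil v (n - 1)).submoduleOf (fil v n) := by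
  have hπ0 : π ≠ 0 := by
    rintro rfl
    rw [map_zero] at hπ
    exact exp_ne_zero hπ.symm
  ext f
  rw [LinearMap.mem_ker, mem_submoduleOf]
  have hmem : (f : F) * π ^ n ∈ fil v 0 := zpow_mul_mem_fil_zero hπ f.2
  rw [lead_apply v π hπ n f (mem_fil_zero.mp hmem), fil_nonunit hmem, mem_fil, mem_fil, map_mul,
    map_zpow₀, hπ, ← exp_zsmul, smul_eq_mul, mul_neg, mul_one]
  constructor
  · intro h
    calc v.adicValuation (f : F) = v.adicValuation (f : F) * exp (-n) * exp n := by
          rw [mul_assoc, ← exp_add]; simp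
      _ ≤ exp (-1) * exp n := by gcongr
      _ = exp (n - 1) := by rw [← exp_add]; congr 1; ring
  · intro h
    calc v.adicValuation (f : F) * exp (-n) ≤ exp (n - 1) * exp (-n) := by gcongr
      _ = exp (-1) := by rw [← exp_add]; congr 1; ring

theorem exists_val_uniformizer (v : Place K F) : ∃ π : F, v.adicValuation π = exp (-1) := by
  obtain ⟨π, hπ⟩ := IsDiscreteValuationRing.exists_irreducible v.toValuationSubring
  exact ⟨π, v.adicValuation_coe_irreducible hπ⟩

theorem lead_surjective (v : Place K F) (π : F) (hπ : v.adicValuation π = exp (-1)) (n : ℤ) :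
    Function.Surjective (lead v π hπ n) := by
  have hπ0 : π ≠ 0 := by
    rintro rfl
    rw [map_zero] at hπ
    exact exp_ne_zero hπ.symm
  intro x
  obtain ⟨⟨a, ha⟩, rfl⟩ := IsLocalRing.residue_surjective x
  have hmem : a * π ^ (-n) ∈ fil v n := by
    rw [mem_fil, map_mul, map_zpow₀, hπ, ← exp_zsmul, smul_eq_mul]
    have h1 : v.adicValuation a ≤ 1 := v.adicValuation_le_one_of_mem ha
    calc v.adicValuation a * exp (-n * -1) ≤ 1 * exp (-n * -1) := by gcongr
      _ = exp n := by rw [one_mul]; congr 1; ring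
  have h2 : a * π ^ (-n) * π ^ n = a := by
    rw [mul_assoc, ← zpow_add₀ hπ0]; simp
  refine ⟨⟨a * π ^ (-n), hmem⟩, ?_⟩
  rw [lead_apply v π hπ n _ (by rw [h2]; exact ha)]
  congr 1
  ext
  exact h2

end Fermat.Agent.FF
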