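import Fermat.Agent.FF.Local

set_option autoImplicit false

noncomputable section

open AlgebraicCurve WithZero Module

namespace Fermat.Agent.FF

variable {K F : Type*} [Field K] [Field F] [Algebra K F]

/-- Elements with poles bounded by `D` at all the places of `S`. -/
def MM (S : Set (Place K F)) (D : Divisor K F) : Submodule K F where
  carrier := {f | ∀ v ∈ S, f ∈ fil v (D v)}
  zero_mem' := fun _ _ => zero_mem _
  add_mem' := fun hf hg v hv => add_mem (hf v hv) (hg v hv)
  smul_mem' := fun c _ hf v hv => Submodule.smul_mem _ c (hf v hv)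

theorem mem_MM {S : Set (Place K F)} {D : Divisor K F} {f : F} :
    f ∈ MM S D ↔ ∀ v ∈ S, f ∈ fil v (D v) := by
  show (∀ v ∈ S, f ∈ fil v (D v)) ↔ _
  exact Iff.rfl

theorem MM_univ (D : Divisor K F) : MM Set.univ D = riemannRochSpace D := by
  ext f
  rw [mem_MM, mem_riemannRochSpace_iff]
  simp only [Set.mem_univ, forall_true_left, mem_fil_iff]

theorem MM_mono (S : Set (Place K F)) {D D' : Divisor K F} (h : D ≤ D') : MM S D ≤ MM S D' :=
  fun _ hf => mem_MM.mpr fun v hv => fil_mono v (h v) (mem_MM.mp hf v hv)

/-- The leading coefficient map `MM S (D + P) → k(P)`. -/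
def leadM (S : Set (Place K F)) (D : Divisor K F) {P : Place K F} (hP : P ∈ S) (π : F)
    (hπ : P.adicValuation π = exp (-1)) (D' : Divisor K F)
    : MM S D' →ₗ[K] P.ResidueField :=
  (lead P π hπ (D' P)).comp (Submodule.inclusion fun _ hf => mem_MM.mp hf P hP)

theorem leadM_ker (S : Set (Place K F)) (D : Divisor K F) {P : Place K F} (hP : P ∈ S) (π : F)
    (hπ : P.adicValuation π = exp (-1)) :
    LinearMap.ker (leadM S D hP π hπ (D + Finsupp.single P 1))
      = (MM S D).submoduleOf (MM S (D + Finsupp.single P 1)) := by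
  classical
  ext f
  rw [LinearMap.mem_ker, mem_submoduleOf]
  have h1 : leadM S D hP π hπ (D + Finsupp.single P 1) f = 0 ↔
      (Submodule.inclusion (fun _ hf => mem_MM.mp hf P hP) f : fil P _) ∈
        LinearMap.ker (lead P π hπ ((D + Finsupp.single P 1 : Divisor K F) P)) := Iff.rfl
  rw [h1, lead_ker, mem_submoduleOf]
  have h2 : (D + Finsupp.single P 1 : Divisor K F) P - 1 = D P := by simp
  rw [h2]
  constructor
  · intro h
    rw [mem_MM]
    intro v hv
    by_cases hvP : v = P
    · subst hvP; exact h
    · have := mem_MM.mp f.2 v hv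
      simpa [Finsupp.single_apply, Ne.symm hvP, hvP] using this
  · intro h
    exact mem_MM.mp h P hP

theorem MM_step_fin (S : Set (Place K F)) (D : Divisor K F) (P : Place K F)
    [Module.Finite K P.ResidueField] :
    RFin (MM S D) (MM S (D + Finsupp.single P 1)) ∧
      rd (MM S D) (MM S (D + Finsupp.single P 1)) ≤ P.deg := by
  classical
  by_cases hP : P ∈ S
  · obtain ⟨π, hπ⟩ := exists_val_uniformizer P
    exact ⟨RFin.of_linearMap _ (leadM_ker S D hP π hπ),
      rd_le_of_linearMap _ (leadM_ker S D hP π hπ)⟩
  · have : MM S (D + Finsupp.single P 1) = MM S D := by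
      ext f
      rw [mem_MM, mem_MM]
      refine forall₂_congr fun v hv => ?_
      have hvP : v ≠ P := fun h => hP (h ▸ hv)
      simp [Finsupp.single_apply, hvP, Ne.symm hvP]
    rw [this]
    exact ⟨RFin.self _, by rw [rd_self]; exact Nat.zero_le _⟩

/-- For a finite set of places, the leading coefficient map is surjective. -/
theorem MM_step_eq (s : Finset (Place K F)) (D : Divisor K F) {P : Place K F} (hP : P ∈ s) :
    rd (MM (s : Set (Place K F)) D) (MM (s : Set (Place K F)) (D + Finsupp.single P 1))
      = P.deg := by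
  classical
  obtain ⟨π, hπ⟩ := exists_val_uniformizer P
  have hP' : P ∈ (s : Set (Place K F)) := hP
  refine rd_eq_of_linearMap _ (leadM_ker (s : Set (Place K F)) D hP' π hπ) ?_
  intro x
  obtain ⟨g, hg⟩ := lead_surjective P π hπ ((D + Finsupp.single P 1 : Divisor K F) P) x
  -- approximate
  obtain ⟨z, hz⟩ := weak_approx s (fun v => if v = P then (g : F) else 0)
    (fun v => D v)
  have hzP : z - g ∈ fil P (D P) := by
    have := hz P hP
    rw [if_pos rfl] at this
    exact mem_fil.mpr this
  have hDP : (D + Finsupp.single P 1 : Divisor K F) P = D P + 1 := by simp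
  have hzP' : z ∈ fil P ((D + Finsupp.single P 1 : Divisor K F) P) := by
    have h1 : z - g ∈ fil P ((D + Finsupp.single P 1 : Divisor K F) P) :=
      fil_mono P (by rw [hDP]; omega) hzP
    have := add_mem h1 g.2
    rwa [sub_add_cancel] at this
  have hzmem : z ∈ MM (s : Set (Place K F)) (D + Finsupp.single P 1) := by
    rw [mem_MM]
    intro v hv
    by_cases hvP : v = P
    · subst hvP; exact hzP'
    · have := hz v hv
      rw [if_neg hvP, sub_zero] at this
      have h2 : (D + Finsupp.single P 1 : Divisor K F) v = D v := by simp [Finsupp.single_apply, Ne.symm hvP]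
      rw [h2]
      exact mem_fil.mpr this
  refine ⟨⟨z, hzmem⟩, ?_⟩
  rw [← hg]
  have h3 : lead P π hπ ((D + Finsupp.single P 1 : Divisor K F) P) (⟨z, hzP'⟩ - g) = 0 := by
    rw [← LinearMap.mem_ker, lead_ker, mem_submoduleOf]
    have h2 : (D + Finsupp.single P 1 : Divisor K F) P - 1 = D P := by simp
    rw [h2]
    exact hzP
  rw [map_sub, sub_eq_zero] at h3
  exact h3

/-- every effective divisor is a sum of places. -/
theorem exists_multiset {E : Divisor K F} (hE : 0 ≤ E) :
    ∃ m : Multiset (Place K F), E = (m.map fun P => Finsupp.single P (1 : ℤ)).sum := by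
  classical
  refine ⟨∑ v ∈ E.support, Multiset.replicate (E v).toNat v, ?_⟩
  rw [← Multiset.coe_mapAddMonoidHom, ← Multiset.coe_sumAddMonoidHom, map_sum, map_sum]
  have : ∀ v ∈ E.support, (Multiset.sumAddMonoidHom ((Multiset.mapAddMonoidHom
      fun P : Place K F => Finsupp.single P (1 : ℤ)) (Multiset.replicate (E v).toNat v)))
      = Finsupp.single v (E v) := by
    intro v _
    have h0 : 0 ≤ E v := hE v
    simp only [Multiset.coe_mapAddMonoidHom, Multiset.coe_sumAddMonoidHom, Multiset.map_replicate,
      Multiset.sum_replicate, Finsupp.smul_single, nsmul_eq_mul, mul_one]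
    rw [Int.toNat_of_nonneg h0]
  rw [Finset.sum_congr rfl this]
  exact (Finsupp.sum_single E).symm

theorem degree_multiset (m : Multiset (Place K F)) :
    Divisor.degree (m.map fun P => Finsupp.single P (1 : ℤ)).sum
      = ((m.map fun P => P.deg).sum : ℕ) := by
  induction m using Multiset.induction_on with
  | empty => simp
  | cons P m ih =>
    rw [Multiset.map_cons, Multiset.sum_cons, Multiset.map_cons, Multiset.sum_cons, map_add, ih,
      Divisor.degree_single]
    push_cast
    ring

/-- General bound: `dim MM(D')/MM(D) ≤ deg (D' - D)` for `D ≤ D'`. -/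
theorem MM_le [∀ P : Place K F, Module.Finite K P.ResidueField] (S : Set (Place K F))
    {D D' : Divisor K F} (h : D ≤ D') :
    RFin (MM S D) (MM S D') ∧
      (rd (MM S D) (MM S D') : ℤ) ≤ Divisor.degree D' - Divisor.degree D := by
  classical
  obtain ⟨m, hm⟩ := exists_multiset (sub_nonneg.mpr h)
  rw [sub_eq_iff_eq_add] at hm
  clear h
  induction m using Multiset.induction_on generalizing D' with
  | empty =>
    simp only [Multiset.map_zero, Multiset.sum_zero, zero_add] at hm
    subst hm
    exact ⟨RFin.self _, by rw [rd_self]; simp⟩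
  | cons P m ih =>
    set E : Divisor K F := (m.map fun P => Finsupp.single P (1 : ℤ)).sum + D with hE
    have hD' : D' = E + Finsupp.single P 1 := by
      rw [hm, Multiset.map_cons, Multiset.sum_cons, hE]; abel
    obtain ⟨h1, h2⟩ := ih (D' := E) rfl
    obtain ⟨h3, h4⟩ := MM_step_fin S E P
    rw [← hD'] at h3 h4
    have hDE : D ≤ E := by
      rw [hE, le_add_iff_nonneg_left]
      apply Multiset.sum_nonneg
      intro x hx
      obtain ⟨Q, -, rfl⟩ := Multiset.mem_map.mp hx
      exact Finsupp.single_nonneg.mpr zero_le_one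
    have hED' : E ≤ D' := by
      rw [hD', le_add_iff_nonneg_right]
      exact Finsupp.single_nonneg.mpr zero_le_one
    have h5 := RFin.trans (MM_mono S hDE) (MM_mono S hED') h1 h3
    refine ⟨h5, ?_⟩
    rw [rd_trans (MM_mono S hDE) (MM_mono S hED') h5, hD', map_add, Divisor.degree_single,
      ← hD']
    push_cast
    have : (rd (MM S E) (MM S D') : ℤ) ≤ P.deg := by exact_mod_cast h4
    linarith

/-- Equality for a finite set of places containing the support of the difference. -/
theorem MM_eq [∀ P : Place K F, Module.Finite K P.ResidueField] (s : Finset (Place K F))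
    {D D' : Divisor K F} (h : D ≤ D') (hs : ∀ v, D v ≠ D' v → v ∈ s) :
    (rd (MM (s : Set (Place K F)) D) (MM (s : Set (Place K F)) D') : ℤ)
      = Divisor.degree D' - Divisor.degree D := by
  classical
  obtain ⟨m, hm⟩ := exists_multiset (sub_nonneg.mpr h)
  rw [sub_eq_iff_eq_add] at hm
  clear h
  induction m using Multiset.induction_on generalizing D' with
  | empty =>
    simp only [Multiset.map_zero, Multiset.sum_zero, zero_add] at hm
    subst hm
    rw [rd_self]; simp
  | cons P m ih =>
    set E : Divisor K F := (m.map fun P => Finsupp.single P (1 : ℤ)).sum + D with hE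
    have hD' : D' = E + Finsupp.single P 1 := by
      rw [hm, Multiset.map_cons, Multiset.sum_cons, hE]; abel
    have hDE : D ≤ E := by
      rw [hE, le_add_iff_nonneg_left]
      apply Multiset.sum_nonneg
      intro x hx
      obtain ⟨Q, -, rfl⟩ := Multiset.mem_map.mp hx
      exact Finsupp.single_nonneg.mpr zero_le_one
    have hED' : E ≤ D' := by
      rw [hD', le_add_iff_nonneg_right]
      exact Finsupp.single_nonneg.mpr zero_le_one
    have hPs : P ∈ s := by
      apply hs
      have h1 := hDE P
      have h2 : D' P = E P + 1 := by rw [hD']; simp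
      omega
    have hsE : ∀ v, D v ≠ E v → v ∈ s := by
      intro v hv
      apply hs
      have h1 := hDE v
      have h2 := hED' v
      omega
    have h1 := ih hsE rfl
    have h3 := MM_step_eq s E hPs
    rw [← hD'] at h3
    have h5 := (MM_le (s : Set (Place K F)) (hDE.trans hED')).1
    rw [rd_trans (MM_mono _ hDE) (MM_mono _ hED') h5, hD', map_add, Divisor.degree_single,
      ← hD', h3]
    push_cast
    rw [h1]
    ring

end Fermat.Agent.FF
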