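import Fermat.Agent.FF.Extension

set_option autoImplicit false

noncomputable section

open AlgebraicCurve WithZero Module Polynomial IntermediateField IsLocalRing

namespace Fermat.Agent.FF

variable {K F : Type*} [Field K] [Field F] [Algebra K F]

/-- For the semilocal ring `R = ⋂_{w ∈ s} O_w`, the `K`-dimension of `R / (r)` is
`∑_{w ∈ s} ord_w r * deg w`. -/
theorem finrank_quotient_span [∀ P : Place K F, Module.Finite K P.ResidueField]
    (s : Finset (Place K F)) (R : Type*) [CommRing R] [Algebra K R]
    [Algebra R F] [IsScalarTower K R F] (hinj : Function.Injective (algebraMap R F))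
    (hrange : ∀ f : F, (∃ r : R, algebraMap R F r = f) ↔ ∀ w ∈ s, f ∈ w.toValuationSubring)
    {r : R} (hr : r ≠ 0) :
    Module.Finite K (R ⧸ Ideal.span {r}) ∧
    (finrank K (R ⧸ Ideal.span {r}) : ℤ) = ∑ w ∈ s, w.ord (algebraMap R F r) * w.deg := by
  classical
  set f := algebraMap R F r with hf
  have hf0 : f ≠ 0 := by rwa [hf, Ne, map_eq_zero_iff _ hinj]
  have hfs : ∀ w ∈ s, f ∈ w.toValuationSubring := (hrange f).mp ⟨r, rfl⟩
  have hfs' : ∀ w ∈ s, 0 ≤ w.ord f := fun w hw => (mem_iff_ord_nonneg w hf0).mp (hfs w hw)
  let D : Divisor K F := ∑ w ∈ s, Finsupp.single w (-w.ord f)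
  have hDw : ∀ w ∈ s, D w = -w.ord f := by
    intro w hw
    simp only [D, Finsupp.coe_finsetSum, Finset.sum_apply]
    rw [Finset.sum_eq_single w]
    · simp
    · intro u _ hu; simp [hu]
    · intro h; exact absurd hw h
  have hDw' : ∀ w ∉ s, D w = 0 := by
    intro w hw
    simp only [D, Finsupp.coe_finsetSum, Finset.sum_apply]
    refine Finset.sum_eq_zero fun u hu => ?_
    have : u ≠ w := fun h => hw (h ▸ hu)
    simp [this]
  have hD0 : D ≤ 0 := by
    intro w
    by_cases hw : w ∈ s
    · rw [hDw w hw]; have := hfs' w hw; simp only [Finsupp.coe_zero, Pi.zero_apply]; omega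
    · rw [hDw' w hw]; simp
  have hdeg : Divisor.degree D = -∑ w ∈ s, w.ord f * w.deg := by
    simp only [D, map_sum, Divisor.degree_single, neg_mul, Finset.sum_neg_distrib]
  -- the linear map
  have hmem : ∀ x : MM (s : Set (Place K F)) (0 : Divisor K F), ∃ b : R, algebraMap R F b = x := by
    intro x
    rw [hrange]
    intro w hw
    have := mem_MM.mp x.2 w hw
    exact mem_fil_zero.mp this
  choose g hg using hmem
  let φ0 : MM (s : Set (Place K F)) (0 : Divisor K F) →ₗ[K] R :=
    { toFun := g
      map_add' := fun x y => by apply hinj; rw [hg, map_add, hg, hg]; rfl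
      map_smul' := fun c x => by
        apply hinj
        rw [hg, RingHom.id_apply, Algebra.smul_def, map_mul, hg,
          ← IsScalarTower.algebraMap_apply K R F]
        rw [Submodule.coe_smul, Algebra.smul_def] }
  let φ : MM (s : Set (Place K F)) (0 : Divisor K F) →ₗ[K] (R ⧸ Ideal.span {r}) :=
    (Ideal.Quotient.mkₐ K (Ideal.span {r})).toLinearMap.comp φ0
  have hsurj : Function.Surjective φ := by
    intro y
    obtain ⟨b, rfl⟩ := Ideal.Quotient.mk_surjective y
    have hb : algebraMap R F b ∈ MM (s : Set (Place K F)) (0 : Divisor K F) := by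
      rw [mem_MM]
      intro w hw
      exact mem_fil_zero.mpr ((hrange _).mp ⟨b, rfl⟩ w hw)
    refine ⟨⟨_, hb⟩, ?_⟩
    have : g ⟨_, hb⟩ = b := hinj (hg _)
    show Ideal.Quotient.mk _ (g ⟨_, hb⟩) = _
    rw [this]
  have hker : LinearMap.ker φ = (MM (s : Set (Place K F)) D).submoduleOf
      (MM (s : Set (Place K F)) (0 : Divisor K F)) := by
    ext x
    rw [LinearMap.mem_ker, mem_submoduleOf, mem_MM]
    have h1 : φ x = Ideal.Quotient.mk _ (g x) := rfl
    rw [h1, Ideal.Quotient.eq_zero_iff_mem, Ideal.mem_span_singleton]
    constructor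
    · rintro ⟨c, hc⟩ w hw
      rw [hDw w hw, ← hg x, hc, map_mul]
      have h2 : algebraMap R F c ∈ fil w 0 := mem_fil_zero.mpr ((hrange _).mp ⟨c, rfl⟩ w hw)
      have h3 : f ∈ fil w (-w.ord f) := mem_fil_iff.mpr (Or.inr (by omega))
      have := mul_mem_fil h3 h2
      rwa [add_zero] at this
    · intro h
      have h2 : ∀ w ∈ s, (x : F) * f⁻¹ ∈ w.toValuationSubring := by
        intro w hw
        have h3 := h w hw
        rw [hDw w hw] at h3
        have h4 : f⁻¹ ∈ fil w (w.ord f) := mem_fil_iff.mpr (Or.inr (by rw [w.ord_inv]))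
        have := mul_mem_fil h3 h4
        rw [neg_add_cancel] at this
        exact mem_fil_zero.mp this
      obtain ⟨c, hc⟩ := (hrange _).mpr h2
      refine ⟨c, ?_⟩
      apply hinj
      rw [hg, map_mul, hc, ← hf]
      field_simp
  have h5 := (MM_le (s : Set (Place K F)) hD0).1
  have hs : ∀ v, D v ≠ (0 : Divisor K F) v → v ∈ s := by
    intro v hv
    by_contra h
    exact hv (by rw [hDw' v h]; rfl)
  have h6 := MM_eq s hD0 hs
  have h7 := rd_eq_of_linearMap φ hker hsurj
  constructor
  · have e := (Submodule.quotEquivOfEq _ _ hker.symm).trans (φ.quotKerEquivOfSurjective hsurj)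
    unfold RFin at h5
    exact Module.Finite.equiv e
  · rw [← h7, h6, hdeg]
    simp

instance isScalarTower_valuationSubring (v : Place K F) (F' : Type*) [Field F'] [Algebra K F']
    [Algebra F F'] [IsScalarTower K F F'] : IsScalarTower K v.toValuationSubring F' :=
  IsScalarTower.of_algebraMap_eq fun c => by
    rw [IsScalarTower.algebraMap_apply K F F']
    rfl

theorem exists_basis_of_finrank_residue_aux {Γ : Type*} [LinearOrderedCommGroupWithZero Γ]
    (v : Valuation F Γ) (F' : Type*) [Field F']
    [Algebra F F'] [FiniteDimensional F F'] (A B : Type*) [CommRing A] [IsLocalRing A]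
    [Algebra A F] [Algebra A F'] [IsScalarTower A F F']
    (hAinj : Function.Injective (algebraMap A F))
    (hA : ∀ f : F, v f ≤ 1 → ∃ a : A, algebraMap A F a = f)
    (hm : ∀ a : A, a ∈ maximalIdeal A ↔ v (algebraMap A F a) < 1)
    [CommRing B] [Algebra A B] [Algebra B F'] [IsScalarTower A B F']
    (hinj : Function.Injective (algebraMap B F'))
    (hfin : Module.Finite (A ⧸ maximalIdeal A) (B ⧸ (maximalIdeal A • (⊤ : Submodule A B))))
    (hrank : finrank (A ⧸ maximalIdeal A) (B ⧸ (maximalIdeal A • (⊤ : Submodule A B)))
        = finrank F F') :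
    Nonempty (Basis (Fin (finrank F F')) A B) := by
  classical
  have hfree : Module.Free (A ⧸ maximalIdeal A)
      (B ⧸ (maximalIdeal A • (⊤ : Submodule A B))) := by
    let _ : Field (A ⧸ maximalIdeal A) := Ideal.Quotient.field _
    exact Module.Free.of_divisionRing _ _
  set m := maximalIdeal A
  set n := finrank F F'
  have hn : 0 < n := finrank_pos
  let e : Basis (Fin n) (A ⧸ m) (B ⧸ (m • (⊤ : Submodule A B))) :=
    Module.finBasisOfFinrankEq _ _ hrank
  have hlift : ∀ i, ∃ b : B, (Submodule.Quotient.mk b : B ⧸ (m • (⊤ : Submodule A B))) = e i :=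
    fun i => Submodule.Quotient.mk_surjective _ _
  choose b hb using hlift
  -- key property
  have key : ∀ a : Fin n → A, ∑ i, a i • b i ∈ (m • (⊤ : Submodule A B)) → ∀ i, a i ∈ m := by
    intro a ha
    have h1 : ∑ i, (Ideal.Quotient.mk m (a i)) • e i = 0 := by
      have h2 : (Submodule.Quotient.mk (∑ i, a i • b i) : B ⧸ (m • (⊤ : Submodule A B))) = 0 :=
        (Submodule.Quotient.mk_eq_zero _).mpr ha
      rw [← h2, ← Submodule.mkQ_apply, map_sum]
      refine Finset.sum_congr rfl fun i _ => ?_
      rw [map_smul, Submodule.mkQ_apply, hb]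
      rfl
    have h3 := Fintype.linearIndependent_iff.mp e.linearIndependent _ h1
    intro i
    exact Ideal.Quotient.eq_zero_iff_mem.mp (h3 i)
  -- normalisation
  have norm : ∀ c : Fin n → F, c ≠ 0 → ∃ i0, c i0 ≠ 0 ∧ ∃ a : Fin n → A, algebraMap A F (a i0) = 1 ∧
      (∀ i, algebraMap A F (a i) = c i / c i0) ∧ ∀ i, v (c i) ≤ v (c i0) := by
    intro c hc
    obtain ⟨i0, -, hi0⟩ := Finset.exists_max_image Finset.univ (fun i => v (c i))
      ⟨⟨0, hn⟩, Finset.mem_univ _⟩
    have hci0 : c i0 ≠ 0 := by
      intro h
      apply hc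
      ext i
      have := hi0 i (Finset.mem_univ i)
      rw [h, map_zero] at this
      exact (map_eq_zero _).mp (le_antisymm this zero_le)
    have h1 : ∀ i, v (c i / c i0) ≤ 1 := by
      intro i
      rw [map_div₀]
      exact div_le_one_of_le₀ (hi0 i (Finset.mem_univ i)) zero_le
    choose a ha using fun i => hA _ (h1 i)
    refine ⟨i0, hci0, a, ?_, ha, fun i => hi0 i (Finset.mem_univ i)⟩
    rw [ha, div_self hci0]
  have hone : ∀ a : A, algebraMap A F a = 1 → a ∉ m := by
    intro a ha h
    have := (hm a).mp h
    rw [ha, map_one] at this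
    exact lt_irrefl _ this
  have hAB : ∀ (a : Fin n → A), algebraMap B F' (∑ i, a i • b i)
      = ∑ i, (algebraMap A F (a i)) • algebraMap B F' (b i) := by
    intro a
    rw [map_sum]
    refine Finset.sum_congr rfl fun i _ => ?_
    rw [Algebra.smul_def, map_mul, ← IsScalarTower.algebraMap_apply A B F', Algebra.smul_def,
      ← IsScalarTower.algebraMap_apply A F F']
  -- linear independence over F
  have hli : LinearIndependent F (fun i => algebraMap B F' (b i)) := by
    rw [Fintype.linearIndependent_iff]
    intro c hc
    by_contra hne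
    push Not at hne
    obtain ⟨j, hj⟩ := hne
    obtain ⟨i0, hci0, a, ha1, ha, -⟩ := norm c (fun h => hj (by rw [h]; rfl))
    have h1 : ∑ i, a i • b i = 0 := by
      apply hinj
      rw [hAB, map_zero]
      have : ∀ i, algebraMap A F (a i) • algebraMap B F' (b i)
          = (c i0)⁻¹ • (c i • algebraMap B F' (b i)) := by
        intro i
        rw [ha, smul_smul]
        congr 1
        field_simp
      rw [Finset.sum_congr rfl fun i _ => this i, ← Finset.smul_sum, hc, smul_zero]
    exact hone _ ha1 (key a (by rw [h1]; exact zero_mem _) i0)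
  let bF : Basis (Fin n) F F' := basisOfLinearIndependentOfCardEqFinrank' _ hli (by simp [n])
  have hbF : ∀ i, bF i = algebraMap B F' (b i) := fun i => by
    simp [bF]
  refine ⟨Basis.mk (v := b) ?_ ?_⟩
  · rw [Fintype.linearIndependent_iff]
    intro a ha i
    have h1 := Fintype.linearIndependent_iff.mp hli (fun i => algebraMap A F (a i))
      (by rw [← hAB, ha, map_zero]) i
    exact hAinj (by rw [h1, map_zero])
  · intro x _
    set c : Fin n → F := fun i => bF.repr (algebraMap B F' x) i with hcdef
    have hc : ∑ i, c i • algebraMap B F' (b i) = algebraMap B F' x := by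
      rw [← bF.sum_repr (algebraMap B F' x)]
      exact Finset.sum_congr rfl fun i _ => by rw [hbF]
    rcases eq_or_ne c 0 with hc0 | hc0
    · have : x = 0 := by
        apply hinj
        rw [← hc, hc0, map_zero]
        simp
      rw [this]; exact zero_mem _
    · obtain ⟨i0, hci0, a, ha1, ha, hmax⟩ := norm c hc0
      by_cases hle : v (c i0) ≤ 1
      · choose a' ha' using fun i => hA (c i) ((hmax i).trans hle)
        have hx : x = ∑ i, a' i • b i := by
          apply hinj
          rw [hAB, ← hc]
          exact Finset.sum_congr rfl fun i _ => by rw [ha']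
        rw [hx]
        exact sum_mem fun i _ => Submodule.smul_mem _ _ (Submodule.subset_span ⟨i, rfl⟩)
      · exfalso
        have hlt : v (c i0)⁻¹ < 1 := by
          rw [map_inv₀]
          exact inv_lt_one_of_one_lt₀ (not_le.mp hle)
        obtain ⟨t, ht⟩ := hA _ hlt.le
        have htm : t ∈ m := by rw [hm, ht]; exact hlt
        have h1 : ∑ i, a i • b i = t • x := by
          apply hinj
          rw [hAB]
          have : ∀ i, algebraMap A F (a i) • algebraMap B F' (b i)
              = (c i0)⁻¹ • (c i • algebraMap B F' (b i)) := by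
            intro i
            rw [ha, smul_smul]
            congr 1
            field_simp
          rw [Finset.sum_congr rfl fun i _ => this i, ← Finset.smul_sum, hc]
          rw [Algebra.smul_def t x, map_mul,
            ← IsScalarTower.algebraMap_apply A B F', Algebra.smul_def,
            IsScalarTower.algebraMap_apply A F F' t, ht]
        exact hone _ ha1 (key a (by rw [h1]; exact Submodule.smul_mem_smul htm trivial) i0)



section Extension

variable (F' : Type*) [Field F'] [Algebra K F'] [Algebra F F'] [IsScalarTower K F F']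

theorem mem_integralClosure_iff [IsFF K F] (v : Place K F)
    [FiniteDimensional F F'] [Algebra.IsIntegral F F']
    [HasPrincipalDivisors K F'] (f : F') :
    f ∈ integralClosure v.toValuationSubring F' ↔ ∀ w ∈ v.fiber F', f ∈ w.toValuationSubring := by
  have hF' : IsFF K F' := IsFF.of_finite_extension (F := F) F'
  constructor
  · intro hf w hw
    rw [Place.mem_fiber] at hw
    subst hw
    let _ : Algebra (w.restrict F).toValuationSubring w.toValuationSubring :=
      (Place.restrictInclusion F w).toAlgebra
    have : IsScalarTower (w.restrict F).toValuationSubring w.toValuationSubring F' :=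
      IsScalarTower.of_algebraMap_eq fun a => rfl
    have hf' : IsIntegral (w.restrict F).toValuationSubring f := hf
    obtain ⟨y, hy⟩ := IsIntegrallyClosed.isIntegral_iff.mp
      (hf'.tower_top (A := w.toValuationSubring))
    exact hy ▸ y.2
  · intro h
    by_contra hb
    have hb' : f ∉ (integralClosure v.toValuationSubring F').toSubring := hb
    obtain ⟨V, hRV, hbV⟩ := Subring.exists_le_valuationSubring_of_isIntegrallyClosedIn hb'
    have hRV' : ∀ r ∈ v.toValuationSubring, algebraMap F F' r ∈ V := fun r hr =>
      hRV (show algebraMap F F' r ∈ integralClosure v.toValuationSubring F' from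
        isIntegral_algebraMap (x := (⟨r, hr⟩ : v.toValuationSubring)))
    have hKV : ∀ a : K, algebraMap K F' a ∈ V := fun a => by
      rw [IsScalarTower.algebraMap_apply K F F']
      exact hRV' _ (v.algebraMap_mem' a)
    have hne : V ≠ ⊤ := by
      rintro rfl; exact hbV (ValuationSubring.mem_top f)
    refine hbV (h (placeOf V hKV hne) ?_)
    rw [Place.mem_fiber]
    exact (eq_of_le fun r hr => (Place.mem_restrict_iff _).mpr (hRV' r hr)).symm

/-- `dim_K (B/(b)) = ∑ ord_w b deg w` for `B` the integral closure of `O_v` in `F'`. -/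
theorem finrank_integralClosure_quotient [IsFF K F] (v : Place K F)
    [FiniteDimensional F F'] [Algebra.IsIntegral F F'] [HasPrincipalDivisors K F']
    {b : integralClosure v.toValuationSubring F'} (hb : b ≠ 0) :
    Module.Finite K (integralClosure v.toValuationSubring F' ⧸ Ideal.span {b}) ∧
    (finrank K (integralClosure v.toValuationSubring F' ⧸ Ideal.span {b}) : ℤ)
      = ∑ w ∈ v.fiber F', w.ord (b : F') * w.deg := by
  have hF' : IsFF K F' := IsFF.of_finite_extension (F := F) F'
  refine finrank_quotient_span (v.fiber F') (integralClosure v.toValuationSubring F')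
    (FaithfulSMul.algebraMap_injective _ _) (fun f => ?_) hb
  rw [← mem_integralClosure_iff]
  exact ⟨fun ⟨r, hr⟩ => hr ▸ r.2, fun h => ⟨⟨f, h⟩, rfl⟩⟩

/-- `dim_K (O_v/(a)) = ord_v a deg v`. -/
theorem finrank_valuationSubring_quotient [IsFF K F] (v : Place K F)
    {a : v.toValuationSubring} (ha : a ≠ 0) :
    Module.Finite K (v.toValuationSubring ⧸ Ideal.span {a}) ∧
    (finrank K (v.toValuationSubring ⧸ Ideal.span {a}) : ℤ) = v.ord (a : F) * v.deg := by
  have h := finrank_quotient_span {v} v.toValuationSubring (K := K) (F := F)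
    (FaithfulSMul.algebraMap_injective _ _)
    (fun f => ⟨fun ⟨r, hr⟩ => by
      intro w hw
      rw [Finset.mem_singleton.mp hw, ← hr]; exact r.2,
      fun h => ⟨⟨f, h v (Finset.mem_singleton_self v)⟩, rfl⟩⟩) ha
  rwa [Finset.sum_singleton] at h

omit [Algebra K F'] [IsScalarTower K F F'] in
theorem injective_algebraMap_integralClosure (v : Place K F) :
    Function.Injective (algebraMap v.toValuationSubring
      (integralClosure v.toValuationSubring F')) := by
  intro a b hab
  have h : algebraMap F F' (a : F) = algebraMap F F' (b : F) := congrArg Subtype.val hab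
  exact Subtype.ext ((algebraMap F F').injective h)

theorem nonempty_basis [IsFF K F] (v : Place K F)
    [FiniteDimensional F F'] [Algebra.IsIntegral F F'] [HasPrincipalDivisors K F'] :
    Nonempty (Basis (Fin (finrank F F')) v.toValuationSubring
      (integralClosure v.toValuationSubring F')) := by
  classical
  have hF' : IsFF K F' := IsFF.of_finite_extension (F := F) F'
  have hSRI := sumRamificationInertia (K := K) (F := F) F'
  obtain ⟨π, hπ⟩ := IsDiscreteValuationRing.exists_irreducible v.toValuationSubring
  have hm : maximalIdeal v.toValuationSubring = Ideal.span {π} := hπ.maximalIdeal_eq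
  have hπ0 : (π : F) ≠ 0 := by
    intro h; exact hπ.ne_zero (Subtype.ext h)
  have hπord : v.ord (π : F) = 1 := v.ord_coe_irreducible hπ
  set π' : integralClosure v.toValuationSubring F' :=
    algebraMap v.toValuationSubring (integralClosure v.toValuationSubring F') π with hπ'
  have hπ'0 : π' ≠ 0 := by
    rw [hπ', Ne, map_eq_zero_iff _ (injective_algebraMap_integralClosure F' v)]
    exact hπ.ne_zero
  obtain ⟨hfinK, hrankK⟩ := finrank_integralClosure_quotient F' v hπ'0
  have hπ'c : (π' : F') = algebraMap F F' (π : F) := rfl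
  have hsum : ∑ w ∈ v.fiber F', w.ord (π' : F') * w.deg = finrank F F' * v.deg := by
    rw [← hSRI.sum_ramificationIndex_mul_inertiaDeg v, Finset.sum_mul]
    refine Finset.sum_congr rfl fun w hw => ?_
    rw [hπ'c, w.ord_restrict, ← w.deg_restrict_mul_inertiaDeg (F := F), Place.mem_fiber.mp hw,
      hπord]
    push_cast
    ring
  rw [hsum] at hrankK
  -- comparison of the two quotients
  have hsub : ∀ b : integralClosure v.toValuationSubring F',
      b ∈ Ideal.span {π'} ↔ b ∈ (maximalIdeal v.toValuationSubring •
        (⊤ : Submodule v.toValuationSubring (integralClosure v.toValuationSubring F'))) := by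
    intro b
    rw [hm, Submodule.ideal_span_singleton_smul, Ideal.mem_span_singleton,
      Submodule.mem_smul_pointwise_iff_exists]
    constructor
    · rintro ⟨c, rfl⟩
      exact ⟨c, trivial, by rw [Algebra.smul_def]⟩
    · rintro ⟨c, -, rfl⟩
      exact ⟨c, by rw [Algebra.smul_def]⟩
  let e : (integralClosure v.toValuationSubring F' ⧸ Ideal.span {π'}) ≃ₗ[K]
      (integralClosure v.toValuationSubring F' ⧸ (maximalIdeal v.toValuationSubring •
        (⊤ : Submodule v.toValuationSubring (integralClosure v.toValuationSubring F')))) :=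
    { toFun := fun x => Quotient.liftOn' x (fun b => Submodule.Quotient.mk b) (by
        intro a b hab
        rw [Submodule.quotientRel_def] at hab
        rw [Submodule.Quotient.eq]
        exact (hsub _).mp hab)
      map_add' := by
        intro x y
        obtain ⟨x, rfl⟩ := Ideal.Quotient.mk_surjective x
        obtain ⟨y, rfl⟩ := Ideal.Quotient.mk_surjective y
        rfl
      map_smul' := by
        intro c x
        obtain ⟨x, rfl⟩ := Ideal.Quotient.mk_surjective x
        rfl
      invFun := fun x => Quotient.liftOn' x (fun b => Submodule.Quotient.mk b) (by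
        intro a b hab
        rw [Submodule.quotientRel_def] at hab
        rw [Submodule.Quotient.eq]
        exact (hsub _).mpr hab)
      left_inv := by
        intro x
        obtain ⟨x, rfl⟩ := Ideal.Quotient.mk_surjective x
        rfl
      right_inv := by
        intro x
        obtain ⟨x, rfl⟩ := Submodule.Quotient.mk_surjective _ x
        rfl }
  have hfinM := Module.Finite.equiv e
  have htower : IsScalarTower K (v.toValuationSubring ⧸ maximalIdeal v.toValuationSubring)
      (integralClosure v.toValuationSubring F' ⧸ (maximalIdeal v.toValuationSubring •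
        (⊤ : Submodule v.toValuationSubring (integralClosure v.toValuationSubring F')))) := by
    refine ⟨fun c x y => ?_⟩
    obtain ⟨x, rfl⟩ := Ideal.Quotient.mk_surjective x
    obtain ⟨y, rfl⟩ := Submodule.Quotient.mk_surjective _ y
    show Submodule.Quotient.mk ((c • x) • y) = Submodule.Quotient.mk (c • (x • y))
    rw [smul_assoc]
  have hfin' := Module.Finite.of_restrictScalars_finite K
    (v.toValuationSubring ⧸ maximalIdeal v.toValuationSubring)
    (integralClosure v.toValuationSubring F' ⧸ (maximalIdeal v.toValuationSubring •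
        (⊤ : Submodule v.toValuationSubring (integralClosure v.toValuationSubring F'))))
  have hfree : Module.Free (v.toValuationSubring ⧸ maximalIdeal v.toValuationSubring)
    (integralClosure v.toValuationSubring F' ⧸ (maximalIdeal v.toValuationSubring •
        (⊤ : Submodule v.toValuationSubring (integralClosure v.toValuationSubring F')))) := by
    let _ : Field (v.toValuationSubring ⧸ maximalIdeal v.toValuationSubring) :=
      Ideal.Quotient.field _
    exact Module.Free.of_divisionRing _ _
  have hmul := Module.finrank_mul_finrank K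
    (v.toValuationSubring ⧸ maximalIdeal v.toValuationSubring)
    (integralClosure v.toValuationSubring F' ⧸ (maximalIdeal v.toValuationSubring •
        (⊤ : Submodule v.toValuationSubring (integralClosure v.toValuationSubring F'))))
  rw [← e.finrank_eq] at hmul
  have hdeg : finrank K (v.toValuationSubring ⧸ maximalIdeal v.toValuationSubring) = v.deg := rfl
  rw [hdeg] at hmul
  have hrank : finrank (v.toValuationSubring ⧸ maximalIdeal v.toValuationSubring)
      (integralClosure v.toValuationSubring F' ⧸ (maximalIdeal v.toValuationSubring •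
        (⊤ : Submodule v.toValuationSubring (integralClosure v.toValuationSubring F'))))
      = finrank F F' := by
    have h1 : finrank K (integralClosure v.toValuationSubring F' ⧸ Ideal.span {π'})
      = finrank F F' * v.deg := by exact_mod_cast hrankK
    rw [h1, mul_comm (finrank F F')] at hmul
    exact Nat.eq_of_mul_eq_mul_left (deg_pos v) hmul
  refine exists_basis_of_finrank_residue_aux v.adicValuation F' v.toValuationSubring
    (integralClosure v.toValuationSubring F') (FaithfulSMul.algebraMap_injective _ _)
    (fun f hf => ⟨⟨f, (mem_iff_val_le_one v).mpr hf⟩, rfl⟩) (fun a => ?_)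
    (FaithfulSMul.algebraMap_injective _ _) hfin' hrank
  rw [mem_maximalIdeal, mem_nonunits_iff, ← v.adicValuation_coe_eq_one_iff]
  have h1 : v.adicValuation (a : F) ≤ 1 := v.adicValuation_le_one_of_mem a.2
  exact ⟨fun h => lt_of_le_of_ne h1 h, fun h => ne_of_lt h⟩

theorem finite_integralClosure [IsFF K F] (v : Place K F)
    [FiniteDimensional F F'] [Algebra.IsIntegral F F'] [HasPrincipalDivisors K F'] :
    Module.Finite v.toValuationSubring (integralClosure v.toValuationSubring F') :=
  let ⟨b⟩ := nonempty_basis F' v
  Module.Finite.of_basis b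

theorem free_integralClosure [IsFF K F] (v : Place K F)
    [FiniteDimensional F F'] [Algebra.IsIntegral F F'] [HasPrincipalDivisors K F'] :
    Module.Free v.toValuationSubring (integralClosure v.toValuationSubring F') :=
  let ⟨b⟩ := nonempty_basis F' v
  Module.Free.of_basis b

theorem ord_prod {ι : Type*} (v : Place K F) (s : Finset ι) (f : ι → F) (hf : ∀ i ∈ s, f i ≠ 0) :
    v.ord (∏ i ∈ s, f i) = ∑ i ∈ s, v.ord (f i) := by
  classical
  induction s using Finset.induction_on with
  | empty => simp
  | insert a s ha ih =>
    rw [Finset.prod_insert ha, Finset.sum_insert ha, v.ord_mul (hf a (Finset.mem_insert_self a s))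
      (Finset.prod_ne_zero_iff.mpr fun i hi => hf i (Finset.mem_insert_of_mem hi)),
      ih fun i hi => hf i (Finset.mem_insert_of_mem hi)]

theorem ord_eq_of_associated (v : Place K F) {a b : v.toValuationSubring} (h : Associated a b) :
    v.ord (a : F) = v.ord (b : F) := by
  obtain ⟨u, rfl⟩ := h
  rcases eq_or_ne a 0 with rfl | ha
  · simp
  · have ha' : (a : F) ≠ 0 := fun h => ha (Subtype.ext h)
    have hu : ((u : v.toValuationSubring) : F) ≠ 0 := fun h => u.ne_zero (Subtype.ext h)
    push_cast
    rw [v.ord_mul ha' hu, v.ord_coe_unit, add_zero]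

/-- norm formula for integral elements. -/
theorem ord_norm_of_integral [IsFF K F] (v : Place K F)
    [FiniteDimensional F F'] [Algebra.IsIntegral F F'] [HasPrincipalDivisors K F']
    {b : integralClosure v.toValuationSubring F'} (hb : b ≠ 0) :
    v.ord (Algebra.norm F (b : F')) * v.deg = ∑ w ∈ v.fiber F', w.ord (b : F') * w.deg := by
  classical
  obtain ⟨bas⟩ := nonempty_basis F' v
  have hfree := free_integralClosure F' v
  have hfinite := finite_integralClosure F' v
  have hI : Ideal.span {b} ≠ ⊥ := Ideal.span_singleton_eq_bot.not.2 hb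
  rw [← (finrank_integralClosure_quotient F' v hb).2]
  have hfin : ∀ i, Module.Finite K (v.toValuationSubring ⧸ Ideal.span
      ({(Ideal.span {b}).smithCoeffs bas hI i} : Set v.toValuationSubring)) := fun i =>
    (finrank_valuationSubring_quotient v (Ideal.smithCoeffs_ne_zero bas _ hI i)).1
  rw [Ideal.finrank_quotient_eq_sum K hI bas]
  push_cast
  rw [Finset.sum_congr rfl fun i _ =>
    (finrank_valuationSubring_quotient v (Ideal.smithCoeffs_ne_zero bas _ hI i)).2,
    ← Finset.sum_mul]
  congr 1
  have h1 : Algebra.norm F (b : F') = ((Algebra.norm v.toValuationSubring b :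
      v.toValuationSubring) : F) := by
    have hloc : IsLocalization (Algebra.algebraMapSubmonoid
        (integralClosure v.toValuationSubring F') (nonZeroDivisors v.toValuationSubring)) F' :=
      IsIntegralClosure.isLocalization v.toValuationSubring F F' _
    exact Algebra.norm_localization v.toValuationSubring
      (nonZeroDivisors v.toValuationSubring) (Rₘ := F) (Sₘ := F') b
  rw [h1, ord_eq_of_associated v (associated_norm_prod_smith bas hb)]
  push_cast
  rw [ord_prod]
  intro i _ h
  exact Ideal.smithCoeffs_ne_zero bas _ hI i (Subtype.ext h)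

/-- **Norm formula**: `ord_v (N f) = ∑_{w | v} f(w|v) ord_w f`. -/
theorem ord_norm [IsFF K F] (v : Place K F)
    [FiniteDimensional F F'] [Algebra.IsIntegral F F'] [HasPrincipalDivisors K F']
    {f : F'} (hf : f ≠ 0) :
    v.ord (Algebra.norm F f) = ∑ w ∈ v.fiber F', w.ord f * w.inertiaDeg F := by
  classical
  -- it suffices to prove the formula multiplied by `deg v`
  have hdeg : (v.deg : ℤ) ≠ 0 := by exact_mod_cast (deg_pos v).ne'
  suffices h : v.ord (Algebra.norm F f) * v.deg = ∑ w ∈ v.fiber F', w.ord f * w.deg by
    apply mul_right_cancel₀ hdeg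
    rw [h, Finset.sum_mul]
    refine Finset.sum_congr rfl fun w hw => ?_
    rw [← w.deg_restrict_mul_inertiaDeg (F := F), Place.mem_fiber.mp hw]
    push_cast
    ring
  obtain ⟨t, ht0, ht⟩ : ∃ t : v.toValuationSubring, t ≠ 0 ∧
      algebraMap F F' (t : F) * f ∈ integralClosure v.toValuationSubring F' := by
    obtain ⟨π, hπ⟩ := IsDiscreteValuationRing.exists_irreducible v.toValuationSubring
    have hπ0 : (π : F) ≠ 0 := fun h => hπ.ne_zero (Subtype.ext h)
    have hπ0' : algebraMap F F' (π : F) ≠ 0 := by simpa using hπ0
    have hπord : v.ord (π : F) = 1 := v.ord_coe_irreducible hπ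
    obtain ⟨N, hN⟩ : ∃ N : ℕ, ∀ w ∈ v.fiber F', -w.ord f ≤ N := by
      refine ⟨∑ w ∈ v.fiber F', (-w.ord f).toNat, fun w hw => ?_⟩
      have h1 : (-w.ord f).toNat ≤ ∑ w ∈ v.fiber F', (-w.ord f).toNat :=
        Finset.single_le_sum (f := fun w : Place K F' => (-w.ord f).toNat)
          (fun _ _ => Nat.zero_le _) hw
      have h2 := Int.self_le_toNat (-w.ord f)
      omega
    refine ⟨π ^ N, pow_ne_zero _ hπ.ne_zero, ?_⟩
    rw [mem_integralClosure_iff]
    intro w hw
    rw [show ((π ^ N : v.toValuationSubring) : F) = (π : F) ^ N from rfl, map_pow,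
      mem_iff_ord_nonneg w (mul_ne_zero (pow_ne_zero _ hπ0') hf),
      w.ord_mul (pow_ne_zero _ hπ0') hf, ord_pow, w.ord_restrict, Place.mem_fiber.mp hw, hπord]
    have h1 := hN w hw
    have h2 := w.ramificationIndex_pos (F := F)
    have h3 : (N : ℤ) * 1 ≤ N * (w.ramificationIndex F * 1) :=
      mul_le_mul_of_nonneg_left (by omega) (by omega)
    omega
  have ht0' : (t : F) ≠ 0 := fun h => ht0 (Subtype.ext h)
  have ht0'' : algebraMap F F' (t : F) ≠ 0 := by simpa using ht0'
  have h1 := ord_norm_of_integral F' v (b := ⟨_, ht⟩) (fun h => by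
    have := congrArg Subtype.val h
    exact mul_ne_zero ht0'' hf this)
  have h2 := ord_norm_of_integral F' v (b := algebraMap v.toValuationSubring _ t) (fun h => by
    rw [map_eq_zero_iff _ (injective_algebraMap_integralClosure F' v)] at h
    exact ht0 h)
  have h3 : ((algebraMap v.toValuationSubring (integralClosure v.toValuationSubring F') t :
    integralClosure v.toValuationSubring F') : F') = algebraMap F F' (t : F) := rfl
  rw [h3] at h2
  simp only at h1
  rw [map_mul, v.ord_mul (Algebra.norm_ne_zero_iff.mpr ht0'') (Algebra.norm_ne_zero_iff.mpr hf),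
    add_mul, h2] at h1
  have h4 : ∑ w ∈ v.fiber F', w.ord (algebraMap F F' (t : F) * f) * w.deg
      = ∑ w ∈ v.fiber F', w.ord (algebraMap F F' (t : F)) * w.deg
        + ∑ w ∈ v.fiber F', w.ord f * w.deg := by
    rw [← Finset.sum_add_distrib]
    exact Finset.sum_congr rfl fun w _ => by rw [w.ord_mul ht0'' hf, add_mul]
  rw [h4] at h1
  exact add_left_cancel h1

theorem pushforwardNormFormula (K F : Type*) [Field K] [Field F] [Algebra K F] [IsFF K F]
    (F' : Type*) [Field F'] [Algebra K F'] [Algebra F F'] [IsScalarTower K F F']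
    [FiniteDimensional F F'] [Algebra.IsIntegral F F'] [HasPrincipalDivisors K F'] :
    Divisor.PushforwardNormFormula K F F' := by
  classical
  intro f hf D hD v
  rw [Divisor.pushforward_apply, ord_norm F' v hf, ← Finset.sum_filter]
  refine Finset.sum_subset_zero_on_sdiff ?_ ?_ ?_
  · intro w hw
    rw [Finset.mem_filter] at hw
    exact Place.mem_fiber.mpr hw.2
  · intro w hw
    rw [Finset.mem_sdiff, Finset.mem_filter, Place.mem_fiber] at hw
    have : w ∉ D.support := fun h => hw.2 ⟨h, hw.1⟩
    rw [← hD, Finsupp.notMem_support_iff.mp this, zero_mul]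
  · intro w _
    rw [hD]

end Extension

end Fermat.Agent.FF
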