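import Fermat.Agent.FF.Field

set_option autoImplicit false

noncomputable section

open AlgebraicCurve WithZero Module Polynomial IntermediateField

namespace Fermat.Agent.FF

variable {K F : Type*} [Field K] [Field F] [Algebra K F]

theorem isFF_nontrivial_adjoin_inv (y : F) : K⟮y⁻¹⟯ = K⟮y⟯ := by
  apply le_antisymm
  · rw [IntermediateField.adjoin_simple_le_iff]
    exact inv_mem (mem_adjoin_simple_self K y)
  · rw [IntermediateField.adjoin_simple_le_iff]
    have := inv_mem (mem_adjoin_simple_self K y⁻¹)
    rwa [inv_inv] at this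

theorem mul_mem_fil_of_ord {v : Place K F} (y : F) {n : ℤ} {f : F}
    (hf : f ∈ fil v n) : y * f ∈ fil v (n - v.ord y) := by
  rcases eq_or_ne y 0 with rfl | hy0
  · simp
  rcases eq_or_ne f 0 with rfl | hf0
  · simp
  rw [mem_fil_iff] at hf ⊢
  right
  rw [v.ord_mul hy0 hf0]
  have := hf.resolve_left hf0
  omega

theorem finite_residueField [IsFF K F] (v : Place K F) :
    Module.Finite K v.ResidueField ∧
      ∀ y : F, 0 < v.ord y → v.deg ≤ finrank K⟮y⟯ F := by
  obtain ⟨π, hπ⟩ := exists_val_uniformizer v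
  have key : ∀ y : F, 0 < v.ord y → RFin (fil v (-1)) (fil v 0) ∧
      rd (fil v (-1)) (fil v 0) ≤ finrank K⟮y⟯ F := by
    intro y hy
    refine rd_le_finrank (transcendental_of_ord_ne_zero v (by omega)) _ _ ?_ ?_
    · intro m hm
      have := mul_mem_fil_of_ord y hm
      exact fil_mono v (by omega) this
    · intro m hm
      have := mul_mem_fil_of_ord y hm
      exact fil_mono v (by omega) this
  have hker := lead_ker v π hπ 0
  rw [zero_sub] at hker
  have e := (rqEquivRange _ hker).trans
    (LinearEquiv.ofTop _ (LinearMap.range_eq_top.mpr (lead_surjective v π hπ 0)))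
  have hπ1 : v.ord π = 1 := by simp [Place.ord, hπ]
  refine ⟨?_, fun y hy => ?_⟩
  · have h1 := (key π (by omega)).1
    unfold RFin at h1
    exact Module.Finite.equiv e
  · have h1 := (key y hy).2
    rw [rd, e.finrank_eq] at h1
    exact h1

instance [IsFF K F] (v : Place K F) : Module.Finite K v.ResidueField :=
  (finite_residueField v).1

theorem deg_pos [IsFF K F] (v : Place K F) : 0 < v.deg := Module.finrank_pos

/-- `∑_{v ∈ s} ord_v(y) deg v ≤ [F:K(y)]`. -/
theorem sum_zeros_le [IsFF K F] {y : F} (hy : Transcendental K y) (s : Finset (Place K F))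
    (hs : ∀ v ∈ s, 0 ≤ v.ord y) :
    ∑ v ∈ s, v.ord y * v.deg ≤ finrank K⟮y⟯ F := by
  classical
  set D : Divisor K F := -∑ v ∈ s, Finsupp.single v (v.ord y) with hD
  have hDv : ∀ v ∈ s, D v = -v.ord y := by
    intro v hv
    rw [hD, Finsupp.neg_apply, Finset.sum_apply', Finset.sum_eq_single v]
    · simp
    · intro b _ hb; simp [Finsupp.single_apply, hb]
    · intro h; exact absurd hv h
  have hDv' : ∀ v, v ∉ s → D v = 0 := by
    intro v hv
    rw [hD, Finsupp.neg_apply, Finset.sum_apply', Finset.sum_eq_zero]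
    · simp
    · intro b hb
      have : b ≠ v := fun h => hv (h ▸ hb)
      simp [Finsupp.single_apply, this]
  have hD0 : D ≤ 0 := by
    intro v
    by_cases hv : v ∈ s
    · rw [hDv v hv]; simpa using hs v hv
    · rw [hDv' v hv]; simp
  have h1 := MM_eq s hD0 (fun v hv => by
    by_contra h
    exact hv (hDv' v h))
  have h2 := (rd_le_finrank hy (MM (s : Set (Place K F)) 0) (MM (s : Set (Place K F)) D)
    (by
      intro m hm
      rw [mem_MM] at hm ⊢
      intro v hv
      have h3 := mul_mem_fil_of_ord y (hm v hv)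
      refine fil_mono v ?_ h3
      have := hs v hv
      omega)
    (by
      intro m hm
      rw [mem_MM] at hm ⊢
      intro v hv
      have h3 := mul_mem_fil_of_ord y (hm v hv)
      refine fil_mono v ?_ h3
      rw [hDv v hv]
      simp)).2
  have h3 : Divisor.degree D = -∑ v ∈ s, v.ord y * v.deg := by
    rw [hD, map_neg, map_sum]
    simp
  rw [h3, map_zero] at h1
  have h4 : ((rd (MM (s : Set (Place K F)) D) (MM (s : Set (Place K F)) 0) : ℕ) : ℤ)
      ≤ finrank K⟮y⟯ F := by exact_mod_cast h2
  linarith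

theorem finite_zeros [IsFF K F] {y : F} (hy : Transcendental K y) :
    {v : Place K F | 0 < v.ord y}.Finite := by
  classical
  by_contra hinf
  obtain ⟨s, hs, hcard⟩ := Set.Infinite.exists_subset_card_eq hinf (finrank K⟮y⟯ F + 1)
  have h1 := sum_zeros_le hy s (fun v hv => le_of_lt (hs hv))
  have h2 : ∑ v ∈ s, (1 : ℤ) ≤ ∑ v ∈ s, v.ord y * v.deg := by
    refine Finset.sum_le_sum fun v hv => ?_
    have h3 : 0 < v.ord y := hs hv
    have h4 := deg_pos v
    nlinarith
  rw [Finset.sum_const, hcard] at h2
  simp only [nsmul_eq_mul, mul_one] at h2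
  push_cast at h2
  omega

theorem transcendental_inv {y : F} (hy : Transcendental K y) : Transcendental K y⁻¹ :=
  fun h => hy (by simpa using h.inv)

theorem finite_ord_ne_zero [IsFF K F] (y : F) : {v : Place K F | v.ord y ≠ 0}.Finite := by
  rcases eq_or_ne y 0 with rfl | hy0
  · simp
  by_cases hy : IsAlgebraic K y
  · have : {v : Place K F | v.ord y ≠ 0} = ∅ := by
      ext v
      simp [algebraic_ord_eq_zero v hy hy0]
    rw [this]
    exact Set.finite_empty
  · have h1 := finite_zeros hy
    have h2 := finite_zeros (transcendental_inv hy)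
    refine (h1.union h2).subset fun v hv => ?_
    have hv' : v.ord y ≠ 0 := hv
    rcases lt_or_gt_of_ne hv' with h | h
    · right
      show 0 < v.ord y⁻¹
      rw [v.ord_inv]; omega
    · left; exact h

/-- Existence of zeros of transcendental elements. -/
theorem exists_zero [IsFF K F] {y : F} (hy : Transcendental K y) :
    ∃ v : Place K F, 0 < v.ord y := by
  set A : Subring F := (Algebra.adjoin K {y}).toSubring with hA
  have hyA : y ∈ A := Algebra.subset_adjoin (Set.mem_singleton y)
  have hne : Ideal.span {(⟨y, hyA⟩ : A)} ≠ ⊤ := by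
    rw [ne_eq, Ideal.span_singleton_eq_top]
    intro hu
    obtain ⟨⟨z, hz⟩, hyz⟩ := isUnit_iff_exists_inv.mp hu
    have hyz' : y * z = 1 := congrArg Subtype.val hyz
    have hz' : z ∈ Algebra.adjoin K {y} := hz
    rw [Algebra.adjoin_singleton_eq_range_aeval] at hz'
    obtain ⟨q, hq⟩ := hz'
    have h1 : aeval y (X * q - 1) = 0 := by
      rw [map_sub, map_mul, aeval_X, map_one]
      have : (aeval y) q = z := hq
      rw [this, hyz', sub_self]
    have h2 := (transcendental_iff.mp hy) _ h1
    have h3 := congrArg (fun p : K[X] => p.coeff 0) h2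
    simp at h3
  obtain ⟨B, hAB, hI⟩ := Ideal.image_subset_nonunits_valuationSubring _ hne
  have hyB : y ∈ B.nonunits := hI ⟨⟨y, hyA⟩, Ideal.mem_span_singleton_self _, rfl⟩
  have hKB : ∀ a : K, algebraMap K F a ∈ B := fun a =>
    hAB ((Algebra.adjoin K {y}).algebraMap_mem a)
  have hy0 : y ≠ 0 := by rintro rfl; exact hy isAlgebraic_zero
  have hBtop : B ≠ ⊤ := by
    rintro rfl
    rw [ValuationSubring.mem_nonunits_iff] at hyB
    have h1 : (y⁻¹ : F) ∈ (⊤ : ValuationSubring F) := ValuationSubring.mem_top _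
    rw [← ValuationSubring.valuation_le_one_iff, map_inv₀] at h1
    have h2 : (⊤ : ValuationSubring F).valuation y ≠ 0 := (Valuation.ne_zero_iff _).mpr hy0
    rw [inv_le_one₀ (zero_lt_iff.mpr h2)] at h1
    exact absurd hyB (not_lt.mpr h1)
  refine ⟨placeOf B hKB hBtop, ?_⟩
  have h1 : y ∈ (placeOf B hKB hBtop).toValuationSubring := B.nonunits_subset hyB
  have h2 := (mem_iff_ord_nonneg _ hy0).mp h1
  rcases h2.lt_or_eq with h | h
  · exact h
  · exfalso
    have h3 : y⁻¹ ∈ (placeOf B hKB hBtop).toValuationSubring :=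
      (mem_iff_ord_nonneg _ (inv_ne_zero hy0)).mpr (by rw [Place.ord_inv]; omega)
    have h4 : y⁻¹ ∈ B := h3
    rw [ValuationSubring.mem_nonunits_iff] at hyB
    rw [← ValuationSubring.valuation_le_one_iff, map_inv₀] at h4
    have h5 : B.valuation y ≠ 0 := (Valuation.ne_zero_iff _).mpr hy0
    rw [inv_le_one₀ (zero_lt_iff.mpr h5)] at h4
    exact absurd hyB (not_lt.mpr h4)

theorem exists_place [IsFF K F] : Nonempty (Place K F) := by
  obtain ⟨x, hx⟩ := IsFF.exists_transcendental (K := K) (F := F)
  obtain ⟨v, -⟩ := exists_zero hx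
  exact ⟨v⟩

/-- Elements without poles are algebraic. -/
theorem isAlgebraic_of_forall_ord_nonneg [IsFF K F] {f : F} (hf : ∀ v : Place K F, 0 ≤ v.ord f) :
    IsAlgebraic K f := by
  by_contra h
  obtain ⟨v, hv⟩ := exists_zero (transcendental_inv h)
  rw [v.ord_inv] at hv
  have := hf v
  omega

theorem finite_MM_univ_zero [IsFF K F] : Module.Finite K (MM (Set.univ : Set (Place K F)) 0) := by
  obtain ⟨P⟩ := exists_place (K := K) (F := F)
  obtain ⟨π, hπ⟩ := exists_val_uniformizer P
  have hinj : Function.Injective (leadM (Set.univ : Set (Place K F)) 0 (Set.mem_univ P) π hπ 0) := by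
    rw [← LinearMap.ker_eq_bot, eq_bot_iff]
    intro f hf
    have h1 : (Submodule.inclusion (fun _ hf => mem_MM.mp hf P (Set.mem_univ P)) f : fil P _) ∈
        LinearMap.ker (lead P π hπ ((0 : Divisor K F) P)) := hf
    rw [lead_ker, mem_submoduleOf] at h1
    have h2 : (f : F) ∈ fil P (-1) := h1
    rw [Submodule.mem_bot]
    by_contra hne
    have hne' : (f : F) ≠ 0 := by simpa using hne
    have h3 := (mem_fil_iff.mp h2).resolve_left hne'
    have h4 : IsAlgebraic K (f : F) := by
      apply isAlgebraic_of_forall_ord_nonneg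
      intro v
      have := (mem_fil_iff.mp (mem_MM.mp f.2 v (Set.mem_univ v))).resolve_left hne'
      simpa using this
    have h5 := algebraic_ord_eq_zero P h4 hne'
    omega
  exact Module.Finite.of_injective _ hinj

end Fermat.Agent.FF
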